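import Mathlib.NumberTheory.ModularForms.NormTrace
import Mathlib.NumberTheory.ModularForms.Discriminant
import Fermat.Agent.S23.Basic

/-!
# T20 core definitions: weakly holomorphic forms on `Γ₀(N)`, conjugates, the conjugate determinant
-/

set_option autoImplicit false

open UpperHalfPlane ModularForm CongruenceSubgroup Matrix.SpecialLinearGroup
open scoped MatrixGroups ModularForm Manifold

namespace Fermat.Agent.S20

open Fermat.Agent.S23 (G0 IsMF IsCF)

local notation "Δ" => ModularForm.discriminant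

/-- The coset space `SL(2, ℤ) ⧸ Γ₀(N)` (left cosets, left action). -/
abbrev X (N : ℕ) : Type := SL(2, ℤ) ⧸ Gamma0 N

instance (N : ℕ) [NeZero N] : Finite (X N) := Subgroup.finite_quotient_of_finiteIndex

noncomputable instance (N : ℕ) [NeZero N] : Fintype (X N) := Fintype.ofFinite _

/-- The index `μ = [SL(2, ℤ) : Γ₀(N)]`. -/
noncomputable def mu (N : ℕ) : ℕ := Nat.card (X N)

lemma mu_eq_card (N : ℕ) [NeZero N] : mu N = Fintype.card (X N) := Nat.card_eq_fintype_card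

lemma mem_G0_iff {N : ℕ} (γ : SL(2, ℤ)) : (mapGL ℝ γ) ∈ G0 N ↔ γ ∈ Gamma0 N := by
  constructor
  · rintro ⟨δ, hδ, h⟩
    have : δ = γ := mapGL_injective h
    exact this ▸ hδ
  · intro h
    exact ⟨γ, h, rfl⟩


/-- Constructor for `IsMF (G0 N) k f` from the three elementary conditions. -/
theorem isMF_mk {N : ℕ} [NeZero N] {k : ℤ} {f : ℍ → ℂ} (hf : MDiff f)
    (hinv : ∀ γ ∈ Gamma0 N, f ∣[k] γ = f)
    (hbdd : ∀ δ : SL(2, ℤ), IsBoundedAtImInfty (f ∣[k] δ)) : IsMF (G0 N) k f := by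
  refine ⟨{ toFun := f
            slash_action_eq' := ?_
            holo' := hf
            bdd_at_cusps' := fun {cusp} hcusp => ?_ }, rfl⟩
  · rintro γ ⟨δ, hδ, rfl⟩
    exact hinv δ hδ
  · have hc' := (Subgroup.IsArithmetic.isCusp_iff_isCusp_SL2Z (G0 N)).mp hcusp
    rw [OnePoint.isBoundedAt_iff_forall_SL2Z hc']
    exact fun δ _ => hbdd δ

lemma IsMF.slash_eq_SL {N : ℕ} {k : ℤ} {f : ℍ → ℂ} (hf : IsMF (G0 N) k f) {γ : SL(2, ℤ)}
    (hγ : γ ∈ Gamma0 N) : f ∣[k] γ = f :=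
  hf.slash_eq ((mem_G0_iff γ).mpr hγ)


/-! ### Powers of the discriminant -/

/-- `Δ ^ n` as a function on `ℍ`. -/
noncomputable def dpow (n : ℕ) : ℍ → ℂ := fun z => Δ z ^ n

lemma dpow_apply (n : ℕ) (z : ℍ) : dpow n z = Δ z ^ n := rfl

lemma dpow_ne_zero (n : ℕ) (z : ℍ) : dpow n z ≠ 0 := pow_ne_zero _ (discriminant_ne_zero z)

lemma discriminant_smul' (γ : SL(2, ℤ)) (z : ℍ) : Δ (γ • z) = denom γ z ^ (12 : ℤ) * Δ z := by
  have h : ((γ : GL (Fin 2) ℝ)) ∈ (𝒮ℒ : Subgroup (GL (Fin 2) ℝ)) := ⟨γ, rfl⟩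
  exact SlashInvariantForm.slash_action_eqn'' CuspForm.discriminant h z

lemma dpow_slash (n : ℕ) (γ : SL(2, ℤ)) : dpow n ∣[(12 * n : ℤ)] γ = dpow n := by
  ext z
  rw [SL_slash_apply, dpow_apply, dpow_apply, discriminant_smul', mul_pow, ← zpow_natCast,
    ← zpow_mul, mul_right_comm, ← zpow_add₀ (denom_ne_zero γ z)]
  simp

lemma mdiff_dpow (n : ℕ) : MDiff (dpow n) :=
  (ModularFormClass.holo CuspForm.discriminant).pow n

lemma isBoundedAtImInfty_dpow (n : ℕ) : IsBoundedAtImInfty (dpow n) := by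
  have h : IsBoundedAtImInfty (Δ : ℍ → ℂ) :=
    (discriminant_isZeroAtImInfty).isBoundedAtImInfty
  induction n with
  | zero =>
    have : dpow 0 = fun _ => (1 : ℂ) := by ext z; simp [dpow]
    rw [this]
    exact Filter.const_boundedAtFilter _ (1 : ℂ)
  | succ n ih =>
    have : dpow (n + 1) = dpow n * (Δ : ℍ → ℂ) := by
      ext z; simp [dpow, pow_succ]
    rw [this]
    exact ih.mul h


/-! ### Weakly holomorphic forms -/

/-- `f` is a weakly holomorphic modular form of weight `k` on `Γ₀(N)` whose pole order at every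
cusp is at most `n` (measured in `q`): `Δ ^ n * f` is a holomorphic modular form. -/
def IsWH (N : ℕ) (k : ℤ) (n : ℕ) (f : ℍ → ℂ) : Prop :=
  IsMF (G0 N) (k + 12 * n) (dpow n * f)

section IsWH

variable {N : ℕ} {k : ℤ} {n : ℕ} {f g : ℍ → ℂ}

lemma eq_dpow_inv_mul (n : ℕ) (f : ℍ → ℂ) : f = (fun z => (dpow n z)⁻¹) * (dpow n * f) := by
  ext z
  simp [dpow_ne_zero n z]

lemma IsWH.mdiff (hf : IsWH N k n f) : MDiff f := by
  have h1 : MDiff (dpow n * f) := IsMF.mdiff hf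
  have h2 : MDiff (fun z => (dpow n z)⁻¹) := fun z =>
    (mdiff_dpow n z).inv (dpow_ne_zero n z)
  rw [eq_dpow_inv_mul n f]
  exact h2.mul h1

lemma slash_dpow_mul (n : ℕ) (k : ℤ) (f : ℍ → ℂ) (γ : SL(2, ℤ)) :
    (dpow n * f) ∣[k + 12 * n] γ = dpow n * (f ∣[k] γ) := by
  rw [add_comm, mul_slash_SL2, dpow_slash]

lemma IsWH.slash_eq (hf : IsWH N k n f) {γ : SL(2, ℤ)} (hγ : γ ∈ Gamma0 N) : f ∣[k] γ = f := by
  have h := IsMF.slash_eq_SL hf hγ
  rw [slash_dpow_mul] at h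
  ext z
  have := congrFun h z
  simpa [dpow_ne_zero n z] using this

lemma IsWH.isBounded [NeZero N] (hf : IsWH N k n f) (δ : SL(2, ℤ)) :
    IsBoundedAtImInfty (dpow n * (f ∣[k] δ)) := by
  have := hf.isBoundedAtImInfty_slash δ
  rwa [slash_dpow_mul] at this

/-- Constructor for `IsWH`. -/
theorem isWH_mk [NeZero N] (hf : MDiff f) (hinv : ∀ γ ∈ Gamma0 N, f ∣[k] γ = f)
    (hbdd : ∀ δ : SL(2, ℤ), IsBoundedAtImInfty (dpow n * (f ∣[k] δ))) : IsWH N k n f := by
  refine isMF_mk ((mdiff_dpow n).mul hf) (fun γ hγ => ?_) (fun δ => ?_)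
  · rw [slash_dpow_mul, hinv γ hγ]
  · rw [slash_dpow_mul]
    exact hbdd δ

lemma IsWH.zero [NeZero N] : IsWH N k n 0 := by
  unfold IsWH
  rw [mul_zero]
  exact IsMF.zero

lemma IsWH.add (hf : IsWH N k n f) (hg : IsWH N k n g) : IsWH N k n (f + g) := by
  unfold IsWH at *
  rw [mul_add]
  exact IsMF.add hf hg

lemma IsWH.neg (hf : IsWH N k n f) : IsWH N k n (-f) := by
  unfold IsWH at *
  rw [mul_neg]
  exact IsMF.neg hf

lemma IsWH.sub (hf : IsWH N k n f) (hg : IsWH N k n g) : IsWH N k n (f - g) := by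
  unfold IsWH at *
  rw [mul_sub]
  exact IsMF.sub hf hg

lemma IsWH.smul (c : ℂ) (hf : IsWH N k n f) : IsWH N k n (c • f) := by
  unfold IsWH at *
  rw [mul_smul_comm]
  exact IsMF.smul c hf

lemma IsWH.sum {ι : Type*} (s : Finset ι) {F : ι → ℍ → ℂ} (h : ∀ i ∈ s, IsWH N k n (F i)) :
    IsWH N k n (∑ i ∈ s, F i) := by
  unfold IsWH at *
  rw [Finset.mul_sum]
  exact IsMF.sum s h

lemma IsWH.congr_weight {k' : ℤ} (hf : IsWH N k n f) (h : k = k') : IsWH N k' n f := h ▸ hf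

lemma IsWH.mul {k₁ k₂ : ℤ} {n₁ n₂ : ℕ} (hf : IsWH N k₁ n₁ f) (hg : IsWH N k₂ n₂ g) :
    IsWH N (k₁ + k₂) (n₁ + n₂) (f * g) := by
  unfold IsWH at *
  have h : dpow (n₁ + n₂) * (f * g) = (dpow n₁ * f) * (dpow n₂ * g) := by
    ext z; simp [dpow, pow_add]; ring
  rw [h]
  exact (IsMF.mul hf hg).congr_weight (by push_cast; ring)

lemma IsWH.of_isMF (hf : IsMF (G0 N) k f) : IsWH N k 0 f := by
  unfold IsWH
  have h : dpow 0 * f = f := by ext z; simp [dpow]
  rw [h]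
  exact hf.congr_weight (by simp)

lemma IsWH.isMF (hf : IsWH N k 0 f) : IsMF (G0 N) k f := by
  unfold IsWH at hf
  have h : dpow 0 * f = f := by ext z; simp [dpow]
  rw [h] at hf
  exact hf.congr_weight (by simp)

lemma IsWH.mono {m : ℕ} (hf : IsWH N k n f) (h : n ≤ m) : IsWH N k m f := by
  obtain ⟨d, rfl⟩ := Nat.exists_eq_add_of_le h
  unfold IsWH at *
  have hd : IsMF (G0 N) (12 * d) (dpow d) := by
    have h1 : IsMF (G0 N) 12 (Δ : ℍ → ℂ) := by
      have : IsMF 𝒮ℒ 12 (Δ : ℍ → ℂ) := IsCF.isMF ⟨CuspForm.discriminant, rfl⟩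
      refine IsMF.mono ?_ this
      rintro _ ⟨γ, -, rfl⟩
      exact ⟨γ, rfl⟩
    have := h1.pow d
    have h2 : (Δ : ℍ → ℂ) ^ d = dpow d := rfl
    rw [h2] at this
    exact this.congr_weight (by ring)
  have h : dpow (n + d) * f = (dpow n * f) * dpow d := by
    ext z; simp [dpow, pow_add]; ring
  rw [h]
  exact (IsMF.mul hf hd).congr_weight (by push_cast; ring)

end IsWH


/-! ### Conjugates -/

section cj

variable {N : ℕ} {k : ℤ} {f g : ℍ → ℂ}

/-- The conjugate of `f` along the coset `x`: `f ∣[k] g⁻¹` for `g ∈ x` (well defined when `f` is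
`Γ₀(N)`-invariant of weight `k`; we use `Quotient.out` so that the definition is unconditional). -/
noncomputable def cj (k : ℤ) (f : ℍ → ℂ) (x : X N) : ℍ → ℂ := f ∣[k] (Quotient.out x)⁻¹

lemma cj_mk (hf : ∀ γ ∈ Gamma0 N, f ∣[k] γ = f) (g : SL(2, ℤ)) :
    cj k f ((g : SL(2, ℤ)) : X N) = f ∣[k] g⁻¹ := by
  unfold cj
  have h : (g⁻¹ * Quotient.out ((g : SL(2, ℤ)) : X N)) ∈ Gamma0 N := by
    have := QuotientGroup.mk_out_eq_mul (Gamma0 N) g
    obtain ⟨γ, hγ⟩ := this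
    have h' : Quotient.out ((g : SL(2, ℤ)) : X N) = g * γ := hγ
    rw [h']
    simp
  set o := Quotient.out ((g : SL(2, ℤ)) : X N) with ho
  have h2 : o⁻¹ = (g⁻¹ * o)⁻¹ * g⁻¹ := by group
  rw [h2, SlashAction.slash_mul, hf _ (inv_mem h)]

lemma cj_one (hf : ∀ γ ∈ Gamma0 N, f ∣[k] γ = f) : cj k f (((1 : SL(2, ℤ))) : X N) = f := by
  rw [cj_mk hf]
  simp

lemma cj_slash (hf : ∀ γ ∈ Gamma0 N, f ∣[k] γ = f) (x : X N) (h : SL(2, ℤ)) :
    (cj k f x) ∣[k] h = cj k f (h⁻¹ • x) := by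
  induction x using QuotientGroup.induction_on with
  | H g =>
    have : h⁻¹ • ((g : SL(2, ℤ)) : X N) = ((h⁻¹ * g : SL(2, ℤ)) : X N) := rfl
    rw [this, cj_mk hf, cj_mk hf, ← SlashAction.slash_mul]
    congr 1
    group

lemma cj_apply_smul (hf : ∀ γ ∈ Gamma0 N, f ∣[k] γ = f) (x : X N) (h : SL(2, ℤ)) (z : ℍ) :
    cj k f x (h • z) = denom h z ^ k * cj k f (h⁻¹ • x) z := by
  have := congrFun (cj_slash hf x h) z
  rw [SL_slash_apply] at this
  rw [← this, mul_comm, mul_assoc, ← zpow_add₀ (denom_ne_zero h z)]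
  simp

lemma cj_zero (x : X N) : cj k (0 : ℍ → ℂ) x = 0 := by
  unfold cj; exact SlashAction.zero_slash _ _

lemma cj_add (x : X N) : cj k (f + g) x = cj k f x + cj k g x := by
  unfold cj; exact SlashAction.add_slash _ _ _ _

lemma cj_smul (c : ℂ) (x : X N) : cj k (c • f) x = c • cj k f x := by
  unfold cj; exact SL_smul_slash _ _ _ _

lemma cj_neg (x : X N) : cj k (-f) x = -cj k f x := by
  unfold cj; exact SlashAction.neg_slash _ _ _

lemma cj_sum {ι : Type*} (s : Finset ι) (F : ι → ℍ → ℂ) (x : X N) :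
    cj k (∑ i ∈ s, F i) x = ∑ i ∈ s, cj k (F i) x := by
  unfold cj; exact SlashAction.sum_slash _ _

lemma cj_mul {k₁ k₂ : ℤ} (x : X N) : cj (k₁ + k₂) (f * g) x = cj k₁ f x * cj k₂ g x := by
  unfold cj; exact mul_slash_SL2 _ _ _ _ _

/-- A level-one form is its own conjugate. -/
lemma cj_levelOne (hg : ∀ γ : SL(2, ℤ), g ∣[k] γ = g) (x : X N) : cj k g x = g := by
  unfold cj; exact hg _

lemma mdiff_cj (hf : MDiff f) (x : X N) : MDiff (cj k f x) := by
  unfold cj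
  rw [SL_slash]
  exact hf.slash k _

lemma cj_dpow (n : ℕ) (x : X N) : cj (12 * n) (dpow n) x = dpow n :=
  cj_levelOne (fun γ => dpow_slash n γ) x

end cj


/-! ### The conjugate determinant -/

section det

open Classical

variable {N : ℕ} [NeZero N] {k : ℤ} {n : ℕ}

/-- The matrix of conjugates `(cj k (F a) x z)_{a, x}` of a tuple `F` indexed by `X N`. -/
noncomputable def conjMat (k : ℤ) (F : X N → ℍ → ℂ) (z : ℍ) : Matrix (X N) (X N) ℂ :=
  Matrix.of fun a x => cj k (F a) x z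

/-- The conjugate determinant `𝔻_F(z) = det (cj k (F a) x z)_{a, x}`. -/
noncomputable def detFun (k : ℤ) (F : X N → ℍ → ℂ) (z : ℍ) : ℂ := (conjMat k F z).det

omit [NeZero N] in
lemma conjMat_smul {F : X N → ℍ → ℂ} (hF : ∀ a, ∀ γ ∈ Gamma0 N, F a ∣[k] γ = F a)
    (h : SL(2, ℤ)) (z : ℍ) :
    conjMat k F (h • z) =
      (denom h z ^ k) • (conjMat k F z).submatrix id (MulAction.toPerm h⁻¹ : Equiv.Perm (X N)) := by
  ext a x
  simp only [conjMat, Matrix.of_apply, Matrix.smul_apply, Matrix.submatrix_apply, id,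
    MulAction.toPerm_apply, smul_eq_mul]
  exact cj_apply_smul (hF a) x h z

theorem detFun_smul {F : X N → ℍ → ℂ} (hF : ∀ a, ∀ γ ∈ Gamma0 N, F a ∣[k] γ = F a)
    (h : SL(2, ℤ)) (z : ℍ) :
    detFun k F (h • z) =
      ((Equiv.Perm.sign (MulAction.toPerm h⁻¹ : Equiv.Perm (X N)) : ℤ) : ℂ) *
        (denom h z ^ k) ^ mu N * detFun k F z := by
  unfold detFun
  rw [conjMat_smul hF, Matrix.det_smul, Matrix.det_permute', mu_eq_card]
  ring

theorem detFun_sq_smul {F : X N → ℍ → ℂ} (hF : ∀ a, ∀ γ ∈ Gamma0 N, F a ∣[k] γ = F a)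
    (h : SL(2, ℤ)) (z : ℍ) :
    detFun k F (h • z) ^ 2 = denom h z ^ (2 * k * (mu N : ℤ)) * detFun k F z ^ 2 := by
  rw [detFun_smul hF, mul_pow, mul_pow]
  have hs : (((Equiv.Perm.sign (MulAction.toPerm h⁻¹ : Equiv.Perm (X N)) : ℤ) : ℂ)) ^ 2 = 1 := by
    rcases Int.units_eq_one_or (Equiv.Perm.sign (MulAction.toPerm h⁻¹ : Equiv.Perm (X N))) with h | h
      <;> simp [h]
  rw [hs, one_mul]
  congr 1
  rw [← pow_mul, ← zpow_natCast, ← zpow_mul]
  congr 1
  push_cast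
  ring

theorem detFun_sq_slash {F : X N → ℍ → ℂ} (hF : ∀ a, ∀ γ ∈ Gamma0 N, F a ∣[k] γ = F a)
    (h : SL(2, ℤ)) :
    (fun z => detFun k F z ^ 2) ∣[2 * k * (mu N : ℤ)] h = fun z => detFun k F z ^ 2 := by
  ext z
  rw [SL_slash_apply, detFun_sq_smul hF, mul_comm, ← mul_assoc, ← zpow_add₀ (denom_ne_zero h z)]
  simp

lemma detFun_eq_sum (F : X N → ℍ → ℂ) :
    detFun k F = ∑ σ : Equiv.Perm (X N),
      (fun _ : ℍ => (((Equiv.Perm.sign σ : ℤ)) : ℂ)) * ∏ i, cj k (F (σ i)) i := by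
  ext z
  simp only [detFun, Matrix.det_apply', conjMat, Matrix.of_apply, Finset.sum_apply, Pi.mul_apply,
    Finset.prod_apply]

theorem mdiff_detFun {F : X N → ℍ → ℂ} (hF : ∀ a, MDiff (F a)) : MDiff (detFun k F) := by
  rw [detFun_eq_sum]
  refine MDifferentiable.sum fun σ _ => ?_
  refine MDifferentiable.mul mdifferentiable_const ?_
  exact MDifferentiable.prod fun i _ => mdiff_cj (hF _) i


lemma isBoundedAtImInfty_sum {ι : Type*} (s : Finset ι) (f : ι → ℍ → ℂ)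
    (h : ∀ i ∈ s, IsBoundedAtImInfty (f i)) : IsBoundedAtImInfty (∑ i ∈ s, f i) := by
  induction s using Finset.induction_on with
  | empty =>
    rw [Finset.sum_empty]
    exact Filter.const_boundedAtFilter atImInfty (0 : ℂ)
  | insert a s ha ih =>
    rw [Finset.sum_insert ha]
    exact (h a (Finset.mem_insert_self a s)).add
      (ih fun i hi => h i (Finset.mem_insert_of_mem hi))

lemma isBoundedAtImInfty_prod {ι : Type*} (s : Finset ι) (f : ι → ℍ → ℂ)
    (h : ∀ i ∈ s, IsBoundedAtImInfty (f i)) : IsBoundedAtImInfty (∏ i ∈ s, f i) := by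
  induction s using Finset.induction_on with
  | empty =>
    rw [Finset.prod_empty]
    exact Filter.const_boundedAtFilter atImInfty (1 : ℂ)
  | insert a s ha ih =>
    rw [Finset.prod_insert ha]
    exact (h a (Finset.mem_insert_self a s)).mul
      (ih fun i hi => h i (Finset.mem_insert_of_mem hi))

/-- `Δ ^ (n μ) * 𝔻_F` is bounded at `i∞` if all `F a` have pole order `≤ n` at all cusps. -/
theorem isBoundedAtImInfty_dpow_mul_detFun {F : X N → ℍ → ℂ} (hF : ∀ a, IsWH N k n (F a)) :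
    IsBoundedAtImInfty (dpow (n * mu N) * detFun k F) := by
  have h : dpow (n * mu N) * detFun k F = ∑ σ : Equiv.Perm (X N),
      (fun _ : ℍ => (((Equiv.Perm.sign σ : ℤ)) : ℂ)) * ∏ i, (dpow n * cj k (F (σ i)) i) := by
    rw [detFun_eq_sum, Finset.mul_sum]
    refine Finset.sum_congr rfl fun σ _ => ?_
    rw [Finset.prod_mul_distrib, Finset.prod_const, Finset.card_univ, ← mu_eq_card]
    ext z
    simp only [Pi.mul_apply, Pi.pow_apply, dpow_apply, pow_mul]
    ring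
  rw [h]
  refine isBoundedAtImInfty_sum _ _ fun σ _ => ?_
  refine Filter.BoundedAtFilter.mul (Filter.const_boundedAtFilter _ _) ?_
  refine isBoundedAtImInfty_prod _ _ fun i _ => ?_
  exact (hF (σ i)).isBounded _

/-- `𝔻_F ^ 2` is a level-one weakly holomorphic form of weight `2 k μ`. -/
theorem isWH_detFun_sq {F : X N → ℍ → ℂ} (hF : ∀ a, IsWH N k n (F a)) :
    IsWH 1 (2 * k * (mu N : ℤ)) (2 * (n * mu N)) (fun z => detFun k F z ^ 2) := by
  have hinvF : ∀ a, ∀ γ ∈ Gamma0 N, F a ∣[k] γ = F a := fun a γ hγ => (hF a).slash_eq hγ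
  have hmd : MDiff (fun z => detFun k F z ^ 2) := (mdiff_detFun fun a => (hF a).mdiff).pow 2
  refine isWH_mk hmd (fun γ _ => detFun_sq_slash hinvF γ) fun δ => ?_
  rw [detFun_sq_slash hinvF δ]
  have h : dpow (2 * (n * mu N)) * (fun z => detFun k F z ^ 2)
      = (dpow (n * mu N) * detFun k F) * (dpow (n * mu N) * detFun k F) := by
    ext z
    simp only [Pi.mul_apply, dpow_apply]
    ring
  rw [h]
  exact (isBoundedAtImInfty_dpow_mul_detFun hF).mul (isBoundedAtImInfty_dpow_mul_detFun hF)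

end det

end Fermat.Agent.S20
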