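import Fermat.Agent.S20_helper10.CuspConstTerms
import Fermat.Agent.S20_helper11.CuspCount
import Fermat.Agent.S23.Defs

set_option autoImplicit false

open UpperHalfPlane ModularForm MatrixGroups

namespace Fermat.Agent.S20.M2S2

open Fermat.Agent.S23

/-- Piece F of the T20 blueprint, in the blueprint's shape (level group `S23.G0 N`,
cusp number `cuspCount N`).  Pure adapter around helper10's K6 and helper11's C-inf. -/
theorem finrank_modularForm_add_one_le (N : ℕ) [NeZero N] :
    Module.finrank ℂ (ModularForm (G0 N) 2) + 1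
      ≤ Module.finrank ℂ (CuspForm (G0 N) 2) + ModularCurve.cuspCount N := by
  have h := Fermat.Agent.S20_helper10.finrank_modularForm_gamma0_add_one_le N
  rw [Fermat.Agent.S20_helper11.card_orbits_T N] at h
  exact h

/-- Same statement over `ℤ`, subtraction form. -/
theorem finrank_modularForm_le (N : ℕ) [NeZero N] :
    (Module.finrank ℂ (ModularForm (G0 N) 2) : ℤ)
      ≤ Module.finrank ℂ (CuspForm (G0 N) 2) + ((ModularCurve.cuspCount N : ℤ) - 1) := by
  have h := finrank_modularForm_add_one_le N
  omega

/-- Same statement over `ℚ`, in the form the final glue consumes: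
`dim S₂ ≥ dim M₂ - (ν_∞ - 1)`. -/
theorem finrank_cuspForm_ge (N : ℕ) [NeZero N] :
    (Module.finrank ℂ (ModularForm (G0 N) 2) : ℚ) - ((ModularCurve.cuspCount N : ℚ) - 1)
      ≤ (Module.finrank ℂ (CuspForm (G0 N) 2) : ℚ) := by
  have h := finrank_modularForm_add_one_le N
  have h' : ((Module.finrank ℂ (ModularForm (G0 N) 2) + 1 : ℕ) : ℚ)
      ≤ ((Module.finrank ℂ (CuspForm (G0 N) 2) + ModularCurve.cuspCount N : ℕ) : ℚ) := by
    exact_mod_cast h
  push_cast at h'
  linarith

end Fermat.Agent.S20.M2S2
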