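import Fermat.Agent.S20.PuiseuxDet

/-!
# Extras on the ring of bounded holomorphic `1`-periodic functions: powers, evaluation, `q` itself
-/

set_option autoImplicit false

open Complex Filter Function
open UpperHalfPlane hiding I
open scoped Real Topology Manifold

namespace Fermat.Agent.S20.Puiseux

local notation "𝕢" => Function.Periodic.qParam

theorem IsPuiseux.pow {e : ℕ} {g : ℍ → ℂ} (hg : IsPuiseux e g) (m : ℕ) : IsPuiseux e (g ^ m) := by
  induction m with
  | zero =>
    have : g ^ 0 = fun _ => (1 : ℂ) := by ext z; simp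
    rw [this]
    exact isPuiseux_const e 1
  | succ m ih =>
    rw [pow_succ]
    exact ih.mul hg

theorem IsPuiseux.periodic_one {f : ℍ → ℂ} (hf : IsPuiseux 1 f) :
    Periodic (f ∘ ofComplex) (1 : ℝ) := by
  have := hf.periodic
  simpa using this

/-- evaluation at a point as a ring homomorphism -/
def evalHom (z : ℍ) : puiseuxSubring →+* ℂ :=
  (Pi.evalRingHom (fun _ : ℍ => ℂ) z).comp puiseuxSubring.subtype

@[simp] theorem evalHom_apply (z : ℍ) (f : puiseuxSubring) : evalHom z f = f.1 z := rfl

/-- the function `q = exp (2 π i z)` -/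
noncomputable def qFun : ℍ → ℂ := fun z => 𝕢 (1 : ℝ) z

theorem qFun_hasSum (τ : ℍ) :
    HasSum (fun m : ℕ ↦ (if m = 1 then (1 : ℂ) else 0) • 𝕢 (1 : ℝ) τ ^ m) (qFun τ) := by
  have := hasSum_ite_eq (1 : ℕ) (𝕢 (1 : ℝ) (τ : ℂ) ^ 1)
  rw [pow_one] at this
  convert this using 2 with m
  · split_ifs with h
    · subst h; simp
    · simp
  · rfl

theorem isPuiseux_qFun : IsPuiseux 1 qFun := by
  refine ⟨mdifferentiable_of_hasSum one_pos qFun_hasSum,
    isBoundedAtImInfty_of_hasSum_qExpansion one_pos qFun_hasSum, ?_⟩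
  intro z
  simp only [qFun]
  have := qParam_one_vadd_one z
  simpa using this

theorem qExpansion_qFun : qExpansion (1 : ℝ) qFun = PowerSeries.X := by
  ext m
  rw [← qExpansion_coeff_unique' one_pos isPuiseux_qFun.periodic_one isPuiseux_qFun.mdiff
    isPuiseux_qFun.bdd qFun_hasSum m, PowerSeries.coeff_X]

end Fermat.Agent.S20.Puiseux
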