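import Fermat.Agent.S20.Defs
import Fermat.Agent.S20.QFun
import Fermat.Agent.S20_helper11.CuspWidth

/-!
# T20 / C2b: the cusp matrix of a weakly holomorphic tuple (definitions and the DFT expansion)
-/

set_option autoImplicit false

open UpperHalfPlane ModularForm CongruenceSubgroup Matrix.SpecialLinearGroup ModularGroup
open scoped MatrixGroups ModularForm Manifold

namespace Fermat.Agent.S20

open Fermat.Agent.S23 (G0 IsMF IsCF)
open Fermat.Agent.S20_helper11 (Cusps cuspRep cuspWidth cuspSigmaEquiv)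
open Fermat.Agent.S20.Puiseux

local notation "Δ" => ModularForm.discriminant
local notation "𝕢" => Function.Periodic.qParam

variable {N : ℕ} [NeZero N] {k : ℤ} {n : ℕ}

/-- row index of the cusp matrix: a cusp `s` and a Puiseux index `i < width s` -/
abbrev CuspIdx (N : ℕ) : Type := (s : Cusps N) × Fin (cuspWidth s)

noncomputable instance instFintypeCusps (N : ℕ) [NeZero N] : Fintype (Cusps N) := Fintype.ofFinite _

/-- the holomorphic conjugate of `f` at the cusp `s`: `cj (k + 12 n) (Δ ^ n * f) x_s` -/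
noncomputable def cuspFun (k : ℤ) (n : ℕ) (f : ℍ → ℂ) (s : Cusps N) : ℍ → ℂ :=
  cj (k + 12 * n) (dpow n * f) (cuspRep s)

lemma denom_T_zpow (m : ℤ) (z : ℍ) : denom (T ^ m : SL(2, ℤ)) z = 1 := by
  rw [ModularGroup.denom_apply, ModularGroup.coe_T_zpow]
  simp

omit [NeZero N] in
/-- translation law for conjugates -/
lemma cj_T_zpow_smul {k' : ℤ} {g : ℍ → ℂ} (hg : ∀ γ ∈ Gamma0 N, g ∣[k'] γ = g) (x : X N) (m : ℤ)
    (z : ℍ) : cj k' g (T ^ m • x) z = cj k' g x (((-m : ℤ) : ℝ) +ᵥ z) := by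
  have h := cj_apply_smul hg x (T ^ (-m)) z
  rw [denom_T_zpow, one_zpow, one_mul, ← zpow_neg, neg_neg, modular_T_zpow_smul] at h
  rw [← h]

theorem isPuiseux_cuspFun {f : ℍ → ℂ} (hf : IsWH N k n f) (s : Cusps N) :
    IsPuiseux (cuspWidth s) (cuspFun k n f s) := by
  have hinv : ∀ γ ∈ Gamma0 N, (dpow n * f) ∣[k + 12 * n] γ = dpow n * f :=
    fun γ hγ => IsMF.slash_eq_SL hf hγ
  refine ⟨mdiff_cj (IsMF.mdiff hf) _, ?_, ?_⟩
  · -- bounded
    unfold cuspFun cj
    exact hf.isBoundedAtImInfty_slash _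
  · intro z
    unfold cuspFun
    have h := cj_T_zpow_smul hinv (cuspRep s) (-(cuspWidth s : ℤ)) z
    have h2 : T ^ (-(cuspWidth s : ℤ)) • cuspRep s = cuspRep s := by
      rw [Fermat.Agent.S20_helper11.T_zpow_smul_eq_self_iff]
      exact (dvd_neg.mpr dvd_rfl)
    rw [h2] at h
    rw [h]
    congr 2
    push_cast
    ring

/-! ### The DFT expansion of the conjugate matrix -/

omit [NeZero N] in
/-- `Δ ^ n * cj k f x = cj (k + 12 n) (Δ ^ n * f) x` -/
lemma dpow_mul_cj (k : ℤ) (n : ℕ) (f : ℍ → ℂ) (x : X N) :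
    dpow n * cj k f x = cj (k + 12 * n) (dpow n * f) x := by
  rw [add_comm k, cj_mul, cj_dpow]

/-- the function-level cusp matrix: `q_{e_s}^i * (i-th Puiseux component of the conjugate at s)` -/
noncomputable def cuspC (k : ℤ) (n : ℕ) (F : X N → ℍ → ℂ) (z : ℍ) : Matrix (X N) (CuspIdx N) ℂ :=
  Matrix.of fun a r => 𝕢 (cuspWidth r.1 : ℝ) z ^ (r.2 : ℕ) *
    compFun (cuspWidth r.1) r.2 (cuspFun k n (F a) r.1) z

theorem dpow_mul_conjMat_apply {F : X N → ℍ → ℂ} (hF : ∀ a, IsWH N k n (F a)) (z : ℍ) (a : X N)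
    (s : Cusps N) (m : Fin (cuspWidth s)) :
    Δ z ^ n * conjMat k F z a (cuspSigmaEquiv N ⟨s, m⟩) =
      ∑ i : Fin (cuspWidth s),
        zetaE (cuspWidth s) ^ (-(((m : ℕ) * (i : ℕ) : ℕ) : ℤ)) * cuspC k n F z a ⟨s, i⟩ := by
  have hinv : ∀ γ ∈ Gamma0 N, (dpow n * F a) ∣[k + 12 * n] γ = dpow n * F a :=
    fun γ hγ => IsMF.slash_eq_SL (hF a) hγ
  have he : 0 < cuspWidth s := Fermat.Agent.S20_helper11.cuspWidth_pos s
  have h1 : Δ z ^ n * conjMat k F z a (cuspSigmaEquiv N ⟨s, m⟩)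
      = cj (k + 12 * n) (dpow n * F a) (cuspSigmaEquiv N ⟨s, m⟩) z := by
    rw [← dpow_mul_cj]
    rfl
  rw [h1, Fermat.Agent.S20_helper11.cuspSigmaEquiv_apply, ← zpow_natCast,
    cj_T_zpow_smul hinv]
  have h2 := translate_eq he (isPuiseux_cuspFun (hF a) s) (-((m : ℕ) : ℤ)) z
  unfold cuspFun at h2
  rw [h2, ← Fin.sum_univ_eq_sum_range
    (fun i : ℕ ↦ zetaE (cuspWidth s) ^ (-((m : ℕ) : ℤ) * (i : ℤ)) * 𝕢 (cuspWidth s : ℝ) z ^ i *
      compFun (cuspWidth s) i (cj (k + 12 * n) (dpow n * F a) (cuspRep s)) z) (cuspWidth s)]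
  refine Finset.sum_congr rfl fun i _ => ?_
  simp only [cuspC, Matrix.of_apply, cuspFun]
  rw [mul_assoc]
  congr 2
  push_cast
  ring

/-! ### The power series / Laurent series cusp matrices -/

/-- the power-series cusp matrix: rows `(s, i)`, columns the tuple index `a`; entry = the `i`-th
Puiseux component (a power series in `q`) of the conjugate of `Δ ^ n * F a` at the cusp `s`. -/
noncomputable def cuspP (k : ℤ) (n : ℕ) (F : X N → ℍ → ℂ) :
    Matrix (CuspIdx N) (X N) (PowerSeries ℂ) :=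
  Matrix.of fun r a => comp (cuspWidth r.1) r.2 (cuspFun k n (F a) r.1)

/-- the `q`-expansion of `Δ` as a Laurent series -/
noncomputable def deltaL : LaurentSeries ℂ := ((qExpansion (1 : ℝ) Δ : PowerSeries ℂ) : LaurentSeries ℂ)

/-- the Laurent-series cusp matrix: rows `(s, i)`, columns the tuple index `a`; entry = the
Laurent series of the `i`-th Puiseux component of the conjugate of `F a` at the cusp `s`. -/
noncomputable def cuspG (k : ℤ) (n : ℕ) (F : X N → ℍ → ℂ) :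
    Matrix (CuspIdx N) (X N) (LaurentSeries ℂ) :=
  Matrix.of fun r a => (deltaL⁻¹) ^ n * ((cuspP k n F r a : PowerSeries ℂ) : LaurentSeries ℂ)

/-- the square Laurent-series cusp matrix, rows reindexed by `X N` via `cuspSigmaEquiv`. -/
noncomputable def cuspGsq (k : ℤ) (n : ℕ) (F : X N → ℍ → ℂ) :
    Matrix (X N) (X N) (LaurentSeries ℂ) :=
  Matrix.reindex (cuspSigmaEquiv N) (Equiv.refl _) (cuspG k n F)

omit [NeZero N] in
lemma cuspP_apply (k : ℤ) (n : ℕ) (F : X N → ℍ → ℂ) (r : CuspIdx N) (a : X N) :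
    cuspP k n F r a = comp (cuspWidth r.1) r.2 (cuspFun k n (F a) r.1) := rfl

omit [NeZero N] in
lemma cuspG_apply (k : ℤ) (n : ℕ) (F : X N → ℍ → ℂ) (r : CuspIdx N) (a : X N) :
    cuspG k n F r a = (deltaL⁻¹) ^ n *
      ((comp (cuspWidth r.1) r.2 (cuspFun k n (F a) r.1) : PowerSeries ℂ) : LaurentSeries ℂ) := rfl

lemma cuspGsq_apply (k : ℤ) (n : ℕ) (F : X N → ℍ → ℂ) (x a : X N) :
    cuspGsq k n F x a = cuspG k n F ((cuspSigmaEquiv N).symm x) a := rfl

lemma cuspGsq_apply_equiv (k : ℤ) (n : ℕ) (F : X N → ℍ → ℂ) (r : CuspIdx N) (a : X N) :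
    cuspGsq k n F (cuspSigmaEquiv N r) a = cuspG k n F r a := by
  rw [cuspGsq_apply, Equiv.symm_apply_apply]

end Fermat.Agent.S20
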