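import Fermat.Agent.S20.Puiseux

/-!
# The ring of holomorphic, bounded, `1`-periodic functions and its `q`-expansion homomorphism

`puiseuxSubring` is the subring of `ℍ → ℂ` of functions with `IsPuiseux 1`, and
`qExpHom : puiseuxSubring →+* PowerSeries ℂ` is `qExpansion 1`.  Consequence (`qExpansion_det`):
the `q`-expansion of the determinant of a matrix of such functions is the determinant of the
matrix of `q`-expansions.
-/

open Complex Filter Function
open UpperHalfPlane hiding I
open scoped Real Topology Manifold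

namespace Fermat.Agent.S20.Puiseux

theorem isPuiseux_const (e : ℕ) (c : ℂ) : IsPuiseux e (fun _ : ℍ ↦ c) where
  mdiff := mdifferentiable_const
  bdd := Filter.const_boundedAtFilter _ c
  per _ := rfl

theorem isPuiseux_one (e : ℕ) : IsPuiseux e (1 : ℍ → ℂ) := isPuiseux_const e 1

theorem isPuiseux_zero (e : ℕ) : IsPuiseux e (0 : ℍ → ℂ) := isPuiseux_const e 0

theorem IsPuiseux.neg {e : ℕ} {g : ℍ → ℂ} (hg : IsPuiseux e g) : IsPuiseux e (-g) := by
  have := hg.smul (-1)
  simpa using this

theorem IsPuiseux.sub {e : ℕ} {g₁ g₂ : ℍ → ℂ} (h₁ : IsPuiseux e g₁) (h₂ : IsPuiseux e g₂) :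
    IsPuiseux e (g₁ - g₂) := by
  rw [sub_eq_add_neg]
  exact h₁.add h₂.neg

/-- the subring of holomorphic, bounded, `1`-periodic functions on the upper half plane -/
def puiseuxSubring : Subring (ℍ → ℂ) where
  carrier := {g | IsPuiseux 1 g}
  mul_mem' h₁ h₂ := h₁.mul h₂
  one_mem' := isPuiseux_one 1
  add_mem' h₁ h₂ := h₁.add h₂
  zero_mem' := isPuiseux_zero 1
  neg_mem' h := h.neg

theorem mem_puiseuxSubring {g : ℍ → ℂ} : g ∈ puiseuxSubring ↔ IsPuiseux 1 g := Iff.rfl

theorem IsPuiseux.analyticAt_one {g : ℍ → ℂ} (hg : IsPuiseux 1 g) :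
    AnalyticAt ℂ (cuspFunction (1 : ℝ) g) 0 := by
  have := hg.analyticAt one_pos
  rwa [Nat.cast_one] at this

/-- `qExpansion 1` as a ring homomorphism on `puiseuxSubring` -/
noncomputable def qExpHom : puiseuxSubring →+* PowerSeries ℂ where
  toFun g := qExpansion (1 : ℝ) (g : ℍ → ℂ)
  map_one' := qExpansion_one 1
  map_mul' g₁ g₂ := qExpansion_mul g₁.2.analyticAt_one g₂.2.analyticAt_one
  map_zero' := qExpansion_zero 1
  map_add' g₁ g₂ := qExpansion_add g₁.2.analyticAt_one g₂.2.analyticAt_one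

@[simp]
theorem qExpHom_apply (g : puiseuxSubring) : qExpHom g = qExpansion (1 : ℝ) (g : ℍ → ℂ) := rfl

theorem qExpHom_injective : Function.Injective qExpHom := by
  rw [injective_iff_map_eq_zero]
  intro g hg
  have h1 : IsPuiseux 1 (g : ℍ → ℂ) := g.2
  have hper : Periodic ((g : ℍ → ℂ) ∘ ofComplex) (1 : ℝ) := by
    have := h1.periodic
    rwa [Nat.cast_one] at this
  have := (qExpansion_eq_zero_iff one_pos hper h1.mdiff h1.bdd).1 hg
  exact Subtype.ext this

section det

variable {ι : Type*} [Fintype ι] [DecidableEq ι]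

/-- the determinant of a matrix of holomorphic, bounded, `1`-periodic functions is again such -/
theorem isPuiseux_det (A : Matrix ι ι (ℍ → ℂ)) (hA : ∀ i j, IsPuiseux 1 (A i j)) :
    IsPuiseux 1 A.det := by
  let A' : Matrix ι ι puiseuxSubring := fun i j ↦ ⟨A i j, hA i j⟩
  have h : A = puiseuxSubring.subtype.mapMatrix A' := by
    ext i j; rfl
  rw [h, ← RingHom.map_det]
  exact (A'.det).2

/-- pointwise value of the determinant of a matrix of functions -/
theorem det_apply (A : Matrix ι ι (ℍ → ℂ)) (τ : ℍ) :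
    A.det τ = (Matrix.of fun i j ↦ A i j τ).det := by
  have := RingHom.map_det (Pi.evalRingHom (fun _ : ℍ ↦ ℂ) τ) A
  rw [Pi.evalRingHom_apply] at this
  rw [this]
  rfl

/-- the `q`-expansion of a determinant is the determinant of the `q`-expansions -/
theorem qExpansion_det (A : Matrix ι ι (ℍ → ℂ)) (hA : ∀ i j, IsPuiseux 1 (A i j)) :
    qExpansion (1 : ℝ) A.det = (Matrix.of fun i j ↦ qExpansion (1 : ℝ) (A i j)).det := by
  let A' : Matrix ι ι puiseuxSubring := fun i j ↦ ⟨A i j, hA i j⟩
  have h : A = puiseuxSubring.subtype.mapMatrix A' := by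
    ext i j; rfl
  have h1 : A.det = ((A'.det : puiseuxSubring) : ℍ → ℂ) := by
    rw [h, ← RingHom.map_det]; rfl
  rw [h1, ← qExpHom_apply, RingHom.map_det]
  rfl

/-- the `q`-expansion of the determinant of the matrix of component functions -/
theorem qExpansion_det_compFun {e : ι → ℕ} (he : ∀ i, 0 < e i) (c : ι → ℕ) (g : ι → ι → ℍ → ℂ)
    (hg : ∀ i j, IsPuiseux (e i) (g i j)) :
    qExpansion (1 : ℝ) (Matrix.det fun i j ↦ compFun (e i) (c i) (g i j)) =
      (Matrix.of fun i j ↦ comp (e i) (c i) (g i j)).det := by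
  rw [qExpansion_det _ fun i j ↦ isPuiseux_compFun (he i) (hg i j) (c i)]
  congr 1
  funext i j
  exact qExpansion_compFun (he i) (hg i j) (c i)

end det

end Fermat.Agent.S20.Puiseux
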