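import Fermat.Agent.S20.Defs
import Fermat.Agent.LevelOne_helper29.JSurj
import Mathlib.RingTheory.LaurentSeries

/-!
# T20 piece C3: the kernel of the cusp map embeds into `M_k(Γ₀(N))`

Given a weakly holomorphic tuple `F` with `detFun ≢ 0`, a "cusp matrix" `G` over `ℂ((q))` whose
integrality detects boundedness at all cusps, and the index inequality (piece D), we get
`μ + ord (det G) ≤ dim M_k(Γ₀(N))`.
-/

set_option autoImplicit false

open UpperHalfPlane ModularForm CongruenceSubgroup Matrix.SpecialLinearGroup Polynomial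
open scoped MatrixGroups ModularForm Manifold

namespace Fermat.Agent.S20

open Fermat.Agent.S23 (G0 IsMF IsCF)
open Fermat.Agent.LevelOne_helper29 (jInv jInv_smul mdifferentiable_jInv jInv_surjective)

local notation "Δ" => ModularForm.discriminant

/-! ### Polynomials in `j` -/

lemma jInv_slash (γ : SL(2, ℤ)) : jInv ∣[(0 : ℤ)] γ = jInv := by
  ext z
  rw [SL_slash_apply, jInv_smul]
  simp

/-- The function `z ↦ p (j z)`. -/
noncomputable def polyJ (p : ℂ[X]) : ℍ → ℂ := fun z => p.eval (jInv z)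

lemma polyJ_apply (p : ℂ[X]) (z : ℍ) : polyJ p z = p.eval (jInv z) := rfl

lemma polyJ_slash (p : ℂ[X]) (γ : SL(2, ℤ)) : polyJ p ∣[(0 : ℤ)] γ = polyJ p := by
  ext z
  rw [SL_slash_apply, polyJ_apply, polyJ_apply, jInv_smul]
  simp

lemma polyJ_zero : polyJ 0 = 0 := by ext z; simp [polyJ]

lemma polyJ_add (p q : ℂ[X]) : polyJ (p + q) = polyJ p + polyJ q := by
  ext z; simp [polyJ]

lemma polyJ_smul (c : ℂ) (p : ℂ[X]) : polyJ (c • p) = c • polyJ p := by
  ext z; simp [polyJ]

lemma polyJ_C (c : ℂ) : polyJ (C c) = fun _ => c := by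
  ext z; simp [polyJ]

lemma polyJ_mul_X (p : ℂ[X]) : polyJ (p * Polynomial.X) = polyJ p * jInv := by
  ext z; simp [polyJ]

lemma mdiff_polyJ (p : ℂ[X]) : MDiff (polyJ p) := by
  induction p using Polynomial.induction_on' with
  | add p q hp hq => rw [polyJ_add]; exact hp.add hq
  | monomial n a =>
    have : polyJ (monomial n a) = (fun _ : ℍ => a) * jInv ^ n := by
      ext z; simp [polyJ]
    rw [this]
    exact mdifferentiable_const.mul (mdifferentiable_jInv.pow n)

lemma polyJ_eq_zero_iff (p : ℂ[X]) : polyJ p = 0 ↔ p = 0 := by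
  refine ⟨fun h => ?_, fun h => by rw [h, polyJ_zero]⟩
  apply Polynomial.funext
  intro w
  obtain ⟨z, rfl⟩ := jInv_surjective w
  simpa [polyJ] using congrFun h z

variable {N : ℕ} [NeZero N]

omit [NeZero N] in
lemma isWH_jInv : IsWH N 0 1 jInv := by
  unfold IsWH
  have h1 : dpow 1 * jInv = (E₄ : ℍ → ℂ) ^ 3 := by
    ext z
    simp only [Pi.mul_apply, dpow_apply, pow_one, Pi.pow_apply, jInv]
    field_simp [discriminant_ne_zero z]
  rw [h1]
  have h4 : IsMF 𝒮ℒ 4 (E₄ : ℍ → ℂ) := ⟨E₄, rfl⟩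
  have h12 : IsMF 𝒮ℒ ((3 : ℕ) * 4) ((E₄ : ℍ → ℂ) ^ 3) := h4.pow 3
  have hle : G0 N ≤ 𝒮ℒ := by
    rintro _ ⟨γ, -, rfl⟩
    exact ⟨γ, rfl⟩
  exact (IsMF.mono hle h12).congr_weight (by norm_num)

omit [NeZero N] in
lemma exists_isWH_polyJ (p : ℂ[X]) : ∃ n, IsWH N 0 n (polyJ p) := by
  induction p using Polynomial.induction_on with
  | C a =>
    refine ⟨0, IsWH.of_isMF ?_⟩
    rw [polyJ_C]
    exact IsMF.const a
  | add p q hp hq =>
    obtain ⟨n, hn⟩ := hp
    obtain ⟨m, hm⟩ := hq
    refine ⟨max n m, ?_⟩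
    rw [polyJ_add]
    exact (hn.mono (le_max_left n m)).add (hm.mono (le_max_right n m))
  | monomial n a h =>
    obtain ⟨m, hm⟩ := h
    refine ⟨m + 1, ?_⟩
    have : polyJ (C a * Polynomial.X ^ (n + 1)) = polyJ (C a * Polynomial.X ^ n) * jInv := by
      rw [pow_succ, ← mul_assoc, polyJ_mul_X]
    rw [this]
    exact (hm.mul isWH_jInv).congr_weight (by norm_num)

/-! ### Combinations with coefficients in `ℂ[j]` -/

/-- The weakly holomorphic form `∑_c a_c(j) F_c`. -/
noncomputable def combo (F : X N → ℍ → ℂ) (a : X N → ℂ[X]) : ℍ → ℂ := ∑ c, polyJ (a c) * F c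

lemma combo_add (F : X N → ℍ → ℂ) (a b : X N → ℂ[X]) :
    combo F (a + b) = combo F a + combo F b := by
  simp only [combo, Pi.add_apply, polyJ_add, add_mul, Finset.sum_add_distrib]

lemma combo_smul (F : X N → ℍ → ℂ) (t : ℂ) (a : X N → ℂ[X]) :
    combo F (t • a) = t • combo F a := by
  simp only [combo, Pi.smul_apply, polyJ_smul, smul_mul_assoc, Finset.smul_sum]

lemma cj_combo {k : ℤ} (F : X N → ℍ → ℂ) (a : X N → ℂ[X]) (x : X N) :
    cj k (combo F a) x = ∑ c, polyJ (a c) * cj k (F c) x := by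
  unfold combo
  rw [cj_sum]
  refine Finset.sum_congr rfl fun c _ => ?_
  have h : cj k (polyJ (a c) * F c) x = cj ((0 : ℤ) + k) (polyJ (a c) * F c) x := by rw [zero_add]
  rw [h, cj_mul, cj_levelOne (fun γ => polyJ_slash (a c) γ)]

lemma exists_isWH_combo {k : ℤ} {n : ℕ} {F : X N → ℍ → ℂ} (hF : ∀ c, IsWH N k n (F c))
    (a : X N → ℂ[X]) : ∃ n', IsWH N k n' (combo F a) := by
  choose m hm using fun c => exists_isWH_polyJ (N := N) (a c)
  refine ⟨(∑ c, m c) + n, ?_⟩
  unfold combo
  refine IsWH.sum _ fun c _ => ?_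
  have h1 : IsWH N (0 + k) (m c + n) (polyJ (a c) * F c) := (hm c).mul (hF c)
  have hle : m c + n ≤ (∑ c, m c) + n :=
    Nat.add_le_add_right (Finset.single_le_sum (f := m) (fun _ _ => Nat.zero_le _)
      (Finset.mem_univ c)) n
  exact (h1.mono hle).congr_weight (zero_add k)

open Classical in
lemma combo_eq_zero {k : ℤ} {F : X N → ℍ → ℂ} (hFmd : ∀ c, MDiff (F c))
    (hdet : ∃ z, detFun k F z ≠ 0) (a : X N → ℂ[X]) (h : combo F a = 0) : a = 0 := by
  -- on the open set where the determinant does not vanish all `a c (j z)` vanish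
  have key : ∀ z : ℍ, detFun k F z ≠ 0 → ∀ c, polyJ (a c) z = 0 := by
    intro z hz
    have hvec : Matrix.vecMul (fun c => polyJ (a c) z) (conjMat k F z) = 0 := by
      ext x
      have := congrFun (cj_combo (k := k) F a x) z
      rw [h, cj_zero] at this
      simp only [Pi.zero_apply, Finset.sum_apply, Pi.mul_apply] at this
      simp only [Matrix.vecMul, dotProduct, conjMat, Matrix.of_apply, Pi.zero_apply]
      exact this.symm
    have hz' : (conjMat k F z).det ≠ 0 := hz
    have := Matrix.eq_zero_of_vecMul_eq_zero hz' hvec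
    intro c
    exact congrFun this c
  funext c
  rw [Pi.zero_apply, ← polyJ_eq_zero_iff]
  obtain ⟨z0, hz0⟩ := hdet
  -- identity theorem on `ℍ`
  have hmd : MDiff (polyJ (a c)) := mdiff_polyJ (a c)
  have hdmd : MDiff (detFun k F) := mdiff_detFun hFmd
  have hprod : polyJ (a c) * detFun k F = 0 := by
    ext z
    by_cases hz : detFun k F z = 0
    · simp [hz]
    · simp [key z hz c]
  rcases (UpperHalfPlane.mul_eq_zero_iff hmd hdmd).mp hprod with h1 | h1
  · exact h1
  · exact absurd (congrFun h1 z0) hz0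


/-! ### The index inequality (piece D) as a hypothesis, and the main theorem -/

/-- The statement of piece D (lower-bound corollary of the completed index theorem on `ℙ¹_j`):
for `G ∈ GL_ι(ℂ((q)))` and `ξ` of order `-1`, the space of polynomial vectors `a` with
`G · a(ξ)` integral (no terms of negative degree) contains a finite-dimensional subspace of dimension `≥ |ι| + ord (det G)`. -/
def IndexLowerBound : Prop :=
  ∀ (ι : Type) [Fintype ι] [DecidableEq ι] (ξ : LaurentSeries ℂ), ξ.order = -1 →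
    ∀ G : Matrix ι ι (LaurentSeries ℂ), G.det ≠ 0 →
      ∃ V : Submodule ℂ (ι → ℂ[X]), FiniteDimensional ℂ V ∧
        (∀ a ∈ V, ∀ r, ∀ m : ℤ, m < 0 →
          (∑ c, G r c * Polynomial.eval₂ HahnSeries.C ξ (a c)).coeff m = 0) ∧
        (Fintype.card ι : ℤ) + G.det.order ≤ Module.finrank ℂ V

lemma isMF_combo {k : ℤ} {n : ℕ} {F : X N → ℍ → ℂ} (hF : ∀ c, IsWH N k n (F c))
    (a : X N → ℂ[X]) (hbdd : ∀ x : X N, IsBoundedAtImInfty (cj k (combo F a) x)) :
    IsMF (G0 N) k (combo F a) := by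
  obtain ⟨n', hn'⟩ := exists_isWH_combo hF a
  refine isMF_mk hn'.mdiff (fun γ hγ => hn'.slash_eq hγ) fun δ => ?_
  have h := cj_mk (k := k) (f := combo F a) (fun γ hγ => hn'.slash_eq hγ) δ⁻¹
  rw [inv_inv] at h
  rw [← h]
  exact hbdd _

open Classical in
/-- **Piece C3.** If integrality of `G · a(ξ)` forces all conjugates of `∑ a_c(j) F_c` to be
bounded at `i∞`, then `μ + ord (det G) ≤ dim M_k(Γ₀(N))`. -/
theorem finrank_modularForm_ge (hD : IndexLowerBound) {k : ℤ} {n : ℕ} {F : X N → ℍ → ℂ}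
    (hF : ∀ c, IsWH N k n (F c)) (hdet : ∃ z, detFun k F z ≠ 0)
    (ξ : LaurentSeries ℂ) (hξ : ξ.order = -1)
    (G : Matrix (X N) (X N) (LaurentSeries ℂ)) (hG : G.det ≠ 0)
    (hexp : ∀ a : X N → ℂ[X], (∀ r, ∀ m : ℤ, m < 0 →
        (∑ c, G r c * Polynomial.eval₂ HahnSeries.C ξ (a c)).coeff m = 0) →
      ∀ x : X N, IsBoundedAtImInfty (cj k (combo F a) x))
    [FiniteDimensional ℂ (ModularForm (G0 N) k)] :
    (mu N : ℤ) + G.det.order ≤ Module.finrank ℂ (ModularForm (G0 N) k) := by
  obtain ⟨V, hVfin, hVint, hVdim⟩ := hD (X N) ξ hξ G hG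
  have hmf : ∀ a : V, IsMF (G0 N) k (combo F a.1) := fun a =>
    isMF_combo hF a.1 (hexp a.1 (hVint a.1 a.2))
  let Ψ : V →ₗ[ℂ] ModularForm (G0 N) k :=
    { toFun := fun a => (hmf a).choose
      map_add' := fun a b => by
        apply DFunLike.coe_injective
        rw [FunLike.coe_add, (hmf a).choose_spec, (hmf b).choose_spec, (hmf (a + b)).choose_spec]
        exact combo_add F a.1 b.1
      map_smul' := fun t a => by
        apply DFunLike.coe_injective
        rw [RingHom.id_apply, FunLike.coe_smul, (hmf a).choose_spec,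
          (hmf (t • a)).choose_spec]
        exact combo_smul F t a.1 }
  have hΨ : Function.Injective Ψ := by
    rw [← LinearMap.ker_eq_bot, LinearMap.ker_eq_bot']
    intro a ha
    have h0 : combo F a.1 = 0 := by
      have := (hmf a).choose_spec
      rw [← this]
      have h1 : (hmf a).choose = 0 := ha
      rw [h1]
      rfl
    have := combo_eq_zero (fun c => (hF c).mdiff) hdet a.1 h0
    exact Subtype.ext this
  have hle := LinearMap.finrank_le_finrank_of_injective hΨ
  rw [mu_eq_card]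
  calc (Fintype.card (X N) : ℤ) + G.det.order ≤ Module.finrank ℂ V := hVdim
    _ ≤ Module.finrank ℂ (ModularForm (G0 N) k) := by exact_mod_cast hle

end Fermat.Agent.S20
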