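import Mathlib

/-!
# Puiseux components of `q`-expansions

For `g : ℍ → ℂ` holomorphic, bounded at `i∞` and `e`-periodic (`IsPuiseux e g`), the `q`-expansion
in the parameter `𝕢 e` splits into `e` power series in `𝕢 1`:
`comp e i g` (`i < e`) collects the coefficients with index `≡ i mod e`, and
`compFun e i g : ℍ → ℂ` is the (holomorphic, bounded, `1`-periodic) function with that expansion.
Main results: `translate_eq` (expansion of the translates `g (m + τ)`), `qExpansion_compFun`,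
`comp_add`, `comp_smul`, `comp_mul`, `eq_zero_of_comp_eq_zero`, `det_dft_ne_zero`.
-/

open Complex Filter Function Metric Set
open UpperHalfPlane hiding I
open scoped Real Topology Manifold

namespace Fermat.Agent.S20.Puiseux

local notation "𝕢" => Periodic.qParam

/-- the standard primitive `e`-th root of unity -/
noncomputable def zetaE (e : ℕ) : ℂ := exp (2 * π * I / e)

theorem qParam_vadd (e : ℕ) (m : ℤ) (τ : ℍ) :
    𝕢 (e : ℝ) (((m : ℝ) +ᵥ τ : ℍ) : ℂ) = zetaE e ^ m * 𝕢 (e : ℝ) (τ : ℂ) := by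
  rw [zetaE, ← exp_int_mul, Periodic.qParam, Periodic.qParam, ← exp_add, coe_vadd]
  congr 1
  push_cast
  ring

theorem qParam_pow_eq (e : ℕ) (he : 0 < e) (z : ℂ) : 𝕢 (e : ℝ) z ^ e = 𝕢 (1 : ℝ) z := by
  rw [Periodic.qParam, Periodic.qParam, ← exp_nat_mul]
  congr 1
  have : (e : ℂ) ≠ 0 := by exact_mod_cast he.ne'
  push_cast
  field_simp

theorem zetaE_pow_self (e : ℕ) (he : 0 < e) : zetaE e ^ e = 1 := by
  rw [zetaE, ← exp_nat_mul]
  have : (e : ℂ) ≠ 0 := by exact_mod_cast he.ne'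
  rw [mul_div_cancel₀ _ this]
  exact exp_two_pi_mul_I

theorem isPrimitiveRoot_zetaE (e : ℕ) (he : 0 < e) : IsPrimitiveRoot (zetaE e) e := by
  rw [zetaE]
  exact Complex.isPrimitiveRoot_exp e he.ne'

/-- A function on the upper half plane given by a convergent `q`-series is holomorphic. -/
theorem mdifferentiable_of_hasSum {f : ℍ → ℂ} {c : ℕ → ℂ} {h : ℝ} (hh : 0 < h)
    (hf : ∀ τ : ℍ, HasSum (fun m ↦ c m • 𝕢 h τ ^ m) (f τ)) : MDiff f := by
  set p : FormalMultilinearSeries ℂ ℂ ℂ := FormalMultilinearSeries.ofScalars ℂ c with hp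
  have hrad : 1 ≤ p.radius := by
    refine le_of_forall_lt_imp_le_of_dense fun r hr ↦ ?_
    rcases eq_or_ne r 0 with rfl | hr'
    · simp
    lift r to NNReal using hr.ne_top
    apply FormalMultilinearSeries.le_radius_of_summable
    have hr1 : (r : ℝ) < 1 := by exact_mod_cast hr
    have hr0 : (r : ℂ) ≠ 0 := by
      have : r ≠ 0 := by simpa using hr'
      exact_mod_cast this
    have hnorm : ‖(r : ℂ)‖ < 1 := by simpa using hr1
    have h1 := Periodic.im_invQParam_pos_of_norm_lt_one hh hnorm hr0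
    have h2 := (hf ⟨Periodic.invQParam h r, h1⟩).summable.norm
    simp only [Periodic.qParam_right_inv hh.ne' hr0] at h2
    simpa [hp, FormalMultilinearSeries.ofScalars_norm, norm_mul, norm_pow] using h2
  have hball : HasFPowerSeriesOnBall p.sum p 0 p.radius :=
    p.hasFPowerSeriesOnBall (lt_of_lt_of_le one_pos hrad)
  have hball1 : HasFPowerSeriesOnBall p.sum p 0 1 := hball.mono one_pos hrad
  have hdiff : DifferentiableOn ℂ p.sum (Metric.eball 0 1) := hball1.differentiableOn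
  have hsum : ∀ τ : ℍ, f τ = p.sum (𝕢 h τ) := by
    intro τ
    have hmem : 𝕢 h (τ : ℂ) ∈ Metric.eball (0 : ℂ) 1 := by
      rw [← ENNReal.coe_one, Metric.eball_coe, NNReal.coe_one, mem_ball_zero_iff]
      exact Periodic.norm_qParam_lt_one hh τ.im_pos
    have h1 := hball1.hasSum (y := 𝕢 h (τ : ℂ)) hmem
    rw [zero_add] at h1
    have h2 : HasSum (fun m ↦ c m • 𝕢 h (τ : ℂ) ^ m) (p.sum (𝕢 h τ)) := by
      have h3 : (fun m ↦ c m • 𝕢 h (τ : ℂ) ^ m) = fun n ↦ (p n) fun _ ↦ 𝕢 h (τ : ℂ) := by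
        funext m
        rw [hp, FormalMultilinearSeries.ofScalars_apply_eq]
      rw [h3]
      exact h1
    exact (hf τ).unique h2
  rw [UpperHalfPlane.mdifferentiable_iff]
  intro z hz
  have hz' : 0 < z.im := hz
  have hmem : 𝕢 h z ∈ Metric.eball (0 : ℂ) 1 := by
    rw [← ENNReal.coe_one, Metric.eball_coe, NNReal.coe_one, mem_ball_zero_iff]
    exact Periodic.norm_qParam_lt_one hh hz'
  have hopen : IsOpen (Metric.eball (0 : ℂ) 1) := Metric.isOpen_eball
  have hd1 : DifferentiableAt ℂ p.sum (𝕢 h z) := (hdiff _ hmem).differentiableAt (hopen.mem_nhds hmem)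
  have hd2 : DifferentiableAt ℂ (fun w : ℂ ↦ p.sum (𝕢 h w)) z :=
    hd1.comp z (Periodic.differentiable_qParam z)
  refine (hd2.congr_of_eventuallyEq ?_).differentiableWithinAt
  filter_upwards [isOpen_upperHalfPlaneSet.mem_nhds hz] with w hw
  simp only [Function.comp_apply, ofComplex_apply_of_im_pos hw, hsum]

/-- holomorphic, bounded at `i∞`, and `e`-periodic -/
structure IsPuiseux (e : ℕ) (g : ℍ → ℂ) : Prop where
  mdiff : MDiff g
  bdd : IsBoundedAtImInfty g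
  per : ∀ z : ℍ, g ((e : ℝ) +ᵥ z) = g z

theorem IsPuiseux.periodic {e : ℕ} {g : ℍ → ℂ} (hg : IsPuiseux e g) :
    Periodic (g ∘ ofComplex) (e : ℝ) := by
  intro w
  by_cases hw : 0 < im w
  · have : 0 < im (w + (e : ℝ)) := by simpa using hw
    simp only [comp_apply, ofComplex_apply_of_im_pos this, ofComplex_apply_of_im_pos hw]
    rw [← hg.per ⟨w, hw⟩]
    congr 1
    ext
    simp [add_comm]
  · have hw' : im w ≤ 0 := not_lt.1 hw
    have : im (w + ((e : ℝ) : ℂ)) ≤ 0 := by simpa using hw'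
    rw [comp_apply, comp_apply, ofComplex_apply_of_im_nonpos this,
      ofComplex_apply_of_im_nonpos hw']

theorem IsPuiseux.hasSum {e : ℕ} (he : 0 < e) {g : ℍ → ℂ} (hg : IsPuiseux e g) (τ : ℍ) :
    HasSum (fun n : ℕ ↦ (qExpansion (e : ℝ) g).coeff n • 𝕢 (e : ℝ) τ ^ n) (g τ) :=
  hasSum_qExpansion (by exact_mod_cast he) hg.periodic hg.mdiff hg.bdd τ

/-- the `i`-th Puiseux component of the `q`-expansion of an `e`-periodic function -/
noncomputable def comp (e i : ℕ) (g : ℍ → ℂ) : PowerSeries ℂ :=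
  PowerSeries.mk fun l ↦ (qExpansion (e : ℝ) g).coeff (i + l * e)

@[simp]
theorem coeff_comp (e i : ℕ) (g : ℍ → ℂ) (l : ℕ) :
    (comp e i g).coeff l = (qExpansion (e : ℝ) g).coeff (i + l * e) := by
  simp [comp]

/-- the function with `q`-expansion `comp e i g` -/
noncomputable def compFun (e i : ℕ) (g : ℍ → ℂ) (τ : ℍ) : ℂ :=
  ∑' l : ℕ, (comp e i g).coeff l • 𝕢 (1 : ℝ) τ ^ l

theorem hasSum_compFun {e : ℕ} (he : 0 < e) {g : ℍ → ℂ} (hg : IsPuiseux e g) (i : ℕ) (τ : ℍ) :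
    HasSum (fun l : ℕ ↦ (comp e i g).coeff l • 𝕢 (1 : ℝ) τ ^ l) (compFun e i g τ) := by
  have h1 := (hg.hasSum he τ).summable
  have hinj : Function.Injective fun l : ℕ ↦ i + l * e := by
    intro a b hab
    have : a * e = b * e := by simpa using hab
    exact Nat.eq_of_mul_eq_mul_right he this
  have h2 := h1.comp_injective hinj
  have hq0 : 𝕢 (e : ℝ) (τ : ℂ) ^ i ≠ 0 := pow_ne_zero _ (Periodic.qParam_ne_zero _)
  have h3 : (fun l : ℕ ↦ (qExpansion (e : ℝ) g).coeff (i + l * e) • 𝕢 (e : ℝ) τ ^ (i + l * e)) =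
      fun l : ℕ ↦ 𝕢 (e : ℝ) (τ : ℂ) ^ i * ((comp e i g).coeff l • 𝕢 (1 : ℝ) τ ^ l) := by
    funext l
    rw [coeff_comp, pow_add, pow_mul', qParam_pow_eq e he]
    simp only [smul_eq_mul]
    ring
  have h4 : Summable fun l : ℕ ↦ (comp e i g).coeff l • 𝕢 (1 : ℝ) (τ : ℂ) ^ l := by
    have : Summable fun l : ℕ ↦
        𝕢 (e : ℝ) (τ : ℂ) ^ i * ((comp e i g).coeff l • 𝕢 (1 : ℝ) τ ^ l) := by
      rw [← h3]; exact h2
    exact (summable_mul_left_iff hq0).1 this
  exact h4.hasSum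

theorem zetaE_ne_zero (e : ℕ) : zetaE e ≠ 0 := exp_ne_zero _

theorem zetaE_zpow_mul_self (e : ℕ) (he : 0 < e) (a : ℤ) : zetaE e ^ (a * (e : ℤ)) = 1 := by
  rw [mul_comm, zpow_mul, zpow_natCast, zetaE_pow_self e he, one_zpow]

/-- the expansion of the translates of `g` in terms of its Puiseux components -/
theorem translate_eq {e : ℕ} (he : 0 < e) {g : ℍ → ℂ} (hg : IsPuiseux e g) (m : ℤ) (τ : ℍ) :
    g ((m : ℝ) +ᵥ τ) = ∑ i ∈ Finset.range e,
      zetaE e ^ (m * (i : ℤ)) * 𝕢 (e : ℝ) τ ^ i * compFun e i g τ := by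
  have H0 := hg.hasSum he ((m : ℝ) +ᵥ τ)
  rw [qParam_vadd] at H0
  set q : ℂ := 𝕢 (e : ℝ) (τ : ℂ) with hq
  have : NeZero e := ⟨he.ne'⟩
  let φ : Fin e × ℕ ≃ ℕ := (Equiv.prodComm _ _).trans (Nat.divModEquiv e).symm
  have hφ : ∀ i l, φ (i, l) = l * e + (i : ℕ) := fun i l ↦ rfl
  have H1 := (φ.hasSum_iff).2 H0
  have H2 : ∀ i : Fin e, HasSum (fun l : ℕ ↦ ((fun n : ℕ ↦
      (qExpansion (e : ℝ) g).coeff n • (zetaE e ^ m * q) ^ n) ∘ φ) (i, l))
      (zetaE e ^ (m * ((i : ℕ) : ℤ)) * q ^ (i : ℕ) * compFun e i g τ) := by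
    intro i
    have h1 := (hasSum_compFun he hg i τ).mul_left (zetaE e ^ (m * ((i : ℕ) : ℤ)) * q ^ (i : ℕ))
    have hfun : (fun l : ℕ ↦ ((fun n : ℕ ↦
        (qExpansion (e : ℝ) g).coeff n • (zetaE e ^ m * q) ^ n) ∘ φ) (i, l)) =
        fun l : ℕ ↦ zetaE e ^ (m * ((i : ℕ) : ℤ)) * q ^ (i : ℕ) *
          ((comp e i g).coeff l • 𝕢 (1 : ℝ) (τ : ℂ) ^ l) := by
      funext l
      simp only [comp_apply, hφ, coeff_comp, smul_eq_mul]
      rw [← qParam_pow_eq e he, ← hq, mul_pow, pow_add, pow_add, pow_mul' q, add_comm (l * e)]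
      have hz : (zetaE e ^ m) ^ (l * e) = 1 := by
        rw [← zpow_natCast, ← zpow_mul]
        push_cast
        rw [← mul_assoc]
        exact zetaE_zpow_mul_self e he _
      rw [hz, one_mul, ← zpow_natCast (zetaE e ^ m), ← zpow_mul]
      ring
    rw [hfun]
    exact h1
  have H3 := H1.prod_fiberwise H2
  have H4 := hasSum_fintype fun i : Fin e ↦
    zetaE e ^ (m * ((i : ℕ) : ℤ)) * q ^ (i : ℕ) * compFun e i g τ
  rw [H3.unique H4, ← Fin.sum_univ_eq_sum_range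
    (fun i : ℕ ↦ zetaE e ^ (m * (i : ℤ)) * q ^ i * compFun e i g τ) e]

theorem qParam_one_vadd_one (τ : ℍ) :
    𝕢 (1 : ℝ) ((((1 : ℕ) : ℝ) +ᵥ τ : ℍ) : ℂ) = 𝕢 (1 : ℝ) (τ : ℂ) := by
  have h := qParam_vadd 1 1 τ
  have h1 : zetaE 1 ^ (1 : ℤ) = 1 := by
    have := zetaE_pow_self 1 one_pos
    simpa using this
  simpa [h1] using h

/-- the component functions are again holomorphic, bounded and `1`-periodic -/
theorem isPuiseux_compFun {e : ℕ} (he : 0 < e) {g : ℍ → ℂ} (hg : IsPuiseux e g) (i : ℕ) :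
    IsPuiseux 1 (compFun e i g) where
  mdiff := mdifferentiable_of_hasSum one_pos (hasSum_compFun he hg i)
  bdd := isBoundedAtImInfty_of_hasSum_qExpansion one_pos (hasSum_compFun he hg i)
  per := by
    intro z
    simp only [compFun]
    rw [qParam_one_vadd_one]

theorem IsPuiseux.analyticAt {e : ℕ} (he : 0 < e) {g : ℍ → ℂ} (hg : IsPuiseux e g) :
    AnalyticAt ℂ (cuspFunction (e : ℝ) g) 0 :=
  analyticAt_cuspFunction_zero (by exact_mod_cast he) hg.periodic hg.mdiff hg.bdd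

/-- uniqueness of `q`-expansion coefficients, for plain functions -/
theorem qExpansion_coeff_unique' {f : ℍ → ℂ} {c : ℕ → ℂ} {h : ℝ} (hh : 0 < h)
    (hfper : Periodic (f ∘ ofComplex) h) (hfhol : MDiff f) (hfbdd : IsBoundedAtImInfty f)
    (hf : ∀ τ : ℍ, HasSum (fun m ↦ c m • 𝕢 h τ ^ m) (f τ)) (m : ℕ) :
    c m = (qExpansion h f).coeff m := by
  have han := analyticAt_cuspFunction_zero hh hfper hfhol hfbdd
  have h1 := (hasFPowerSeriesOnBall_cuspFunction hh han hf).hasFPowerSeriesAt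
  have h2 := (hasFPowerSeriesOnBall_cuspFunction hh han
    (hasSum_qExpansion hh hfper hfhol hfbdd)).hasFPowerSeriesAt
  have h3 := h1.eq_formalMultilinearSeries h2
  have h4 := FormalMultilinearSeries.ofScalars_series_injective ℂ ℂ h3
  exact congrFun h4 m

theorem qExpansion_compFun {e : ℕ} (he : 0 < e) {g : ℍ → ℂ} (hg : IsPuiseux e g) (i : ℕ) :
    qExpansion (1 : ℝ) (compFun e i g) = comp e i g := by
  have h1 := isPuiseux_compFun he hg i
  have hper : Periodic (compFun e i g ∘ ofComplex) (1 : ℝ) := by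
    have := h1.periodic
    rwa [Nat.cast_one] at this
  ext l
  exact (qExpansion_coeff_unique' one_pos hper h1.mdiff h1.bdd (hasSum_compFun he hg i) l).symm

theorem IsPuiseux.add {e : ℕ} {g₁ g₂ : ℍ → ℂ} (h₁ : IsPuiseux e g₁) (h₂ : IsPuiseux e g₂) :
    IsPuiseux e (g₁ + g₂) where
  mdiff := h₁.mdiff.add h₂.mdiff
  bdd := h₁.bdd.add h₂.bdd
  per z := by simp [h₁.per z, h₂.per z]

theorem IsPuiseux.smul {e : ℕ} {g : ℍ → ℂ} (hg : IsPuiseux e g) (c : ℂ) :
    IsPuiseux e (c • g) where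
  mdiff := hg.mdiff.const_smul c
  bdd := hg.bdd.const_smul_left c
  per z := by simp [hg.per z]

theorem IsPuiseux.mul {e : ℕ} {g₁ g₂ : ℍ → ℂ} (h₁ : IsPuiseux e g₁) (h₂ : IsPuiseux e g₂) :
    IsPuiseux e (g₁ * g₂) where
  mdiff := h₁.mdiff.mul h₂.mdiff
  bdd := h₁.bdd.mul h₂.bdd
  per z := by simp [h₁.per z, h₂.per z]

theorem IsPuiseux.vadd_nat {h : ℍ → ℂ} (hh : IsPuiseux 1 h) (m : ℕ) (z : ℍ) :
    h ((m : ℝ) +ᵥ z) = h z := by
  induction m with
  | zero => simp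
  | succ k ih =>
    have : ((k + 1 : ℕ) : ℝ) +ᵥ z = ((1 : ℕ) : ℝ) +ᵥ ((k : ℝ) +ᵥ z) := by
      ext; simp; ring
    rw [this, hh.per, ih]

theorem IsPuiseux.of_one {h : ℍ → ℂ} (hh : IsPuiseux 1 h) (e : ℕ) : IsPuiseux e h where
  mdiff := hh.mdiff
  bdd := hh.bdd
  per z := hh.vadd_nat e z

theorem comp_add {e : ℕ} (he : 0 < e) {g₁ g₂ : ℍ → ℂ} (h₁ : IsPuiseux e g₁)
    (h₂ : IsPuiseux e g₂) (i : ℕ) : comp e i (g₁ + g₂) = comp e i g₁ + comp e i g₂ := by
  ext l
  simp only [coeff_comp, map_add, qExpansion_add (h₁.analyticAt he) (h₂.analyticAt he)]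

theorem comp_smul {e : ℕ} (he : 0 < e) {g : ℍ → ℂ} (hg : IsPuiseux e g) (c : ℂ) (i : ℕ) :
    comp e i (c • g) = c • comp e i g := by
  ext l
  simp only [coeff_comp, qExpansion_smul (hg.analyticAt he), PowerSeries.coeff_smul]

/-- if all Puiseux components vanish then the function vanishes -/
theorem eq_zero_of_comp_eq_zero {e : ℕ} (he : 0 < e) {g : ℍ → ℂ} (hg : IsPuiseux e g)
    (h : ∀ i < e, comp e i g = 0) : g = 0 := by
  have hq : qExpansion (e : ℝ) g = 0 := by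
    ext n
    have h1 := h (n % e) (Nat.mod_lt n he)
    have h2 := congrArg (fun P : PowerSeries ℂ ↦ P.coeff (n / e)) h1
    simp only [coeff_comp, map_zero] at h2
    rwa [Nat.mod_add_div' n e] at h2
  exact (qExpansion_eq_zero_iff (by exact_mod_cast he) hg.periodic hg.mdiff hg.bdd).1 hq

/-- the discrete Fourier transform matrix `(ζ_e^(m i))` -/
noncomputable def dft (e : ℕ) : Matrix (Fin e) (Fin e) ℂ :=
  Matrix.of fun m i ↦ zetaE e ^ ((m : ℕ) * (i : ℕ))

theorem dft_eq_vandermonde (e : ℕ) : dft e = Matrix.vandermonde fun m : Fin e ↦ zetaE e ^ (m : ℕ) := by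
  ext m i
  simp [dft, Matrix.vandermonde_apply, pow_mul]

theorem det_dft_ne_zero (e : ℕ) (he : 0 < e) : (dft e).det ≠ 0 := by
  rw [dft_eq_vandermonde, Matrix.det_vandermonde_ne_zero_iff]
  intro a b hab
  exact Fin.ext ((isPrimitiveRoot_zetaE e he).pow_inj a.2 b.2 hab)

/-- `translate_eq` for natural translations, in matrix form -/
theorem translate_eq_mulVec {e : ℕ} (he : 0 < e) {g : ℍ → ℂ} (hg : IsPuiseux e g) (τ : ℍ)
    (m : Fin e) :
    g (((m : ℕ) : ℝ) +ᵥ τ) =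
      (dft e).mulVec (fun i : Fin e ↦ 𝕢 (e : ℝ) τ ^ (i : ℕ) * compFun e i g τ) m := by
  have h1 := translate_eq he hg ((m : ℕ) : ℤ) τ
  have h2 : ((((m : ℕ) : ℤ) : ℝ)) = ((m : ℕ) : ℝ) := by push_cast; rfl
  rw [h2] at h1
  rw [h1, Matrix.mulVec, dotProduct, ← Fin.sum_univ_eq_sum_range
    (fun i : ℕ ↦ zetaE e ^ (((m : ℕ) : ℤ) * (i : ℤ)) * 𝕢 (e : ℝ) τ ^ i * compFun e i g τ) e]
  refine Finset.sum_congr rfl fun i _ ↦ ?_
  simp only [dft, Matrix.of_apply]
  rw [← Nat.cast_mul, zpow_natCast]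
  ring

/-- the Puiseux components are linear over `1`-periodic functions (function level) -/
theorem compFun_mul {e : ℕ} (he : 0 < e) {h g : ℍ → ℂ} (hh : IsPuiseux 1 h)
    (hg : IsPuiseux e g) {i : ℕ} (hi : i < e) (τ : ℍ) :
    compFun e i (h * g) τ = h τ * compFun e i g τ := by
  have hhg : IsPuiseux e (h * g) := (hh.of_one e).mul hg
  set q : ℂ := 𝕢 (e : ℝ) (τ : ℂ) with hq
  set v : Fin e → ℂ := fun i ↦ q ^ (i : ℕ) * compFun e i (h * g) τ with hv
  set w : Fin e → ℂ := fun i ↦ q ^ (i : ℕ) * (h τ * compFun e i g τ) with hw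
  have hvw : (dft e).mulVec (v - w) = 0 := by
    rw [Matrix.mulVec_sub, sub_eq_zero]
    funext m
    have h1 := translate_eq_mulVec he hhg τ m
    have h2 := translate_eq_mulVec he hg τ m
    rw [← hq] at h1 h2
    have h3 : (dft e).mulVec w m = h τ * (dft e).mulVec
        (fun i : Fin e ↦ q ^ (i : ℕ) * compFun e i g τ) m := by
      simp only [Matrix.mulVec, dotProduct, hw, Finset.mul_sum]
      refine Finset.sum_congr rfl fun i _ ↦ ?_
      ring
    rw [← h1, h3, ← h2, Pi.mul_apply, hh.vadd_nat]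
  have h0 := Matrix.eq_zero_of_mulVec_eq_zero (det_dft_ne_zero e he) hvw
  have h1 := congrFun h0 ⟨i, hi⟩
  simp only [Pi.sub_apply, Pi.zero_apply, hv, hw, sub_eq_zero] at h1
  exact mul_left_cancel₀ (pow_ne_zero _ (Periodic.qParam_ne_zero _)) h1

/-- the Puiseux components are linear over `1`-periodic functions (power series level) -/
theorem comp_mul {e : ℕ} (he : 0 < e) {h g : ℍ → ℂ} (hh : IsPuiseux 1 h)
    (hg : IsPuiseux e g) {i : ℕ} (hi : i < e) :
    comp e i (h * g) = qExpansion (1 : ℝ) h * comp e i g := by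
  have hhg : IsPuiseux e (h * g) := (hh.of_one e).mul hg
  have h1 : compFun e i (h * g) = h * compFun e i g := by
    funext τ
    rw [compFun_mul he hh hg hi τ, Pi.mul_apply]
  have han1 : AnalyticAt ℂ (cuspFunction (1 : ℝ) h) 0 := by
    have := hh.analyticAt one_pos
    rwa [Nat.cast_one] at this
  have han2 : AnalyticAt ℂ (cuspFunction (1 : ℝ) (compFun e i g)) 0 := by
    have := (isPuiseux_compFun he hg i).analyticAt one_pos
    rwa [Nat.cast_one] at this
  rw [← qExpansion_compFun he hhg i, h1, qExpansion_mul han1 han2, qExpansion_compFun he hg i]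

/-- for `e = 1` the only component is the `q`-expansion itself -/
theorem comp_one_zero (g : ℍ → ℂ) : comp 1 0 g = qExpansion (1 : ℝ) g := by
  ext l
  simp [coeff_comp]

theorem coeff_zero_comp_zero (e : ℕ) (g : ℍ → ℂ) :
    (comp e 0 g).coeff 0 = (qExpansion (e : ℝ) g).coeff 0 := by
  simp [coeff_comp]

theorem compFun_add {e : ℕ} (he : 0 < e) {g₁ g₂ : ℍ → ℂ} (h₁ : IsPuiseux e g₁)
    (h₂ : IsPuiseux e g₂) (i : ℕ) (τ : ℍ) :
    compFun e i (g₁ + g₂) τ = compFun e i g₁ τ + compFun e i g₂ τ := by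
  have h := hasSum_compFun he (h₁.add h₂) i τ
  rw [comp_add he h₁ h₂ i] at h
  have h' := (hasSum_compFun he h₁ i τ).add (hasSum_compFun he h₂ i τ)
  refine h.unique ?_
  have hfun : (fun l : ℕ ↦ (comp e i g₁ + comp e i g₂).coeff l • 𝕢 (1 : ℝ) (τ : ℂ) ^ l) =
      fun l : ℕ ↦ (comp e i g₁).coeff l • 𝕢 (1 : ℝ) (τ : ℂ) ^ l +
        (comp e i g₂).coeff l • 𝕢 (1 : ℝ) (τ : ℂ) ^ l := by
    funext l
    simp only [map_add, add_smul]
  rw [hfun]
  exact h'

theorem compFun_smul {e : ℕ} (he : 0 < e) {g : ℍ → ℂ} (hg : IsPuiseux e g) (c : ℂ) (i : ℕ)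
    (τ : ℍ) : compFun e i (c • g) τ = c * compFun e i g τ := by
  have h := hasSum_compFun he (hg.smul c) i τ
  rw [comp_smul he hg c i] at h
  have h' := (hasSum_compFun he hg i τ).mul_left c
  refine h.unique ?_
  have hfun : (fun l : ℕ ↦ (c • comp e i g).coeff l • 𝕢 (1 : ℝ) (τ : ℂ) ^ l) =
      fun l : ℕ ↦ c * ((comp e i g).coeff l • 𝕢 (1 : ℝ) (τ : ℂ) ^ l) := by
    funext l
    simp only [PowerSeries.coeff_smul, smul_eq_mul, mul_assoc]
  rw [hfun]
  exact h'

end Fermat.Agent.S20.Puiseux
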