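/-
Fermat/Agent/S20/CuspBounded.lean  (helper11; T20 piece C2b, the boundedness half "hexp" of HasCuspMatrix)

If the rows of the cusp matrix applied to the vector a(xi) have no terms of negative degree, then
every conjugate of the combination  sum_c a_c(j) F_c  is bounded at the cusp infinity.
The cusp matrix G and the expansion xi of j enter only through the two characterising
hypotheses `hG` and `hJ`, so the theorem does not depend on how they are defined.

Main exports (namespace Fermat.Agent.S20.CuspBounded):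
* isBounded_qParam_div_discriminant, isBounded_div_dpow   (vanishing q-coefficients => O(Delta^M))
* cj_T_zpow_smul (translate law), dpow_vadd
* cuspFunH, cuspFunH_eq_cj, isPuiseux_cuspFunH
* isPuiseux_sum, comp_zero, comp_sum
* deltaLS, coeff_zero_qExpansion_discriminant, comp_dpow_mul_cj_combo
* isBounded_cj_combo_cuspRep, isBounded_cj_of_cuspRep, isBounded_cj_combo, isBounded_cj_combo_sq
-/
import Fermat.Agent.S20.CuspKernel
import Fermat.Agent.S20.Puiseux
import Fermat.Agent.S20_helper11.CuspDFT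

set_option autoImplicit false

open UpperHalfPlane ModularForm CongruenceSubgroup Matrix.SpecialLinearGroup Polynomial Function
open scoped MatrixGroups ModularForm Manifold

namespace Fermat.Agent.S20.CuspBounded

open Fermat.Agent.S20.Puiseux
open Fermat.Agent.S20_helper11 (Cusps cuspRep cuspWidth cuspSigmaEquiv)

local notation "Δ" => ModularForm.discriminant
local notation "𝕢" => Function.Periodic.qParam

/-- `𝕢 / Δ` is bounded at `i∞`. -/
theorem isBounded_qParam_div_discriminant :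
    IsBoundedAtImInfty (fun z : ℍ => 𝕢 1 (z : ℂ) / Δ z) := by
  have h := exp_isBigO_discriminant
  rw [Asymptotics.isBigO_iff] at h
  obtain ⟨C, hC⟩ := h
  rw [IsBoundedAtImInfty, Filter.BoundedAtFilter, Asymptotics.isBigO_iff]
  refine ⟨C, ?_⟩
  filter_upwards [hC] with z hz
  have hΔ : Δ z ≠ 0 := discriminant_ne_zero z
  have hq : ‖𝕢 1 (z : ℂ)‖ = Real.exp (-2 * Real.pi * z.im) := by
    rw [Periodic.norm_qParam]; simp
  rw [norm_div, hq]
  have hpos : 0 < ‖Δ z‖ := norm_pos_iff.mpr hΔ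
  rw [Real.norm_of_nonneg (Real.exp_pos _).le] at hz
  simp only [Pi.one_apply, norm_one, mul_one]
  rw [div_le_iff₀ hpos]
  exact hz

theorem isBounded_pow {g : ℍ → ℂ} (hg : IsBoundedAtImInfty g) (M : ℕ) :
    IsBoundedAtImInfty (fun z => g z ^ M) := by
  induction M with
  | zero =>
    have : (fun z : ℍ => g z ^ 0) = fun _ => (1 : ℂ) := by funext z; simp
    rw [this]
    exact Filter.const_boundedAtFilter atImInfty (1 : ℂ)
  | succ m ih =>
    have : (fun z : ℍ => g z ^ (m + 1)) = (fun z => g z ^ m) * g := by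
      funext z; simp [pow_succ]
    rw [this]
    exact ih.mul hg

/-- A bounded holomorphic `1`-periodic function whose first `M` `q`-coefficients vanish is
`O(Δ ^ M)` at `i∞`. -/
theorem isBounded_div_dpow {f : ℍ → ℂ} (hf : IsPuiseux 1 f) (M : ℕ)
    (h0 : ∀ l < M, (qExpansion 1 f).coeff l = 0) :
    IsBoundedAtImInfty (fun z => (Δ z ^ M)⁻¹ * f z) := by
  set c : ℕ → ℂ := fun l => (qExpansion 1 f).coeff l with hc
  have hs : ∀ τ : ℍ, HasSum (fun l : ℕ => c l • 𝕢 1 (τ : ℂ) ^ l) (f τ) := by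
    intro τ
    have := hf.hasSum one_pos τ
    simpa using this
  -- the shifted series
  have hs' : ∀ τ : ℍ, HasSum (fun l : ℕ => c (l + M) • 𝕢 1 (τ : ℂ) ^ l)
      ((𝕢 1 (τ : ℂ) ^ M)⁻¹ * f τ) := by
    intro τ
    have hq : 𝕢 1 (τ : ℂ) ^ M ≠ 0 := pow_ne_zero _ (Periodic.qParam_ne_zero _)
    have h1 : HasSum (fun l : ℕ => c (l + M) • 𝕢 1 (τ : ℂ) ^ (l + M)) (f τ) := by
      have := (hasSum_nat_add_iff' (f := fun l : ℕ => c l • 𝕢 1 (τ : ℂ) ^ l) M).mpr (hs τ)
      have hz : ∑ i ∈ Finset.range M, c i • 𝕢 1 (τ : ℂ) ^ i = 0 :=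
        Finset.sum_eq_zero fun i hi => by
          rw [hc]; simp only; rw [h0 i (Finset.mem_range.mp hi), zero_smul]
      rwa [hz, sub_zero] at this
    have h2 := h1.mul_left ((𝕢 1 (τ : ℂ) ^ M)⁻¹)
    have hfun : (fun l : ℕ => (𝕢 1 (τ : ℂ) ^ M)⁻¹ * (c (l + M) • 𝕢 1 (τ : ℂ) ^ (l + M))) =
        fun l : ℕ => c (l + M) • 𝕢 1 (τ : ℂ) ^ l := by
      funext l
      simp only [smul_eq_mul, pow_add]
      field_simp
    rwa [hfun] at h2
  have hbM : IsBoundedAtImInfty (fun τ : ℍ => (𝕢 1 (τ : ℂ) ^ M)⁻¹ * f τ) :=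
    isBoundedAtImInfty_of_hasSum_qExpansion one_pos hs'
  have hqd : IsBoundedAtImInfty (fun z : ℍ => (𝕢 1 (z : ℂ) / Δ z) ^ M) :=
    isBounded_pow isBounded_qParam_div_discriminant M
  have heq : (fun z => (Δ z ^ M)⁻¹ * f z) =
      (fun z : ℍ => (𝕢 1 (z : ℂ) / Δ z) ^ M) * (fun τ : ℍ => (𝕢 1 (τ : ℂ) ^ M)⁻¹ * f τ) := by
    funext z
    have hq : 𝕢 1 (z : ℂ) ≠ 0 := Periodic.qParam_ne_zero _
    have hΔ : Δ z ≠ 0 := discriminant_ne_zero z
    simp only [Pi.mul_apply, div_pow]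
    field_simp
  rw [heq]
  exact hqd.mul hbM


/-! ### translate law for conjugates -/

theorem denom_T_zpow (m : ℤ) (z : ℍ) : denom ((ModularGroup.T ^ m : SL(2, ℤ))) z = 1 := by
  rw [ModularGroup.denom_apply, ModularGroup.coe_T_zpow]
  simp

/-- the conjugate along `T ^ m • x` is the conjugate along `x`, translated by `-m` -/
theorem cj_T_zpow_smul {N : ℕ} {k : ℤ} {f : ℍ → ℂ} (hf : ∀ γ ∈ Gamma0 N, f ∣[k] γ = f)
    (x : X N) (m : ℤ) (z : ℍ) :
    cj k f (ModularGroup.T ^ m • x) z = cj k f x (((-m : ℤ) : ℝ) +ᵥ z) := by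
  have h := cj_apply_smul hf x (ModularGroup.T ^ (-m)) z
  rw [denom_T_zpow, one_zpow, one_mul, zpow_neg, inv_inv, ← zpow_neg,
    UpperHalfPlane.modular_T_zpow_smul] at h
  exact h.symm

theorem dpow_vadd (n : ℕ) (m : ℤ) (z : ℍ) : dpow n (((m : ℤ) : ℝ) +ᵥ z) = dpow n z := by
  rw [← UpperHalfPlane.modular_T_zpow_smul, dpow_apply, dpow_apply, discriminant_smul',
    denom_T_zpow]
  simp


/-! ### the holomorphic conjugates at the cusps -/

section CuspFun

variable {N : ℕ} [NeZero N] {k : ℤ} {n : ℕ}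

/-- the conjugate of `f` at (the chosen representative of) the cusp `s`, with the pole cleared -/
noncomputable def cuspFunH (k : ℤ) (n : ℕ) (f : ℍ → ℂ) (s : Cusps N) : ℍ → ℂ :=
  dpow n * cj k f (cuspRep s)

theorem cuspFunH_eq_cj {f : ℍ → ℂ} (s : Cusps N) :
    cuspFunH k n f s = cj (12 * (n : ℤ) + k) (dpow n * f) (cuspRep s) := by
  unfold cuspFunH
  rw [cj_mul, cj_dpow]

theorem isPuiseux_cuspFunH {f : ℍ → ℂ} (hf : IsWH N k n f) (s : Cusps N) :
    IsPuiseux (cuspWidth s) (cuspFunH k n f s) where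
  mdiff := (mdiff_dpow n).mul (mdiff_cj hf.mdiff _)
  bdd := by
    unfold cuspFunH cj
    exact hf.isBounded _
  per := by
    intro z
    have hinv : ∀ γ ∈ Gamma0 N, f ∣[k] γ = f := fun γ hγ => hf.slash_eq hγ
    unfold cuspFunH
    simp only [Pi.mul_apply]
    have h1 : dpow n (((cuspWidth s : ℕ) : ℝ) +ᵥ z) = dpow n z := by
      have := dpow_vadd n (cuspWidth s : ℤ) z
      simpa using this
    have h2 : cj k f (cuspRep s) (((cuspWidth s : ℕ) : ℝ) +ᵥ z) = cj k f (cuspRep s) z := by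
      have h3 := cj_T_zpow_smul hinv (cuspRep s) (-(cuspWidth s : ℤ)) z
      have h4 : ModularGroup.T ^ (-(cuspWidth s : ℤ)) • cuspRep s = cuspRep s := by
        rw [Fermat.Agent.S20_helper11.T_zpow_smul_eq_self_iff]
        exact (dvd_neg.mpr dvd_rfl)
      rw [h4] at h3
      rw [h3]
      simp
    rw [h1, h2]

end CuspFun


/-! ### finite sums of Puiseux functions -/

theorem isPuiseux_zero (e : ℕ) : IsPuiseux e (0 : ℍ → ℂ) where
  mdiff := mdifferentiable_const
  bdd := Filter.const_boundedAtFilter atImInfty (0 : ℂ)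
  per := fun _ => rfl

theorem isPuiseux_sum {ι : Type*} (s : Finset ι) {e : ℕ} {g : ι → ℍ → ℂ}
    (h : ∀ c ∈ s, IsPuiseux e (g c)) : IsPuiseux e (∑ c ∈ s, g c) := by
  classical
  induction s using Finset.induction_on with
  | empty => simpa using isPuiseux_zero e
  | insert b t hb ih =>
    rw [Finset.sum_insert hb]
    exact (h b (Finset.mem_insert_self b t)).add (ih fun c hc => h c (Finset.mem_insert_of_mem hc))

theorem comp_zero (e i : ℕ) : Puiseux.comp e i (0 : ℍ → ℂ) = 0 := by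
  ext l
  rw [coeff_comp]
  have : qExpansion (e : ℝ) (0 : ℍ → ℂ) = 0 := by
    have := qExpansion_zero (e : ℝ)
    simpa using this
  simp [this]

theorem comp_sum {ι : Type*} (s : Finset ι) {e : ℕ} (he : 0 < e) {g : ι → ℍ → ℂ}
    (h : ∀ c ∈ s, IsPuiseux e (g c)) (i : ℕ) :
    Puiseux.comp e i (∑ c ∈ s, g c) = ∑ c ∈ s, Puiseux.comp e i (g c) := by
  classical
  induction s using Finset.induction_on with
  | empty => simpa using comp_zero e i
  | insert b t hb ih =>
    rw [Finset.sum_insert hb, Finset.sum_insert hb,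
      comp_add he (h b (Finset.mem_insert_self b t))
        (isPuiseux_sum t fun c hc => h c (Finset.mem_insert_of_mem hc)),
      ih fun c hc => h c (Finset.mem_insert_of_mem hc)]


/-! ### power series bookkeeping -/

theorem exists_powerSeries_of_coeff_neg {R : LaurentSeries ℂ} (hR : ∀ m : ℤ, m < 0 → R.coeff m = 0) :
    ∃ P : PowerSeries ℂ, (P : LaurentSeries ℂ) = R := by
  refine ⟨PowerSeries.mk fun l => R.coeff (l : ℤ), ?_⟩
  ext m
  rw [PowerSeries.coeff_coe]
  split_ifs with hm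
  · exact (hR m hm).symm
  · rw [PowerSeries.coeff_mk, Int.natAbs_of_nonneg (not_lt.mp hm)]

theorem coeff_eq_zero_of_laurent {A DP : PowerSeries ℂ} (hD0 : PowerSeries.coeff 0 DP = 0) {M : ℕ}
    {R : LaurentSeries ℂ} (hA : (A : LaurentSeries ℂ) = (DP : LaurentSeries ℂ) ^ M * R)
    (hR : ∀ m : ℤ, m < 0 → R.coeff m = 0) : ∀ l < M, PowerSeries.coeff l A = 0 := by
  obtain ⟨P, rfl⟩ := exists_powerSeries_of_coeff_neg hR
  have h1 : A = DP ^ M * P := by
    apply HahnSeries.ofPowerSeries_injective (Γ := ℤ)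
    rw [map_mul, map_pow]
    exact hA
  obtain ⟨U, hU⟩ : PowerSeries.X ∣ DP := PowerSeries.X_dvd_iff.mpr (by simpa using hD0)
  intro l hl
  rw [h1, hU, mul_pow, mul_assoc, PowerSeries.coeff_X_pow_mul', if_neg (not_le.mpr hl)]


/-! ### main theorem: integrality of the cusp rows forces boundedness of all conjugates -/

section Main

variable {N : ℕ} [NeZero N] {k : ℤ} {n : ℕ} {F : X N → ℍ → ℂ}

/-- the `q`-expansion of `Δ` as a Laurent series -/
noncomputable def deltaLS : LaurentSeries ℂ := ((qExpansion 1 Δ : PowerSeries ℂ) : LaurentSeries ℂ)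

theorem coeff_zero_qExpansion_discriminant : PowerSeries.coeff 0 (qExpansion 1 Δ) = 0 :=
  CuspFormClass.qExpansion_coeff_zero (f := CuspForm.discriminant) (h := 1) one_pos
    one_mem_strictPeriods_SL

theorem dpow_mul_cj_combo (a : X N → ℂ[X]) (d : ℕ) (s : Cusps N) :
    dpow (d + n) * cj k (combo F a) (cuspRep s) =
      ∑ c, (dpow d * polyJ (a c)) * cuspFunH k n (F c) s := by
  rw [cj_combo, Finset.mul_sum]
  refine Finset.sum_congr rfl fun c _ => ?_
  funext z
  simp only [Pi.mul_apply, cuspFunH, dpow_apply, pow_add]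
  ring

theorem isPuiseux_dpow_mul_cj_combo (hF : ∀ c, IsWH N k n (F c)) (a : X N → ℂ[X]) (d : ℕ)
    (hJ : ∀ c, IsPuiseux 1 (dpow d * polyJ (a c))) (s : Cusps N) :
    IsPuiseux (cuspWidth s) (dpow (d + n) * cj k (combo F a) (cuspRep s)) := by
  rw [dpow_mul_cj_combo]
  exact isPuiseux_sum _ fun c _ => ((hJ c).of_one _).mul (isPuiseux_cuspFunH (hF c) s)

theorem comp_dpow_mul_cj_combo (hF : ∀ c, IsWH N k n (F c)) (a : X N → ℂ[X]) (d : ℕ)
    (hJ : ∀ c, IsPuiseux 1 (dpow d * polyJ (a c))) (s : Cusps N) {i : ℕ} (hi : i < cuspWidth s) :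
    Puiseux.comp (cuspWidth s) i (dpow (d + n) * cj k (combo F a) (cuspRep s)) =
      ∑ c, qExpansion 1 (dpow d * polyJ (a c)) *
        Puiseux.comp (cuspWidth s) i (cuspFunH k n (F c) s) := by
  have hw : 0 < cuspWidth s := Fermat.Agent.S20_helper11.cuspWidth_pos s
  rw [dpow_mul_cj_combo, comp_sum _ hw
    (fun c _ => ((hJ c).of_one _).mul (isPuiseux_cuspFunH (hF c) s))]
  refine Finset.sum_congr rfl fun c _ => ?_
  exact comp_mul hw (hJ c) (isPuiseux_cuspFunH (hF c) s) hi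

/-- **Boundedness at the chosen representatives.**  `G` is the cusp matrix (rows = pairs
`(s, i)`, `i < width s`), characterised by `hG`; `ξ` is the `q`-expansion of `j`, characterised
on the polynomials `a c` by `hJ`. -/
theorem isBounded_cj_combo_cuspRep (hF : ∀ c, IsWH N k n (F c)) (a : X N → ℂ[X]) (d : ℕ)
    (ξ : LaurentSeries ℂ)
    (hJ : ∀ c, IsPuiseux 1 (dpow d * polyJ (a c)) ∧
      ((qExpansion 1 (dpow d * polyJ (a c)) : PowerSeries ℂ) : LaurentSeries ℂ) =
        deltaLS ^ d * Polynomial.eval₂ HahnSeries.C ξ (a c))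
    (G : ((s : Cusps N) × Fin (cuspWidth s)) → X N → LaurentSeries ℂ)
    (hG : ∀ (s : Cusps N) (i : Fin (cuspWidth s)) (c : X N), deltaLS ^ n * G ⟨s, i⟩ c =
      ((Puiseux.comp (cuspWidth s) i (cuspFunH k n (F c) s) : PowerSeries ℂ) : LaurentSeries ℂ))
    (h : ∀ r, ∀ m : ℤ, m < 0 →
      (∑ c, G r c * Polynomial.eval₂ HahnSeries.C ξ (a c)).coeff m = 0)
    (s : Cusps N) : IsBoundedAtImInfty (cj k (combo F a) (cuspRep s)) := by
  have hw : 0 < cuspWidth s := Fermat.Agent.S20_helper11.cuspWidth_pos s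
  set Φ : ℍ → ℂ := dpow (d + n) * cj k (combo F a) (cuspRep s) with hΦ
  have hΦP : IsPuiseux (cuspWidth s) Φ :=
    isPuiseux_dpow_mul_cj_combo hF a d (fun c => (hJ c).1) s
  -- the Puiseux components have vanishing coefficients below `d + n`
  have hcoeff : ∀ i : Fin (cuspWidth s), ∀ l < d + n,
      PowerSeries.coeff l (Puiseux.comp (cuspWidth s) i Φ) = 0 := by
    intro i
    refine coeff_eq_zero_of_laurent (DP := qExpansion 1 Δ) coeff_zero_qExpansion_discriminant
      (R := ∑ c, G ⟨s, i⟩ c * Polynomial.eval₂ HahnSeries.C ξ (a c)) ?_ (h ⟨s, i⟩)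
    rw [hΦ, comp_dpow_mul_cj_combo hF a d (fun c => (hJ c).1) s i.2, map_sum, Finset.mul_sum]
    refine Finset.sum_congr rfl fun c _ => ?_
    rw [map_mul, (hJ c).2, ← hG s i c]
    change deltaLS ^ d * _ * (deltaLS ^ n * _) = deltaLS ^ (d + n) * _
    rw [pow_add]
    ring
  -- each component function is `O(Δ ^ (d + n))`
  have hcomp : ∀ i : Fin (cuspWidth s), IsBoundedAtImInfty
      (fun z => (Δ z ^ (d + n))⁻¹ * compFun (cuspWidth s) i Φ z) := by
    intro i
    refine isBounded_div_dpow (isPuiseux_compFun hw hΦP i) (d + n) ?_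
    rw [qExpansion_compFun hw hΦP i]
    exact hcoeff i
  -- reassemble
  have hsum : ∀ z : ℍ, cj k (combo F a) (cuspRep s) z =
      ∑ i : Fin (cuspWidth s), 𝕢 (cuspWidth s : ℝ) (z : ℂ) ^ (i : ℕ) *
        ((Δ z ^ (d + n))⁻¹ * compFun (cuspWidth s) i Φ z) := by
    intro z
    have h1 := translate_eq hw hΦP 0 z
    simp only [Int.cast_zero, zero_vadd, zero_mul, zpow_zero, one_mul] at h1
    rw [← Fin.sum_univ_eq_sum_range
      (fun i => 𝕢 (cuspWidth s : ℝ) (z : ℂ) ^ i * compFun (cuspWidth s) i Φ z)] at h1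
    have hΔ : Δ z ^ (d + n) ≠ 0 := pow_ne_zero _ (discriminant_ne_zero z)
    have h2 : cj k (combo F a) (cuspRep s) z = (Δ z ^ (d + n))⁻¹ * Φ z := by
      rw [hΦ]; simp only [Pi.mul_apply, dpow_apply]; field_simp
    rw [h2, h1, Finset.mul_sum]
    refine Finset.sum_congr rfl fun i _ => ?_
    ring
  have hfun : cj k (combo F a) (cuspRep s) = ∑ i : Fin (cuspWidth s),
      (fun z : ℍ => 𝕢 (cuspWidth s : ℝ) (z : ℂ) ^ (i : ℕ)) *
        (fun z => (Δ z ^ (d + n))⁻¹ * compFun (cuspWidth s) i Φ z) := by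
    funext z
    rw [hsum z, Finset.sum_apply]
    rfl
  rw [hfun]
  refine isBoundedAtImInfty_sum _ _ fun i _ => ?_
  -- `𝕢 ^ i` is bounded
  have hq : IsBoundedAtImInfty (fun z : ℍ => 𝕢 (cuspWidth s : ℝ) (z : ℂ) ^ (i : ℕ)) := by
    rw [UpperHalfPlane.isBoundedAtImInfty_iff]
    refine ⟨1, 0, fun z _ => ?_⟩
    rw [norm_pow]
    have hq : ‖𝕢 (cuspWidth s : ℝ) (z : ℂ)‖ ≤ 1 :=
      (Periodic.norm_qParam_lt_one (by exact_mod_cast hw) z.im_pos).le
    exact pow_le_one₀ (norm_nonneg _) hq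
  exact hq.mul (hcomp i)

end Main


/-! ### from the representatives to all cosets -/

section AllCosets

variable {N : ℕ} [NeZero N] {k : ℤ} {n : ℕ} {F : X N → ℍ → ℂ}

theorem isBounded_vadd {g : ℍ → ℂ} (hg : IsBoundedAtImInfty g) (r : ℝ) :
    IsBoundedAtImInfty (fun z : ℍ => g (r +ᵥ z)) := by
  rw [UpperHalfPlane.isBoundedAtImInfty_iff] at hg ⊢
  obtain ⟨M, A, h⟩ := hg
  refine ⟨M, A, fun z hz => h _ ?_⟩
  rwa [UpperHalfPlane.vadd_im]

/-- boundedness at the representatives of the cusps implies boundedness of all conjugates -/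
theorem isBounded_cj_of_cuspRep {f : ℍ → ℂ} (hf : ∀ γ ∈ Gamma0 N, f ∣[k] γ = f)
    (h : ∀ s : Cusps N, IsBoundedAtImInfty (cj k f (cuspRep s))) (x : X N) :
    IsBoundedAtImInfty (cj k f x) := by
  obtain ⟨⟨s, m⟩, rfl⟩ := (cuspSigmaEquiv N).surjective x
  rw [Fermat.Agent.S20_helper11.cuspSigmaEquiv_apply]
  have h1 : cj k f (ModularGroup.T ^ (m : ℕ) • cuspRep s) =
      fun z : ℍ => cj k f (cuspRep s) ((((-((m : ℕ) : ℤ) : ℤ)) : ℝ) +ᵥ z) := by
    funext z
    have := cj_T_zpow_smul hf (cuspRep s) ((m : ℕ) : ℤ) z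
    rwa [zpow_natCast] at this
  rw [h1]
  exact isBounded_vadd (h s) _

/-- **hexp** (boundedness half of `HasCuspMatrix`), with the cusp matrix indexed by
`(s, i)`, `i < width s`. -/
theorem isBounded_cj_combo (hF : ∀ c, IsWH N k n (F c)) (a : X N → ℂ[X])
    (ξ : LaurentSeries ℂ)
    (hJ : ∀ (p : ℂ[X]) (d : ℕ), p.natDegree ≤ d → IsPuiseux 1 (dpow d * polyJ p) ∧
      ((qExpansion 1 (dpow d * polyJ p) : PowerSeries ℂ) : LaurentSeries ℂ) =
        deltaLS ^ d * Polynomial.eval₂ HahnSeries.C ξ p)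
    (G : ((s : Cusps N) × Fin (cuspWidth s)) → X N → LaurentSeries ℂ)
    (hG : ∀ (s : Cusps N) (i : Fin (cuspWidth s)) (c : X N), deltaLS ^ n * G ⟨s, i⟩ c =
      ((Puiseux.comp (cuspWidth s) i (cuspFunH k n (F c) s) : PowerSeries ℂ) : LaurentSeries ℂ))
    (h : ∀ r, ∀ m : ℤ, m < 0 →
      (∑ c, G r c * Polynomial.eval₂ HahnSeries.C ξ (a c)).coeff m = 0)
    (x : X N) : IsBoundedAtImInfty (cj k (combo F a) x) := by
  obtain ⟨n', hn'⟩ := exists_isWH_combo hF a
  refine isBounded_cj_of_cuspRep (fun γ hγ => hn'.slash_eq hγ) (fun s => ?_) x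
  set d : ℕ := Finset.univ.sup fun c => (a c).natDegree with hd
  refine isBounded_cj_combo_cuspRep hF a d ξ (fun c => hJ (a c) d ?_) G hG h s
  exact Finset.le_sup (f := fun c => (a c).natDegree) (Finset.mem_univ c)

/-- **hexp** in the exact shape of `HasCuspMatrix`: the square cusp matrix has its rows indexed
by `X N` through `cuspSigmaEquiv N`. -/
theorem isBounded_cj_combo_sq (hF : ∀ c, IsWH N k n (F c)) (a : X N → ℂ[X])
    (ξ : LaurentSeries ℂ)
    (hJ : ∀ (p : ℂ[X]) (d : ℕ), p.natDegree ≤ d → IsPuiseux 1 (dpow d * polyJ p) ∧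
      ((qExpansion 1 (dpow d * polyJ p) : PowerSeries ℂ) : LaurentSeries ℂ) =
        deltaLS ^ d * Polynomial.eval₂ HahnSeries.C ξ p)
    (Gsq : Matrix (X N) (X N) (LaurentSeries ℂ))
    (hG : ∀ (s : Cusps N) (i : Fin (cuspWidth s)) (c : X N),
      deltaLS ^ n * Gsq (cuspSigmaEquiv N ⟨s, i⟩) c =
      ((Puiseux.comp (cuspWidth s) i (cuspFunH k n (F c) s) : PowerSeries ℂ) : LaurentSeries ℂ))
    (h : ∀ r, ∀ m : ℤ, m < 0 →
      (∑ c, Gsq r c * Polynomial.eval₂ HahnSeries.C ξ (a c)).coeff m = 0)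
    (x : X N) : IsBoundedAtImInfty (cj k (combo F a) x) :=
  isBounded_cj_combo hF a ξ hJ (fun r c => Gsq (cuspSigmaEquiv N r) c)
    (fun s i c => hG s i c) (fun r m hm => h (cuspSigmaEquiv N r) m hm) x

end AllCosets

end Fermat.Agent.S20.CuspBounded
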