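import Fermat.Agent.S20.IndexAdapter
import Fermat.Agent.S20.M2S2
import Fermat.Agent.S20_helper27.Index
import Fermat.Agent.S20_helper27.Fixed
import Fermat.Agent.S20_helper11.CuspWidth
import Fermat.Agent.S23.FinDim
import Fermat.Agent.LevelOne_helper29.JOrders

/-!
# T20 piece G: the lower bound `genusFormula N ≤ dim S₂(Γ₀(N))` from the pieces

`HasMaximalShape N` is the output of B3+B5 (maximal tuple + shape of the determinant),
`HasCuspMatrix N` is the output of C2 (cusp matrix). Both are stated as `Prop`s here so that the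
final theorem is a one-liner once they are proved.
-/

set_option autoImplicit false

open UpperHalfPlane ModularForm CongruenceSubgroup Matrix.SpecialLinearGroup ModularGroup
open scoped MatrixGroups ModularForm Manifold

namespace Fermat.Agent.S20

open Fermat.Agent.S23 (G0 IsMF IsCF)
open Fermat.Agent.LevelOne_helper29 (jInv jInv_surjective)

local notation "Δ" => ModularForm.discriminant

/-- Number of fixed points of `S` on `X N`. -/
noncomputable def f2 (N : ℕ) : ℕ := Nat.card {x : X N // S • x = x}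

/-- Number of fixed points of `S * T` on `X N`. -/
noncomputable def f3 (N : ℕ) : ℕ := Nat.card {x : X N // (S * T) • x = x}

/-- Number of `T`-orbits on `X N` (cusps). -/
noncomputable def nuInf (N : ℕ) : ℕ := Nat.card (Fermat.Agent.S20_helper11.Cusps N)

/-- Output of B3 + B5 for weight `2`: a weakly holomorphic tuple whose conjugate determinant has
the minimal possible divisor on `ℍ`. -/
def HasMaximalShape (N : ℕ) [NeZero N] : Prop :=
  ∃ (n : ℕ) (F : X N → ℍ → ℂ) (C : ℂ) (γ : ℤ), (∀ c, IsWH N 2 n (F c)) ∧ C ≠ 0 ∧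
    (∀ z : ℍ, detFun 2 F z ^ 2 =
      C * E₄ z ^ (2 * (mu N + f3 N)) * E₆ z ^ (mu N + f2 N) * Δ z ^ γ) ∧
    4 * (mu N : ℤ) = 8 * ((mu N : ℤ) + f3 N) + 6 * ((mu N : ℤ) + f2 N) + 12 * γ

open Classical in
/-- Output of C2: the cusp matrix of a weakly holomorphic tuple. -/
def HasCuspMatrix (N : ℕ) [NeZero N] : Prop :=
  ∀ {k : ℤ} {n : ℕ} {F : X N → ℍ → ℂ}, (∀ c, IsWH N k n (F c)) →
    ∀ {α β : ℕ} {γ : ℤ} {C : ℂ}, C ≠ 0 →
      (∀ z : ℍ, detFun k F z ^ 2 = C * E₄ z ^ α * E₆ z ^ β * Δ z ^ γ) →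
      ∃ (ξ : LaurentSeries ℂ) (G : Matrix (X N) (X N) (LaurentSeries ℂ)),
        ξ.order = -1 ∧ G.det ≠ 0 ∧
        (∀ a : X N → Polynomial ℂ, (∀ r, ∀ m : ℤ, m < 0 →
            (∑ c, G r c * Polynomial.eval₂ HahnSeries.C ξ (a c)).coeff m = 0) →
          ∀ x : X N, IsBoundedAtImInfty (cj k (combo F a) x)) ∧
        2 * G.det.order + ((mu N : ℤ) - nuInf N) = γ

lemma exists_E4_E6_ne_zero : ∃ z : ℍ, E₄ z ≠ 0 ∧ E₆ z ≠ 0 := by
  obtain ⟨z, hz⟩ := jInv_surjective 1
  refine ⟨z, fun h => ?_, fun h => ?_⟩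
  · rw [(Fermat.Agent.LevelOne_helper29.jInv_eq_zero_iff z).mpr h] at hz
    norm_num at hz
  · rw [(Fermat.Agent.LevelOne_helper29.jInv_eq_1728_iff z).mpr h] at hz
    norm_num at hz

instance finiteDimensional_modularForm_G0 (N : ℕ) [NeZero N] (k : ℤ) :
    FiniteDimensional ℂ (ModularForm (G0 N) k) := by
  have : FiniteDimensional ℂ (CuspForm (Gamma0 N) k) :=
    Fermat.Agent.S23.finiteDimensional_cuspForm N k
  exact Fermat.Agent.S20_helper10.finiteDimensional_modularForm (Γ := Gamma0 N) (k := k)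

theorem mu_eq_dedekindPsi (N : ℕ) [NeZero N] : mu N = ModularCurve.dedekindPsi N :=
  Fermat.Agent.S20_helper27.card_XN N

theorem f2_eq_nuTwo (N : ℕ) : f2 N = ModularCurve.nuTwo N :=
  Fermat.Agent.S20_helper27.card_fixed_S N

theorem f3_eq_nuThree (N : ℕ) : f3 N = ModularCurve.nuThree N :=
  Fermat.Agent.S20_helper27.card_fixed_ST N

theorem nuInf_eq_cuspCount (N : ℕ) [NeZero N] : nuInf N = ModularCurve.cuspCount N :=
  Fermat.Agent.S20_helper11.card_cusps N

/-- **Piece G.** The lower bound for `dim S₂(Γ₀(N))` from the maximal tuple and the cusp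
matrix. -/
theorem genusFormula_le_of (N : ℕ) [NeZero N] (hB : HasMaximalShape N) (hC : HasCuspMatrix N) :
    ModularCurve.genusFormula N ≤ (Module.finrank ℂ (CuspForm (Gamma0 N) 2) : ℚ) := by
  classical
  obtain ⟨n, F, C, γ, hF, hC0, hshape, hwt⟩ := hB
  obtain ⟨ξ, G, hξ, hG, hexp, hord⟩ := hC hF hC0 hshape
  -- the determinant is not identically zero
  have hdet : ∃ z, detFun 2 F z ≠ 0 := by
    obtain ⟨z, h4, h6⟩ := exists_E4_E6_ne_zero
    refine ⟨z, fun h0 => ?_⟩
    have := hshape z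
    rw [h0] at this
    have hne : C * E₄ z ^ (2 * (mu N + f3 N)) * E₆ z ^ (mu N + f2 N) * Δ z ^ γ ≠ 0 :=
      mul_ne_zero (mul_ne_zero (mul_ne_zero hC0 (pow_ne_zero _ h4)) (pow_ne_zero _ h6))
        (zpow_ne_zero _ (discriminant_ne_zero z))
    exact hne (by rw [← this]; ring)
  have hM2 := finrank_modularForm_ge indexLowerBound hF hdet ξ hξ G hG hexp
  have hS2 := M2S2.finrank_cuspForm_ge N
  -- counts
  have hmu := mu_eq_dedekindPsi N
  have h2 := f2_eq_nuTwo N
  have h3 := f3_eq_nuThree N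
  have hinf := nuInf_eq_cuspCount N
  -- arithmetic in `ℚ`
  have hM2q : ((mu N : ℤ) + G.det.order : ℚ) ≤ (Module.finrank ℂ (ModularForm (G0 N) 2) : ℚ) := by
    exact_mod_cast hM2
  have hordq : 2 * (G.det.order : ℚ) + ((mu N : ℚ) - nuInf N) = (γ : ℚ) := by
    exact_mod_cast hord
  have hwtq : 4 * (mu N : ℚ) = 8 * ((mu N : ℚ) + f3 N) + 6 * ((mu N : ℚ) + f2 N) + 12 * (γ : ℚ) := by
    exact_mod_cast hwt
  have hS2' : (Module.finrank ℂ (ModularForm (G0 N) 2) : ℚ) - ((ModularCurve.cuspCount N : ℚ) - 1)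
      ≤ (Module.finrank ℂ (CuspForm (Gamma0 N) 2) : ℚ) := hS2
  unfold ModularCurve.genusFormula
  rw [← hmu, ← h2, ← h3, ← hinf]
  rw [← hinf] at hS2'
  push_cast at hM2q
  linarith

end Fermat.Agent.S20
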