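import Fermat.Agent.S20.CuspMatrixDefs
import Fermat.Agent.S20.Glue
import Fermat.Agent.S20_helper11.CuspDFT
import Fermat.Agent.S20_helper29.OrderShape
import Fermat.Agent.S20_helper83.CuspExp

/-!
# T20 / C2b: the cusp matrix of a weakly holomorphic tuple: `hasCuspMatrix`
-/

set_option autoImplicit false

open UpperHalfPlane ModularForm CongruenceSubgroup Matrix.SpecialLinearGroup ModularGroup
open scoped MatrixGroups ModularForm Manifold

namespace Fermat.Agent.S20

open Fermat.Agent.S23 (G0 IsMF IsCF)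
open Fermat.Agent.S20_helper11 (Cusps cuspRep cuspWidth cuspSigmaEquiv cuspDftConst)
open Fermat.Agent.S20.Puiseux

local notation "Δ" => ModularForm.discriminant
local notation "𝕢" => Function.Periodic.qParam

open Classical

variable {N : ℕ} [NeZero N] {k : ℤ} {n : ℕ} {F : X N → ℍ → ℂ}

/-- the square power-series cusp matrix, rows reindexed by `X N` via `cuspSigmaEquiv`. -/
noncomputable def cuspPsq (k : ℤ) (n : ℕ) (F : X N → ℍ → ℂ) :
    Matrix (X N) (X N) (PowerSeries ℂ) :=
  Matrix.reindex (cuspSigmaEquiv N) (Equiv.refl _) (cuspP k n F)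

/-- the determinant of the matrix of Puiseux component functions, as a function on `ℍ` -/
noncomputable def cuspDetFun (k : ℤ) (n : ℕ) (F : X N → ℍ → ℂ) : ℍ → ℂ :=
  Matrix.det (fun x a : X N => compFun (cuspWidth ((cuspSigmaEquiv N).symm x).1)
    (((cuspSigmaEquiv N).symm x).2 : ℕ) (cuspFun k n (F a) ((cuspSigmaEquiv N).symm x).1))

theorem isPuiseux_cuspDetFun (hF : ∀ a, IsWH N k n (F a)) : IsPuiseux 1 (cuspDetFun k n F) := by
  unfold cuspDetFun
  refine isPuiseux_det _ fun x a => ?_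
  exact isPuiseux_compFun (Fermat.Agent.S20_helper11.cuspWidth_pos _)
    (isPuiseux_cuspFun (hF a) _) _

theorem qExpansion_cuspDetFun (hF : ∀ a, IsWH N k n (F a)) :
    qExpansion (1 : ℝ) (cuspDetFun k n F) = (cuspPsq k n F).det := by
  unfold cuspDetFun
  rw [qExpansion_det_compFun (e := fun x : X N => cuspWidth ((cuspSigmaEquiv N).symm x).1)
    (fun x => Fermat.Agent.S20_helper11.cuspWidth_pos _)
    (fun x : X N => (((cuspSigmaEquiv N).symm x).2 : ℕ))
    (fun x a : X N => cuspFun k n (F a) ((cuspSigmaEquiv N).symm x).1)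
    (fun x a => isPuiseux_cuspFun (hF a) _)]
  rfl

/-- the value of `cuspDetFun` is the determinant of the matrix of values (transposed) -/
theorem cuspDetFun_apply (k : ℤ) (n : ℕ) (F : X N → ℍ → ℂ) (z : ℍ) :
    cuspDetFun k n F z = (Matrix.of fun a x : X N =>
      compFun (cuspWidth ((cuspSigmaEquiv N).symm x).1)
        (((cuspSigmaEquiv N).symm x).2 : ℕ) (cuspFun k n (F a) ((cuspSigmaEquiv N).symm x).1) z).det := by
  unfold cuspDetFun
  rw [det_apply, ← Matrix.det_transpose]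
  rfl

/-- **DFT factorisation of the conjugate determinant**, pointwise. -/
theorem dpow_mul_detFun_eq (hF : ∀ a, IsWH N k n (F a)) (z : ℍ) :
    (Δ z ^ n) ^ Fintype.card (X N) * detFun k F z =
      cuspDftConst N * ((∏ r : CuspIdx N, 𝕢 (cuspWidth r.1 : ℝ) z ^ (r.2 : ℕ)) *
        cuspDetFun k n F z) := by
  have h1 : ((Δ z ^ n) • conjMat k F z).det = (Δ z ^ n) ^ Fintype.card (X N) * detFun k F z :=
    Matrix.det_smul _ _
  have h2 := Fermat.Agent.S20_helper11.cusp_det_eq N ((Δ z ^ n) • conjMat k F z) (cuspC k n F z)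
    (fun a s m => by
      have h := dpow_mul_conjMat_apply hF z a s m
      rw [Fermat.Agent.S20_helper11.cuspSigmaEquiv_apply] at h
      rw [Matrix.smul_apply, smul_eq_mul, h]
      refine Finset.sum_congr rfl fun i _ => ?_
      congr 2)
  rw [← h1, h2]
  congr 1
  have h3 : Matrix.reindex (Equiv.refl (X N)) (cuspSigmaEquiv N) (cuspC k n F z) =
      Matrix.of fun a x : X N =>
        (𝕢 (cuspWidth ((cuspSigmaEquiv N).symm x).1 : ℝ) z ^ (((cuspSigmaEquiv N).symm x).2 : ℕ)) *
          (Matrix.of fun a x : X N =>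
            compFun (cuspWidth ((cuspSigmaEquiv N).symm x).1)
              (((cuspSigmaEquiv N).symm x).2 : ℕ)
              (cuspFun k n (F a) ((cuspSigmaEquiv N).symm x).1) z) a x := by
    ext a x
    rfl
  rw [h3, Matrix.det_mul_row, ← cuspDetFun_apply]
  congr 1
  rw [← Equiv.prod_comp (cuspSigmaEquiv N)]
  refine Finset.prod_congr rfl fun r _ => ?_
  rw [Equiv.symm_apply_apply]

theorem nuInf_le_mu (N : ℕ) [NeZero N] : nuInf N ≤ mu N := by
  have h := Fermat.Agent.S20_helper11.sum_cuspWidth_sub_one_add_cuspCount N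
  rw [nuInf_eq_cuspCount, mu_eq_dedekindPsi]
  omega

/-- **DFT factorisation of the squared conjugate determinant**, as functions. -/
theorem dpow_mul_detFun_sq_eq (hF : ∀ a, IsWH N k n (F a)) :
    dpow (2 * (n * Fintype.card (X N))) * (fun z => detFun k F z ^ 2) =
      (cuspDftConst N ^ 2) • (qFun ^ (mu N - nuInf N) * cuspDetFun k n F ^ 2) := by
  funext z
  have h := dpow_mul_detFun_eq hF z
  have hprod : (∏ r : CuspIdx N, 𝕢 (cuspWidth r.1 : ℝ) z ^ (r.2 : ℕ)) ^ 2 =
      qFun z ^ (mu N - nuInf N) := by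
    rw [← Finset.prod_pow]
    have h2 := Fermat.Agent.S20_helper11.prod_qParam_cusps N (z : ℂ)
    rw [mu_eq_dedekindPsi, nuInf_eq_cuspCount]
    unfold qFun
    rw [← h2]
    refine Finset.prod_congr rfl fun r _ => ?_
    rw [← pow_mul, mul_comm]
  simp only [Pi.mul_apply, Pi.smul_apply, Pi.pow_apply, dpow_apply, smul_eq_mul]
  rw [← hprod]
  have h3 : Δ z ^ (2 * (n * Fintype.card (X N))) * detFun k F z ^ 2 =
      ((Δ z ^ n) ^ Fintype.card (X N) * detFun k F z) ^ 2 := by
    ring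
  rw [h3, h]
  ring

/-- **(Q)**: the `q`-expansion of `Δ ^ (2 n μ) * 𝔻_F ^ 2`. -/
theorem qExpansion_dpow_mul_detFun_sq (hF : ∀ a, IsWH N k n (F a)) :
    qExpansion (1 : ℝ) (dpow (2 * (n * Fintype.card (X N))) * (fun z => detFun k F z ^ 2)) =
      (cuspDftConst N ^ 2) •
        (PowerSeries.X ^ (mu N - nuInf N) * (cuspPsq k n F).det ^ 2) := by
  rw [dpow_mul_detFun_sq_eq hF]
  have hd := isPuiseux_cuspDetFun hF
  have hq := isPuiseux_qFun
  have hprod : IsPuiseux 1 (qFun ^ (mu N - nuInf N) * cuspDetFun k n F ^ 2) :=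
    (hq.pow _).mul (hd.pow 2)
  rw [qExpansion_smul hprod.analyticAt_one]
  congr 1
  let qF : puiseuxSubring := ⟨qFun, hq⟩
  let dF : puiseuxSubring := ⟨cuspDetFun k n F, hd⟩
  have h1 : qFun ^ (mu N - nuInf N) * cuspDetFun k n F ^ 2 =
      ((qF ^ (mu N - nuInf N) * dF ^ 2 : puiseuxSubring) : ℍ → ℂ) := by
    push_cast
    rfl
  rw [h1, ← qExpHom_apply, map_mul, map_pow, map_pow, qExpHom_apply, qExpHom_apply]
  show qExpansion (1 : ℝ) qFun ^ _ * qExpansion (1 : ℝ) (cuspDetFun k n F) ^ 2 = _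
  rw [qExpansion_qFun, qExpansion_cuspDetFun hF]

theorem isBoundedAtImInfty_dpow_mul_detFun_sq (hF : ∀ a, IsWH N k n (F a)) :
    IsBoundedAtImInfty
      (dpow (2 * (n * Fintype.card (X N))) * (fun z => detFun k F z ^ 2)) := by
  have h : dpow (2 * (n * Fintype.card (X N))) * (fun z => detFun k F z ^ 2)
      = (dpow (n * mu N) * detFun k F) * (dpow (n * mu N) * detFun k F) := by
    ext z
    simp only [Pi.mul_apply, dpow_apply, mu_eq_card]
    ring
  rw [h]
  exact (isBoundedAtImInfty_dpow_mul_detFun hF).mul (isBoundedAtImInfty_dpow_mul_detFun hF)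

theorem scaledMatrix_cuspPsq (k : ℤ) (n : ℕ) (F : X N → ℍ → ℂ) :
    Fermat.Agent.S20_helper29.scaledMatrix (cuspPsq k n F) n = cuspGsq k n F := by
  ext r a
  rfl

/-- **C2b**: the order of the determinant of the cusp matrix. -/
theorem order_det_cuspGsq (hF : ∀ a, IsWH N k n (F a)) {α β : ℕ} {γ : ℤ} {C : ℂ} (hC : C ≠ 0)
    (hshape : ∀ z : ℍ, detFun k F z ^ 2 = C * E₄ z ^ α * E₆ z ^ β * Δ z ^ γ) :
    (cuspGsq k n F).det ≠ 0 ∧
      2 * (cuspGsq k n F).det.order + ((mu N : ℤ) - nuInf N) = γ := by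
  have h := Fermat.Agent.S20_helper29.order_det_of_shape (cuspPsq k n F) n
    (D := fun z => detFun k F z ^ 2) hC (isBoundedAtImInfty_dpow_mul_detFun_sq hF) hshape
    (qExpansion_dpow_mul_detFun_sq hF)
  rw [scaledMatrix_cuspPsq] at h
  refine ⟨h.1, ?_⟩
  have h2 := h.2
  rw [Nat.cast_sub (nuInf_le_mu N)] at h2
  exact h2

/-- **C2b**: the cusp matrix of a weakly holomorphic tuple. -/
theorem hasCuspMatrix (N : ℕ) [NeZero N] : HasCuspMatrix N := by
  intro k n F hF α β γ C hC hshape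
  obtain ⟨hdet, hord⟩ := order_det_cuspGsq hF hC hshape
  refine ⟨Fermat.Agent.S20_helper83.jL, cuspGsq k n F, Fermat.Agent.S20_helper83.order_jL,
    hdet, ?_, hord⟩
  intro a h x
  refine Fermat.Agent.S20_helper83.hexp_of_rows hF (cuspGsq k n F) (fun s i c => ?_) a h x
  rw [cuspGsq_apply_equiv, cuspG_apply, Fermat.Agent.S20_helper83.DeltaL_eq]
  rfl

end Fermat.Agent.S20
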