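import Fermat.Agent.S20.Glue
import Fermat.Agent.S20.CuspMatrixDefs
import Fermat.Agent.S20_helper83.CuspExp
import Fermat.Agent.S20_helper29.OrderShape

/-!
# T20 / C2b assembly: `HasCuspMatrix N` from the `q`-expansion identity (Q)

`HasCuspQ N` is the identity
`qExpansion 1 (Δ^(2nμ) * detFun^2) = b • (X^(μ - ν∞) * (det P)^2)`, `P` the square power series
cusp matrix.  Together with the boundedness clause (helper83 `hexp_of_rows`) and the order
bookkeeping (helper29 `order_det_of_shape`) it gives `HasCuspMatrix N`.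
-/

set_option autoImplicit false

open UpperHalfPlane ModularForm CongruenceSubgroup Matrix.SpecialLinearGroup ModularGroup
open scoped MatrixGroups ModularForm Manifold

namespace Fermat.Agent.S20

open Fermat.Agent.S23 (G0 IsMF IsCF)
open Fermat.Agent.S20_helper11 (Cusps cuspRep cuspWidth cuspSigmaEquiv)
open Fermat.Agent.S20.Puiseux

local notation "Δ" => ModularForm.discriminant

open Classical in
/-- (Q): the `q`-expansion of `Δ^(2nμ) * detFun^2` in terms of the power series cusp matrix. -/
def HasCuspQ (N : ℕ) [NeZero N] : Prop :=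
  ∀ {k : ℤ} {n : ℕ} {F : X N → ℍ → ℂ}, (∀ a, IsWH N k n (F a)) → ∃ b : ℂ,
    qExpansion 1 (dpow (2 * (n * mu N)) * fun z => detFun k F z ^ 2) =
      b • (PowerSeries.X ^ (mu N - nuInf N) *
        (Matrix.reindex (cuspSigmaEquiv N) (Equiv.refl (X N)) (cuspP k n F)).det ^ 2)

namespace CuspMatrixOfQ

lemma nuInf_le_mu (N : ℕ) [NeZero N] : nuInf N ≤ mu N :=
  Nat.card_le_card_of_surjective (Quotient.mk'' : X N → Cusps N) Quotient.mk''_surjective

end CuspMatrixOfQ

open Classical in
theorem hasCuspMatrix_of_Q (N : ℕ) [NeZero N] (hQ : HasCuspQ N) : HasCuspMatrix N := by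
  intro k n F hF α β γ C hC hshape
  obtain ⟨b, hq⟩ := hQ hF
  set Pm : Matrix (X N) (X N) (PowerSeries ℂ) :=
    Matrix.reindex (cuspSigmaEquiv N) (Equiv.refl (X N)) (cuspP k n F) with hPm
  have hbd : IsBoundedAtImInfty
      (dpow (2 * (n * Fintype.card (X N))) * fun z => detFun k F z ^ 2) := by
    have h := (isBoundedAtImInfty_dpow_mul_detFun hF).mul (isBoundedAtImInfty_dpow_mul_detFun hF)
    rw [← mu_eq_card]
    refine h.congr' (Filter.Eventually.of_forall fun z => ?_) Filter.EventuallyEq.rfl
    simp only [Pi.mul_apply, dpow_apply]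
    ring
  have hq' : qExpansion 1 (dpow (2 * (n * Fintype.card (X N))) * fun z => detFun k F z ^ 2) =
      b • (PowerSeries.X ^ (mu N - nuInf N) * Pm.det ^ 2) := by
    rw [← mu_eq_card]; exact hq
  obtain ⟨hdet, hord⟩ := S20_helper29.order_det_of_shape Pm n hC hbd hshape hq'
  refine ⟨S20_helper83.jL, S20_helper29.scaledMatrix Pm n, S20_helper83.order_jL, hdet,
    fun a h x => ?_, ?_⟩
  · refine S20_helper83.hexp_of_rows hF (S20_helper29.scaledMatrix Pm n) (fun s i c => ?_) a h x
    rw [S20_helper83.DeltaL_eq]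
    simp only [S20_helper29.scaledMatrix, Matrix.of_apply, hPm, Matrix.reindex_apply,
      Matrix.submatrix_apply, Equiv.symm_apply_apply, Equiv.refl_symm, Equiv.refl_apply]
    rfl
  · have hle := CuspMatrixOfQ.nuInf_le_mu N
    rw [← hord]
    push_cast [Nat.cast_sub hle]
    ring

end Fermat.Agent.S20
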