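import Fermat.Agent.S20.CuspMatrixOfQ
import Fermat.Agent.S20.PuiseuxDet
import Fermat.Agent.S20_helper11.CuspDFT

/-!
# T20 / C2b (Q): the `q`-expansion of `Δ^(2nμ) * detFun^2` through the cusp matrix
-/

set_option autoImplicit false

open UpperHalfPlane ModularForm CongruenceSubgroup Matrix.SpecialLinearGroup ModularGroup
open scoped MatrixGroups ModularForm Manifold

namespace Fermat.Agent.S20

open Fermat.Agent.S23 (G0 IsMF IsCF)
open Fermat.Agent.S20_helper11 (Cusps cuspRep cuspWidth cuspSigmaEquiv cuspWidth_pos cuspDftConst)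
open Fermat.Agent.S20.Puiseux

local notation "Δ" => ModularForm.discriminant
local notation "𝕢" => Function.Periodic.qParam

open Classical

namespace CuspQ

variable {N : ℕ} [NeZero N] {k : ℤ} {n : ℕ}

/-- the square matrix of Puiseux component functions: rows = cusp rows transported to `X N`,
columns = tuple index -/
noncomputable def compMat (k : ℤ) (n : ℕ) (F : X N → ℍ → ℂ) : Matrix (X N) (X N) (ℍ → ℂ) :=
  fun x a => compFun (cuspWidth ((cuspSigmaEquiv N).symm x).1) ((cuspSigmaEquiv N).symm x).2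
    (cuspFun k n (F a) ((cuspSigmaEquiv N).symm x).1)

lemma isPuiseux_compMat {F : X N → ℍ → ℂ} (hF : ∀ a, IsWH N k n (F a)) (x a : X N) :
    IsPuiseux 1 (compMat k n F x a) :=
  isPuiseux_compFun (cuspWidth_pos _) (isPuiseux_cuspFun (hF a) _) _

lemma qExpansion_det_compMat {F : X N → ℍ → ℂ} (hF : ∀ a, IsWH N k n (F a)) :
    qExpansion (1 : ℝ) (compMat k n F).det =
      (Matrix.reindex (cuspSigmaEquiv N) (Equiv.refl (X N)) (cuspP k n F)).det := by
  have := qExpansion_det_compFun (ι := X N)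
    (e := fun x => cuspWidth ((cuspSigmaEquiv N).symm x).1) (fun x => cuspWidth_pos _)
    (fun x => (((cuspSigmaEquiv N).symm x).2 : ℕ))
    (fun x a => cuspFun k n (F a) ((cuspSigmaEquiv N).symm x).1)
    (fun x a => isPuiseux_cuspFun (hF a) _)
  exact this

lemma qExpansion_pow' {g : ℍ → ℂ} (hg : IsPuiseux 1 g) (m : ℕ) :
    qExpansion (1 : ℝ) (g ^ m) = qExpansion (1 : ℝ) g ^ m := by
  have := map_pow qExpHom (⟨g, hg⟩ : puiseuxSubring) m
  simpa using this

/-- the pointwise factorisation of the conjugate determinant through the cusp matrix -/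
lemma pointwise {F : X N → ℍ → ℂ} (hF : ∀ a, IsWH N k n (F a)) (z : ℍ) :
    Δ z ^ (n * mu N) * detFun k F z =
      cuspDftConst N * (∏ r : CuspIdx N, 𝕢 (cuspWidth r.1 : ℝ) z ^ (r.2 : ℕ)) *
        (compMat k n F).det z := by
  have h1 : ((Δ z ^ n) • conjMat k F z).det = (Δ z ^ n) ^ Fintype.card (X N) * detFun k F z := by
    rw [Matrix.det_smul]; rfl
  have h2 := Fermat.Agent.S20_helper11.det_eq_dftConst_mul (fun s : Cusps N => cuspWidth s)
    (cuspSigmaEquiv N) ((Δ z ^ n) • conjMat k F z) (cuspC k n F z) (fun a s m => by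
      rw [Matrix.smul_apply, smul_eq_mul, dpow_mul_conjMat_apply hF z a s m]
      refine Finset.sum_congr rfl fun i _ => ?_
      congr 2)
  have h3 : Matrix.reindex (Equiv.refl (X N)) (cuspSigmaEquiv N) (cuspC k n F z) =
      Matrix.of fun a x =>
        (𝕢 (cuspWidth ((cuspSigmaEquiv N).symm x).1 : ℝ) z ^ (((cuspSigmaEquiv N).symm x).2 : ℕ)) *
          (Matrix.of fun a x => compMat k n F x a z) a x := by
    ext a x; rfl
  rw [h3, Matrix.det_mul_row] at h2
  have h4 : (Matrix.of fun a x => compMat k n F x a z).det = (compMat k n F).det z := by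
    rw [Puiseux.det_apply, ← Matrix.det_transpose]
    rfl
  have h5 : ∏ x : X N,
      (𝕢 (cuspWidth ((cuspSigmaEquiv N).symm x).1 : ℝ) z ^ (((cuspSigmaEquiv N).symm x).2 : ℕ)) =
      ∏ r : CuspIdx N, 𝕢 (cuspWidth r.1 : ℝ) z ^ (r.2 : ℕ) :=
    Equiv.prod_comp (cuspSigmaEquiv N).symm (fun r : CuspIdx N => 𝕢 (cuspWidth r.1 : ℝ) z ^ (r.2 : ℕ))
  rw [h4, h5, h1, ← pow_mul, ← mu_eq_card] at h2
  rw [h2, cuspDftConst]
  ring

end CuspQ

open CuspQ in
/-- **(Q)** -/
theorem hasCuspQ (N : ℕ) [NeZero N] : HasCuspQ N := by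
  intro k n F hF
  refine ⟨cuspDftConst N ^ 2, ?_⟩
  have hdetP : IsPuiseux 1 (compMat k n F).det := isPuiseux_det _ (isPuiseux_compMat hF)
  have hfun : (dpow (2 * (n * mu N)) * fun z => detFun k F z ^ 2) =
      (cuspDftConst N ^ 2) • (qFun ^ (mu N - nuInf N) * (compMat k n F).det ^ 2) := by
    funext z
    have hp := pointwise hF z
    have hq := Fermat.Agent.S20_helper11.prod_qParam_cusps N (z : ℂ)
    rw [← mu_eq_dedekindPsi, ← nuInf_eq_cuspCount] at hq
    simp only [Pi.mul_apply, Pi.smul_apply, Pi.pow_apply, dpow_apply, smul_eq_mul, qFun]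
    have : ∀ r : CuspIdx N, 𝕢 (cuspWidth r.1 : ℝ) z ^ (2 * (r.2 : ℕ)) =
        (𝕢 (cuspWidth r.1 : ℝ) z ^ (r.2 : ℕ)) ^ 2 := fun r => by rw [← pow_mul, mul_comm]
    rw [← hq, Finset.prod_congr rfl (fun r _ => this r), Finset.prod_pow]
    calc Δ z ^ (2 * (n * mu N)) * detFun k F z ^ 2
        = (Δ z ^ (n * mu N) * detFun k F z) ^ 2 := by ring
      _ = _ := by
        rw [hp]
        ring
  rw [hfun, qExpansion_smul ((isPuiseux_qFun.pow _).mul (hdetP.pow 2)).analyticAt_one,
    qExpansion_mul (isPuiseux_qFun.pow _).analyticAt_one (hdetP.pow 2).analyticAt_one,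
    qExpansion_pow' isPuiseux_qFun, qExpansion_qFun, qExpansion_pow' hdetP,
    qExpansion_det_compMat hF]

end Fermat.Agent.S20
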