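import Mathlib

/-!
# Level-one weakly holomorphic modular forms (T20 piece A4, helper41)

Mathlib only.  `Δ := ModularForm.discriminant`, `ordAt f τ := analyticOrderAt (f ∘ ofComplex) τ`.

* `mkLevelOne` : `MDiff` + `SL(2,ℤ)`-slash-invariant + bounded at `i∞` ⇒ `ModularForm 𝒮ℒ k`.
* `IsL1WH w f` : level-one weakly holomorphic form of weight `w`.
* `twelve_mul_le_weight` (A4a) : `Δ^(-m) f` bounded at `i∞`, `f ≠ 0` ⇒ `12 m ≤ w`.
* `exists_factor_discriminant`, `IsL1WH.exists_factor` : `f = Δ^a F₁`, `F₁` a level-one form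
  with nonzero constant term.
* `exists_quotient` : holomorphic functions on `ℍ` with equal orders differ by a nowhere
  vanishing holomorphic factor.
* `IsL1WH.eq_const_mul_zpow_mul` (A4b0, divisor theorem) and `IsL1WH.shape` (A4b).
* `ordAt_smul` : the order of a slash-invariant function is constant on `SL(2,ℤ)`-orbits.
-/

open UpperHalfPlane ModularForm SlashInvariantForm MatrixGroups OnePoint Filter Asymptotics
  ModularFormClass SlashInvariantFormClass EisensteinSeries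
open scoped Topology Manifold ModularForm

namespace Fermat.Agent.S20.LevelOneWH

local notation "Δ" => ModularForm.discriminant

noncomputable def mkLevelOne (k : ℤ) (f : ℍ → ℂ) (hf : MDiff f)
    (hinv : ∀ γ : SL(2, ℤ), f ∣[k] γ = f) (hb : IsBoundedAtImInfty f) : ModularForm 𝒮ℒ k where
  toFun := f
  slash_action_eq' := by
    rintro _ ⟨γ, rfl⟩
    exact hinv γ
  holo' := hf
  bdd_at_cusps' {c} hc := by
    rw [Subgroup.IsArithmetic.isCusp_iff_isCusp_SL2Z] at hc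
    rw [OnePoint.isBoundedAt_iff_forall_SL2Z hc]
    intro γ _
    rw [hinv γ]
    exact hb

@[simp] theorem mkLevelOne_apply (k : ℤ) (f : ℍ → ℂ) (hf : MDiff f)
    (hinv : ∀ γ : SL(2, ℤ), f ∣[k] γ = f) (hb : IsBoundedAtImInfty f) (z : ℍ) :
    mkLevelOne k f hf hinv hb z = f z := rfl

/-- pointwise form of slash invariance -/
theorem slash_eq_iff_smul {k : ℤ} {f : ℍ → ℂ} (γ : SL(2, ℤ)) :
    f ∣[k] γ = f ↔ ∀ z : ℍ, f (γ • z) = denom γ z ^ k * f z := by
  constructor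
  · intro h z
    have := congrFun h z
    rw [SL_slash_apply, zpow_neg] at this
    have hd : denom γ z ^ k ≠ 0 := zpow_ne_zero _ (denom_ne_zero γ z)
    rw [mul_comm, ← (mul_inv_eq_iff_eq_mul₀ hd).mp this]
  · intro h
    ext z
    rw [SL_slash_apply, h z, zpow_neg]
    have hd : denom γ z ^ k ≠ 0 := zpow_ne_zero _ (denom_ne_zero γ z)
    field_simp

theorem modularForm_smul {k : ℤ} (F : ModularForm 𝒮ℒ k) (γ : SL(2, ℤ)) (z : ℍ) :
    F (γ • z) = denom γ z ^ k * F z := by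
  have hγ : (γ : GL (Fin 2) ℝ) ∈ 𝒮ℒ := ⟨γ, rfl⟩
  exact SlashInvariantForm.slash_action_eqn'' F hγ z

theorem discriminant_smul (γ : SL(2, ℤ)) (z : ℍ) :
    Δ (γ • z) = denom γ z ^ (12 : ℤ) * Δ z := by
  have hγ : (γ : GL (Fin 2) ℝ) ∈ 𝒮ℒ := ⟨γ, rfl⟩
  have := SlashInvariantForm.slash_action_eqn'' CuspForm.discriminant hγ z
  simpa [CuspForm.coe_discriminant] using this

theorem modularForm_slash {k : ℤ} (F : ModularForm 𝒮ℒ k) (γ : SL(2, ℤ)) :
    (F : ℍ → ℂ) ∣[k] γ = F :=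
  (slash_eq_iff_smul γ).mpr (modularForm_smul F γ)

/-- a level-one modular form tends to its constant term at `i∞` -/
theorem tendsto_coeff_zero {k : ℤ} (F : ModularForm 𝒮ℒ k) :
    Tendsto F atImInfty (𝓝 ((qExpansion 1 F).coeff 0)) := by
  have hanal := ModularFormClass.analyticAt_cuspFunction_zero F one_pos one_mem_strictPeriods_SL
  have hper := periodic_comp_ofComplex F one_mem_strictPeriods_SL
  rw [qExpansion_coeff_zero one_pos hanal hper, ← cuspFunction_apply_zero one_pos hanal hper]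
  exact (hanal.continuousAt.tendsto.comp (qParam_tendsto_atImInfty one_pos)).congr
    (fun τ ↦ SlashInvariantFormClass.eq_cuspFunction F τ one_mem_strictPeriods_SL one_ne_zero)

/-- a level-one form with nonzero constant term is bounded below near `i∞` -/
theorem eventually_le_norm {k : ℤ} (F : ModularForm 𝒮ℒ k) (h0 : (qExpansion 1 F).coeff 0 ≠ 0) :
    ∃ c : ℝ, 0 < c ∧ ∀ᶠ τ in atImInfty, c ≤ ‖F τ‖ := by
  refine ⟨‖(qExpansion 1 F).coeff 0‖ / 2, by positivity, ?_⟩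
  have h1 : Tendsto (fun τ => ‖F τ‖) atImInfty (𝓝 ‖(qExpansion 1 F).coeff 0‖) :=
    (tendsto_coeff_zero F).norm
  have h2 : ‖(qExpansion 1 F).coeff 0‖ / 2 < ‖(qExpansion 1 F).coeff 0‖ := by
    have : 0 < ‖(qExpansion 1 F).coeff 0‖ := norm_pos_iff.mpr h0
    linarith
  filter_upwards [h1.eventually (lt_mem_nhds h2)] with τ hτ
  exact hτ.le

/-- factor out the maximal power of `Δ` from a nonzero level-one form -/
theorem exists_factor_discriminant :
    ∀ (n : ℕ) {k : ℤ} (F : ModularForm 𝒮ℒ k), k.toNat = n → F ≠ 0 →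
    ∃ (r : ℕ) (k₁ : ℤ) (F₁ : ModularForm 𝒮ℒ k₁), k = k₁ + 12 * r ∧
      (∀ τ, F τ = Δ τ ^ r * F₁ τ) ∧ (qExpansion 1 F₁).coeff 0 ≠ 0 := by
  intro n
  induction n using Nat.strong_induction_on with
  | _ n IH =>
    intro k F hk hF
    by_cases h0 : (qExpansion 1 F).coeff 0 = 0
    · set G : ModularForm 𝒮ℒ (k - 12) := CuspForm.discriminantEquiv (toCuspForm F h0) with hG
      have hFG : ∀ τ, F τ = Δ τ * G τ := fun τ => by
        rw [hG, discriminant_mul_discriminantEquiv_apply, toCuspForm_apply]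
      have hG0 : G ≠ 0 := by
        intro h
        apply hF
        ext τ
        rw [hFG τ, h]
        simp
      have hk12 : 12 ≤ k := by
        by_contra hlt
        push Not at hlt
        have hneg : k - 12 < 0 := by linarith
        have := levelOne_neg_weight_eq_zero hneg G
        apply hG0
        ext τ
        rw [this]
        rfl
      obtain ⟨r, k₁, G₁, hk₁, hGG, hc⟩ := IH (k - 12).toNat (by omega) G rfl hG0
      refine ⟨r + 1, k₁, G₁, by push_cast; linarith, fun τ => ?_, hc⟩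
      rw [hFG τ, hGG τ, pow_succ]
      ring
    · exact ⟨0, k, F, by simp, fun τ => by simp, h0⟩

/-- order of vanishing of `f : ℍ → ℂ` at `τ` -/
noncomputable def ordAt (f : ℍ → ℂ) (τ : ℍ) : ℕ∞ := analyticOrderAt (f ∘ ofComplex) (τ : ℂ)

theorem isOpen_upperHalfPlaneSet' : IsOpen {z : ℂ | 0 < z.im} :=
  isOpen_lt continuous_const Complex.continuous_im

theorem analyticOnNhd_comp_ofComplex {f : ℍ → ℂ} (hf : MDiff f) :
    AnalyticOnNhd ℂ (f ∘ ofComplex) {z : ℂ | 0 < z.im} :=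
  (UpperHalfPlane.mdifferentiable_iff.mp hf).analyticOnNhd isOpen_upperHalfPlaneSet'

theorem analyticAt_comp_ofComplex {f : ℍ → ℂ} (hf : MDiff f) (τ : ℍ) :
    AnalyticAt ℂ (f ∘ ofComplex) (τ : ℂ) :=
  analyticOnNhd_comp_ofComplex hf _ τ.im_pos

theorem isPreconnected_upperHalfPlaneSet : IsPreconnected {z : ℂ | 0 < z.im} :=
  (convex_halfSpace_im_gt 0).isPreconnected

theorem comp_ofComplex_coe (f : ℍ → ℂ) (τ : ℍ) : (f ∘ ofComplex) (τ : ℂ) = f τ := by
  simp [Function.comp, ofComplex_apply]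

/-- a nonzero holomorphic function on `ℍ` has finite order everywhere -/
theorem ordAt_ne_top {f : ℍ → ℂ} (hf : MDiff f) (hf0 : f ≠ 0) (τ : ℍ) : ordAt f τ ≠ ⊤ := by
  obtain ⟨τ₀, hτ₀⟩ : ∃ τ₀, f τ₀ ≠ 0 := by
    by_contra h
    push Not at h
    exact hf0 (funext h)
  have h0 : analyticOrderAt (f ∘ ofComplex) (τ₀ : ℂ) ≠ ⊤ := by
    have : analyticOrderAt (f ∘ ofComplex) (τ₀ : ℂ) = 0 := by
      rw [(analyticAt_comp_ofComplex hf τ₀).analyticOrderAt_eq_zero, comp_ofComplex_coe]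
      exact hτ₀
    rw [this]; simp
  exact (analyticOnNhd_comp_ofComplex hf).analyticOrderAt_ne_top_of_isPreconnected
    isPreconnected_upperHalfPlaneSet τ₀.im_pos τ.im_pos h0

/-- two holomorphic functions on `ℍ` with the same (finite) orders everywhere differ by a
nowhere vanishing holomorphic factor -/
theorem exists_quotient {F H : ℍ → ℂ} (hF : MDiff F) (hH : MDiff H) (hH0 : H ≠ 0)
    (hord : ∀ τ : ℍ, ordAt F τ = ordAt H τ) :
    ∃ R : ℍ → ℂ, MDiff R ∧ (∀ τ, R τ ≠ 0) ∧ ∀ τ, F τ = R τ * H τ := by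
  set U : Set ℂ := {z : ℂ | 0 < z.im} with hU
  set f' : ℂ → ℂ := F ∘ ofComplex with hf'
  set h' : ℂ → ℂ := H ∘ ofComplex with hh'
  have hfU : AnalyticOnNhd ℂ f' U := analyticOnNhd_comp_ofComplex hF
  have hhU : AnalyticOnNhd ℂ h' U := analyticOnNhd_comp_ofComplex hH
  set r : ℂ → ℂ := f' / h' with hr
  have hrU : MeromorphicOn r U := fun z hz => (hfU z hz).meromorphicAt.div (hhU z hz).meromorphicAt
  set R' : ℂ → ℂ := toMeromorphicNFOn r U with hR'
  have hNF : MeromorphicNFOn R' U := meromorphicNFOn_toMeromorphicNFOn r U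
  -- order zero everywhere
  have hord0 : ∀ z ∈ U, meromorphicOrderAt R' z = 0 := by
    intro z hz
    have h1 : meromorphicOrderAt R' z = meromorphicOrderAt r z :=
      meromorphicOrderAt_congr (hrU.toMeromorphicNFOn_eq_self_on_nhdsNE hz)
    rw [h1, hr, meromorphicOrderAt_div (hfU z hz).meromorphicAt (hhU z hz).meromorphicAt,
      (hfU z hz).meromorphicOrderAt_eq, (hhU z hz).meromorphicOrderAt_eq]
    have e := hord ⟨z, hz⟩
    simp only [ordAt] at e
    have hne : analyticOrderAt h' z ≠ ⊤ := by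
      have := ordAt_ne_top hH hH0 ⟨z, hz⟩
      simpa [ordAt] using this
    obtain ⟨n, hn⟩ := ENat.ne_top_iff_exists.mp hne
    have e' : analyticOrderAt f' z = n := by rw [e, ← hn]
    rw [e', ← hn]
    simp
  have hRne : ∀ z ∈ U, R' z ≠ 0 := fun z hz =>
    ((hNF hz).meromorphicOrderAt_eq_zero_iff).mp (hord0 z hz)
  have hRan : ∀ z ∈ U, AnalyticAt ℂ R' z := fun z hz =>
    ((hNF hz).meromorphicOrderAt_nonneg_iff_analyticAt).mp (by rw [hord0 z hz])
  -- the identity f' = R' * h' on U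
  have hmul : ∀ z ∈ U, f' z = R' z * h' z := by
    intro z hz
    have hne : analyticOrderAt h' z ≠ ⊤ := by
      have := ordAt_ne_top hH hH0 ⟨z, hz⟩
      simpa [ordAt] using this
    have hh0 : ∀ᶠ w in 𝓝[≠] z, h' w ≠ 0 := by
      rcases (hhU z hz).eventually_eq_zero_or_eventually_ne_zero with h | h
      · exact absurd (analyticOrderAt_eq_top.mpr h) hne
      · exact h
    have hev : ∀ᶠ w in 𝓝[≠] z, f' w = R' w * h' w := by
      filter_upwards [hh0, hrU.toMeromorphicNFOn_eq_self_on_nhdsNE hz] with w hw1 hw2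
      rw [← hR'] at hw2
      rw [hw2, hr, Pi.div_apply, div_mul_cancel₀ _ hw1]
    have hc1 : ContinuousAt f' z := (hfU z hz).continuousAt
    have hc2 : ContinuousAt (fun w => R' w * h' w) z :=
      ((hRan z hz).continuousAt).mul (hhU z hz).continuousAt
    have := (hc1.eventuallyEq_nhds_iff_eventuallyEq_nhdsNE hc2).mp hev
    exact this.eq_of_nhds
  refine ⟨fun τ => R' (τ : ℂ), ?_, fun τ => hRne _ τ.im_pos, fun τ => ?_⟩
  · rw [UpperHalfPlane.mdifferentiable_iff]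
    intro z hz
    have heq : ((fun τ : ℍ => R' (τ : ℂ)) ∘ ofComplex) =ᶠ[𝓝 z] R' := by
      filter_upwards [isOpen_upperHalfPlaneSet'.mem_nhds hz] with w hw
      simp [Function.comp, ofComplex_apply_of_im_pos hw]
    exact ((hRan z hz).differentiableAt.congr_of_eventuallyEq heq).differentiableWithinAt
  · have := hmul (τ : ℂ) τ.im_pos
    simpa [hf', hh', comp_ofComplex_coe] using this

/-- a nowhere vanishing level-one form which is bounded below near `i∞` is a nonzero constant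
of weight `0` -/
theorem eq_const_of_ne_zero {k : ℤ} (F : ModularForm 𝒮ℒ k) (hz : ∀ τ, F τ ≠ 0)
    (hlow : ∃ c : ℝ, 0 < c ∧ ∀ᶠ τ in atImInfty, c ≤ ‖F τ‖) :
    k = 0 ∧ ∃ C : ℂ, C ≠ 0 ∧ ∀ τ, F τ = C := by
  have hmd : MDiff (fun τ => (F τ)⁻¹) := by
    have h1 : MDiff (F : ℍ → ℂ) := F.holo'
    have h2 : MDiff (fun τ : ℍ => (1 : ℂ) / F τ) :=
      (mdifferentiable_const (c := (1 : ℂ))).div h1 hz
    simpa [one_div] using h2
  have hinv : ∀ γ : SL(2, ℤ), (fun τ => (F τ)⁻¹) ∣[-k] γ = fun τ => (F τ)⁻¹ := by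
    intro γ
    rw [slash_eq_iff_smul]
    intro z
    rw [modularForm_smul F γ z, mul_inv, zpow_neg]
  have hb : IsBoundedAtImInfty (fun τ => (F τ)⁻¹) := by
    obtain ⟨c, hc, hev⟩ := hlow
    rw [IsBoundedAtImInfty, BoundedAtFilter, isBigO_iff]
    refine ⟨c⁻¹, ?_⟩
    filter_upwards [hev] with τ hτ
    simp only [norm_inv, Pi.one_apply, norm_one, mul_one]
    exact inv_anti₀ hc hτ
  set G := mkLevelOne (-k) _ hmd hinv hb with hG
  have hG0 : (G : ℍ → ℂ) ≠ 0 := by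
    intro h
    have := congrFun h I
    simp [hG, hz I] at this
  have hk1 : ¬ k < 0 := by
    intro hk
    have := levelOne_neg_weight_eq_zero hk F
    exact hz I (by rw [this]; rfl)
  have hk2 : ¬ 0 < k := by
    intro hk
    have hneg : -k < 0 := by linarith
    exact hG0 (levelOne_neg_weight_eq_zero hneg G)
  have hk0 : k = 0 := by omega
  subst hk0
  obtain ⟨C, hC⟩ := levelOne_weight_zero_const F
  refine ⟨rfl, C, ?_, fun τ => by rw [hC]; rfl⟩
  rintro rfl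
  exact hz I (by rw [hC]; rfl)

/-- two level-one forms, nonzero at `i∞`, with the same orders of vanishing on `ℍ`
have the same weight and are proportional -/
theorem eq_const_mul_of_ordAt_eq {k₁ k₂ : ℤ} (F : ModularForm 𝒮ℒ k₁) (H : ModularForm 𝒮ℒ k₂)
    (hF0 : (qExpansion 1 F).coeff 0 ≠ 0) (hH0 : (qExpansion 1 H).coeff 0 ≠ 0)
    (hord : ∀ τ : ℍ, ordAt F τ = ordAt H τ) :
    k₁ = k₂ ∧ ∃ C : ℂ, C ≠ 0 ∧ ∀ τ, F τ = C * H τ := by
  obtain ⟨cF, hcF, hevF⟩ := eventually_le_norm F hF0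
  obtain ⟨cH, hcH, hevH⟩ := eventually_le_norm H hH0
  have hHne : (H : ℍ → ℂ) ≠ 0 := by
    intro h
    obtain ⟨τ, hτ⟩ := hevH.exists
    rw [h] at hτ
    simp at hτ
    linarith
  have hFmd : MDiff (F : ℍ → ℂ) := F.holo'
  have hHmd : MDiff (H : ℍ → ℂ) := H.holo'
  obtain ⟨R, hRmd, hRne, hFRH⟩ := exists_quotient (F := (F : ℍ → ℂ)) (H := (H : ℍ → ℂ))
    hFmd hHmd hHne hord
  -- invariance of `R`
  have hinv : ∀ γ : SL(2, ℤ), R ∣[k₁ - k₂] γ = R := by
    intro γ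
    rw [slash_eq_iff_smul]
    have hdet : 0 < ((γ : GL (Fin 2) ℝ)).det.val := by simp
    set D : ℍ → ℂ := fun z => R (γ • z) - denom γ z ^ (k₁ - k₂) * R z with hD
    have hDmd : MDiff D := by
      have h1 : MDiff (fun z : ℍ => R (γ • z)) :=
        hRmd.comp (mdifferentiable_smul hdet)
      have h2 : MDiff (fun z : ℍ => denom γ z ^ (k₁ - k₂)) :=
        mdifferentiable_denom_zpow (γ : GL (Fin 2) ℝ) (k₁ - k₂)
      exact h1.sub (h2.mul hRmd)
    have hDH : D * (H : ℍ → ℂ) = 0 := by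
      ext z
      simp only [Pi.mul_apply, Pi.zero_apply, hD]
      have e1 := hFRH (γ • z)
      rw [modularForm_smul F γ z, modularForm_smul H γ z, hFRH z] at e1
      have hd : denom γ z ≠ 0 := denom_ne_zero γ z
      rw [zpow_sub₀ hd]
      have hd2 : denom γ z ^ k₂ ≠ 0 := zpow_ne_zero _ hd
      field_simp
      linear_combination -e1
    rcases (UpperHalfPlane.mul_eq_zero_iff hDmd hHmd).mp hDH with h | h
    · intro z
      have := congrFun h z
      simp only [hD, Pi.zero_apply] at this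
      exact sub_eq_zero.mp this
    · exact absurd h hHne
  -- boundedness
  obtain ⟨MF, hMF⟩ := (isBigO_iff.mp (ModularFormClass.bdd_at_infty F))
  obtain ⟨MH, hMH⟩ := (isBigO_iff.mp (ModularFormClass.bdd_at_infty H))
  have hRb : IsBoundedAtImInfty R := by
    rw [IsBoundedAtImInfty, BoundedAtFilter, isBigO_iff]
    refine ⟨MF / cH, ?_⟩
    filter_upwards [hMF, hevH] with τ h1 h2
    simp only [Pi.one_apply, norm_one, mul_one] at h1 ⊢
    have hHτ : H τ ≠ 0 := by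
      intro h
      rw [h, norm_zero] at h2
      linarith
    have : R τ = F τ / H τ := by rw [hFRH τ, mul_div_cancel_right₀ _ hHτ]
    rw [this, norm_div]
    have hpos : 0 < ‖H τ‖ := norm_pos_iff.mpr hHτ
    calc ‖F τ‖ / ‖H τ‖ ≤ MF / ‖H τ‖ := by gcongr
      _ ≤ MF / cH := by
        have hMF0 : 0 ≤ MF := le_trans (norm_nonneg _) h1
        gcongr
  have hRlow : ∃ c : ℝ, 0 < c ∧ ∀ᶠ τ in atImInfty, c ≤ ‖R τ‖ := by
    have hMH0 : 0 < max MH 1 := lt_max_of_lt_right one_pos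
    refine ⟨cF / max MH 1, by positivity, ?_⟩
    filter_upwards [hMH, hevH, hevF] with τ h1 h2 h3
    simp only [Pi.one_apply, norm_one, mul_one] at h1
    have hHτ : H τ ≠ 0 := by
      intro h
      rw [h, norm_zero] at h2
      linarith
    have : R τ = F τ / H τ := by rw [hFRH τ, mul_div_cancel_right₀ _ hHτ]
    rw [this, norm_div]
    have hpos : 0 < ‖H τ‖ := norm_pos_iff.mpr hHτ
    have hle : ‖H τ‖ ≤ max MH 1 := le_trans h1 (le_max_left _ _)
    calc cF / max MH 1 ≤ ‖F τ‖ / max MH 1 := by gcongr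
      _ ≤ ‖F τ‖ / ‖H τ‖ := by gcongr
  set G := mkLevelOne (k₁ - k₂) R hRmd hinv hRb with hG
  obtain ⟨hk, C, hC, hGC⟩ := eq_const_of_ne_zero G (fun τ => hRne τ) hRlow
  refine ⟨by omega, C, hC, fun τ => ?_⟩
  rw [hFRH τ, ← hGC τ]
  rfl

/-! ### Weakly holomorphic level-one forms -/

theorem mdiff_discriminant : MDiff (Δ : ℍ → ℂ) := CuspForm.discriminant.holo'

theorem mdiff_discriminant_zpow (n : ℤ) : MDiff (fun z : ℍ => Δ z ^ n) := by
  obtain ⟨k, rfl | rfl⟩ := n.eq_nat_or_neg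
  · simp only [zpow_natCast]
    exact mdiff_discriminant.pow k
  · have h1 : MDiff (fun z : ℍ => Δ z ^ k) := mdiff_discriminant.pow k
    have h2 : MDiff (fun z : ℍ => (1 : ℂ) / Δ z ^ k) :=
      (mdifferentiable_const (c := (1 : ℂ))).div h1 (fun z => pow_ne_zero k (discriminant_ne_zero z))
    simpa [zpow_neg, one_div] using h2

/-- `f` is a level-one weakly holomorphic modular form of weight `w`: holomorphic on `ℍ`,
slash-invariant under `SL(2, ℤ)`, meromorphic at `i∞`. -/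
structure IsL1WH (w : ℤ) (f : ℍ → ℂ) : Prop where
  mdiff : MDiff f
  slash : ∀ γ : SL(2, ℤ), f ∣[w] γ = f
  mero : ∃ m : ℤ, IsBoundedAtImInfty (fun z => Δ z ^ (-m) * f z)

theorem twist_mdiff {f : ℍ → ℂ} (hf : MDiff f) (m : ℤ) :
    MDiff (fun z => Δ z ^ (-m) * f z) :=
  (mdiff_discriminant_zpow (-m)).mul hf

theorem twist_slash {w : ℤ} {f : ℍ → ℂ} (hinv : ∀ γ : SL(2, ℤ), f ∣[w] γ = f) (m : ℤ)
    (γ : SL(2, ℤ)) :
    (fun z => Δ z ^ (-m) * f z) ∣[w - 12 * m] γ = fun z => Δ z ^ (-m) * f z := by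
  rw [slash_eq_iff_smul]
  intro z
  have h1 := (slash_eq_iff_smul γ).mp (hinv γ) z
  have hd : denom γ z ≠ 0 := denom_ne_zero γ z
  rw [h1, discriminant_smul, mul_zpow, ← zpow_mul, zpow_sub₀ hd, mul_neg, zpow_neg]
  have h12 : denom γ z ^ ((12:ℤ) * m) ≠ 0 := zpow_ne_zero _ hd
  field_simp

/-- (A4a) the order of pole at `i∞` of a nonzero level-one weakly holomorphic form is bounded by
the weight -/
theorem twelve_mul_le_weight {w m : ℤ} {f : ℍ → ℂ} (hf : MDiff f)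
    (hinv : ∀ γ : SL(2, ℤ), f ∣[w] γ = f) (hne : f ≠ 0)
    (hb : IsBoundedAtImInfty (fun z => Δ z ^ (-m) * f z)) : 12 * m ≤ w := by
  by_contra hlt
  push Not at hlt
  set F := mkLevelOne (w - 12 * m) _ (twist_mdiff hf m) (twist_slash hinv m) hb with hF
  have hneg : w - 12 * m < 0 := by linarith
  have h0 := levelOne_neg_weight_eq_zero hneg F
  apply hne
  ext z
  have := congrFun h0 z
  simp only [hF, mkLevelOne_apply, Pi.zero_apply] at this
  rcases mul_eq_zero.mp this with h | h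
  · exact absurd h (zpow_ne_zero _ (discriminant_ne_zero z))
  · exact h

/-- structure of nonzero weakly holomorphic level-one forms -/
theorem IsL1WH.exists_factor {w : ℤ} {f : ℍ → ℂ} (hf : IsL1WH w f) (hne : f ≠ 0) :
    ∃ (a k₁ : ℤ) (F₁ : ModularForm 𝒮ℒ k₁), w = k₁ + 12 * a ∧
      (∀ τ, f τ = Δ τ ^ a * F₁ τ) ∧ (qExpansion 1 F₁).coeff 0 ≠ 0 := by
  obtain ⟨m, hb⟩ := hf.mero
  set F := mkLevelOne (w - 12 * m) _ (twist_mdiff hf.mdiff m) (twist_slash hf.slash m) hb with hF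
  have hF0 : F ≠ 0 := by
    intro h
    apply hne
    ext z
    have := congrArg (fun G : ModularForm 𝒮ℒ (w - 12 * m) => G z) h
    simp only [hF, mkLevelOne_apply, zero_apply] at this
    rcases mul_eq_zero.mp this with h | h
    · exact absurd h (zpow_ne_zero _ (discriminant_ne_zero z))
    · exact h
  obtain ⟨r, k₁, F₁, hk, hFF, hc⟩ := exists_factor_discriminant _ F rfl hF0
  refine ⟨m + r, k₁, F₁, by linarith, fun τ => ?_, hc⟩
  have h1 := hFF τ
  simp only [hF, mkLevelOne_apply] at h1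
  have hΔ : Δ τ ≠ 0 := discriminant_ne_zero τ
  rw [zpow_add₀ hΔ, zpow_natCast, mul_assoc, ← h1, ← mul_assoc, ← zpow_add₀ hΔ]
  simp

theorem ordAt_congr {f g : ℍ → ℂ} (h : ∀ τ, f τ = g τ) (τ : ℍ) : ordAt f τ = ordAt g τ := by
  rw [show f = g from funext h]

theorem ordAt_zpow_mul (a : ℤ) {F : ℍ → ℂ} (hF : MDiff F) (τ : ℍ) :
    ordAt (fun z => Δ z ^ a * F z) τ = ordAt F τ := by
  have h1 : AnalyticAt ℂ ((fun z : ℍ => Δ z ^ a) ∘ ofComplex) (τ : ℂ) :=
    analyticAt_comp_ofComplex (mdiff_discriminant_zpow a) τ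
  have h2 : AnalyticAt ℂ (F ∘ ofComplex) (τ : ℂ) := analyticAt_comp_ofComplex hF τ
  have h3 : analyticOrderAt ((fun z : ℍ => Δ z ^ a) ∘ ofComplex) (τ : ℂ) = 0 := by
    rw [h1.analyticOrderAt_eq_zero, comp_ofComplex_coe]
    exact zpow_ne_zero _ (discriminant_ne_zero τ)
  have : ((fun z : ℍ => Δ z ^ a * F z) ∘ ofComplex)
      = ((fun z : ℍ => Δ z ^ a) ∘ ofComplex) * (F ∘ ofComplex) := rfl
  rw [ordAt, this, analyticOrderAt_mul h1 h2, h3, zero_add]
  rfl

/-- (A4b0) **divisor theorem**: two nonzero level-one weakly holomorphic forms with the same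
orders of vanishing on `ℍ` differ by a constant times a power of `Δ`. -/
theorem IsL1WH.eq_const_mul_zpow_mul {w w' : ℤ} {f h : ℍ → ℂ} (hf : IsL1WH w f)
    (hh : IsL1WH w' h) (hf0 : f ≠ 0) (hh0 : h ≠ 0) (hord : ∀ τ : ℍ, ordAt f τ = ordAt h τ) :
    ∃ (m : ℤ) (C : ℂ), C ≠ 0 ∧ w = w' + 12 * m ∧ ∀ z, f z = C * Δ z ^ m * h z := by
  obtain ⟨a, k₁, F₁, hw, hfF, hF0⟩ := hf.exists_factor hf0
  obtain ⟨b, k₂, H₁, hw', hhH, hH0⟩ := hh.exists_factor hh0
  have hord' : ∀ τ : ℍ, ordAt F₁ τ = ordAt H₁ τ := by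
    intro τ
    have hFmd : MDiff (F₁ : ℍ → ℂ) := F₁.holo'
    have hHmd : MDiff (H₁ : ℍ → ℂ) := H₁.holo'
    rw [← ordAt_zpow_mul a hFmd τ, ← ordAt_zpow_mul b hHmd τ, ← ordAt_congr hfF τ,
      ← ordAt_congr hhH τ]
    exact hord τ
  obtain ⟨hk, C, hC, hFH⟩ := eq_const_mul_of_ordAt_eq F₁ H₁ hF0 hH0 hord'
  refine ⟨a - b, C, hC, by rw [hw, hw', hk]; ring, fun z => ?_⟩
  have hΔ : Δ z ≠ 0 := discriminant_ne_zero z
  rw [hfF z, hhH z, hFH z, zpow_sub₀ hΔ]
  have : Δ z ^ b ≠ 0 := zpow_ne_zero _ hΔ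
  field_simp

/-- the order of vanishing of a slash-invariant holomorphic function is constant on orbits -/
theorem ordAt_smul {w : ℤ} {f : ℍ → ℂ} (hf : MDiff f) (hinv : ∀ γ : SL(2, ℤ), f ∣[w] γ = f)
    (γ : SL(2, ℤ)) (τ : ℍ) : ordAt f (γ • τ) = ordAt f τ := by
  have hg : 0 < ((γ : GL (Fin 2) ℝ)).val.det := by
    rw [← Matrix.GeneralLinearGroup.val_det_apply]; simp
  have key := UpperHalfPlane.meromorphicOrderAt_comp_smul (f := f) (τ := τ) hg
  -- right hand side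
  have hR : meromorphicOrderAt (fun z => f (ofComplex z)) ↑((γ : GL (Fin 2) ℝ) • τ)
      = (ordAt f (γ • τ)).map (↑) := by
    have han : AnalyticAt ℂ (f ∘ ofComplex) ((γ • τ : ℍ) : ℂ) := analyticAt_comp_ofComplex hf _
    exact han.meromorphicOrderAt_eq
  -- left hand side
  have hdmd : MDiff (fun z : ℍ => denom γ z ^ w) :=
    mdifferentiable_denom_zpow (γ : GL (Fin 2) ℝ) w
  have hfun : (fun z : ℂ => f ((γ : GL (Fin 2) ℝ) • ofComplex z))
      = ((fun z : ℍ => denom γ z ^ w) ∘ ofComplex) * (f ∘ ofComplex) := by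
    ext z
    have := (slash_eq_iff_smul γ).mp (hinv γ) (ofComplex z)
    simp only [Function.comp, Pi.mul_apply]
    rw [← this]
    rfl
  have h1 : AnalyticAt ℂ ((fun z : ℍ => denom γ z ^ w) ∘ ofComplex) (τ : ℂ) :=
    analyticAt_comp_ofComplex hdmd τ
  have h2 : AnalyticAt ℂ (f ∘ ofComplex) (τ : ℂ) := analyticAt_comp_ofComplex hf τ
  have h3 : analyticOrderAt ((fun z : ℍ => denom γ z ^ w) ∘ ofComplex) (τ : ℂ) = 0 := by
    rw [h1.analyticOrderAt_eq_zero, comp_ofComplex_coe]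
    exact zpow_ne_zero _ (denom_ne_zero γ τ)
  have hL : meromorphicOrderAt (fun z => f ((γ : GL (Fin 2) ℝ) • ofComplex z)) τ
      = (ordAt f τ).map (↑) := by
    rw [hfun, (h1.mul h2).meromorphicOrderAt_eq, analyticOrderAt_mul h1 h2, h3, zero_add]
    rfl
  rw [hL, hR] at key
  exact (ENat.map_natCast_inj.mp key).symm

theorem ModularForm.isL1WH {k : ℤ} (F : ModularForm 𝒮ℒ k) : IsL1WH k F where
  mdiff := F.holo'
  slash := modularForm_slash F
  mero := ⟨0, by simpa using ModularFormClass.bdd_at_infty F⟩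

theorem ordAt_eq_zero {f : ℍ → ℂ} (hf : MDiff f) {τ : ℍ} (h : f τ ≠ 0) : ordAt f τ = 0 := by
  rw [ordAt, (analyticAt_comp_ofComplex hf τ).analyticOrderAt_eq_zero, comp_ofComplex_coe]
  exact h

theorem ordAt_mul {f g : ℍ → ℂ} (hf : MDiff f) (hg : MDiff g) (τ : ℍ) :
    ordAt (f * g) τ = ordAt f τ + ordAt g τ :=
  analyticOrderAt_mul (analyticAt_comp_ofComplex hf τ) (analyticAt_comp_ofComplex hg τ)

theorem ordAt_pow {f : ℍ → ℂ} (hf : MDiff f) (n : ℕ) (τ : ℍ) :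
    ordAt (f ^ n) τ = n • ordAt f τ :=
  analyticOrderAt_pow (analyticAt_comp_ofComplex hf τ) n

theorem pow_fun_ne_zero {f : ℍ → ℂ} (hf : MDiff f) (h : f ≠ 0) (n : ℕ) : f ^ n ≠ 0 := by
  induction n with
  | zero =>
    intro h0
    have := congrFun h0 I
    simp at this
  | succ n ih =>
    intro h0
    rw [pow_succ] at h0
    rcases (UpperHalfPlane.mul_eq_zero_iff (hf.pow n) hf).mp h0 with h1 | h1
    · exact ih h1
    · exact h h1

/-- (A4b) **shape theorem**: a level-one weakly holomorphic form whose zeros lie on the orbits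
of `ρ` (zeros of `E₄`) and `i` (zeros of `E₆`) is `C E₄^a E₆^b Δ^m`. -/
theorem IsL1WH.shape {w : ℤ} {f : ℍ → ℂ} (hf : IsL1WH w f) (hf0 : f ≠ 0) (ρ i : ℍ) (a b : ℕ)
    (h4orb : ∀ τ, E₄ τ = 0 → ∃ γ : SL(2, ℤ), τ = γ • ρ)
    (h4ord : ∀ τ, E₄ τ = 0 → ordAt E₄ τ = 1)
    (h6orb : ∀ τ, E₆ τ = 0 → ∃ γ : SL(2, ℤ), τ = γ • i)
    (h6ord : ∀ τ, E₆ τ = 0 → ordAt E₆ τ = 1)
    (hgen : ∀ τ, E₄ τ ≠ 0 → E₆ τ ≠ 0 → f τ ≠ 0)
    (hρ : ordAt f ρ = a) (hi : ordAt f i = b) :
    ∃ (m : ℤ) (C : ℂ), C ≠ 0 ∧ w = 4 * a + 6 * b + 12 * m ∧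
      ∀ z, f z = C * E₄ z ^ a * E₆ z ^ b * Δ z ^ m := by
  set P : ModularForm 𝒮ℒ ((a : ℤ) * 4 + (b : ℤ) * 6) := (E₄.pow a).mul (E₆.pow b) with hP
  have hPfun : (P : ℍ → ℂ) = (E₄ : ℍ → ℂ) ^ a * (E₆ : ℍ → ℂ) ^ b := by
    rw [hP, ModularForm.coe_mul, ModularForm.coe_pow, ModularForm.coe_pow]
  have h4md : MDiff (E₄ : ℍ → ℂ) := E₄.holo'
  have h6md : MDiff (E₆ : ℍ → ℂ) := E₆.holo'
  have hnot : ∀ τ, ¬ (E₄ τ = 0 ∧ E₆ τ = 0) := by
    rintro τ ⟨h4, h6⟩
    have := discriminant_eq_E₄_cube_sub_E₆_sq τ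
    rw [h4, h6] at this
    exact discriminant_ne_zero τ (by rw [this]; norm_num)
  have hPord : ∀ τ, ordAt P τ = a • ordAt E₄ τ + b • ordAt E₆ τ := by
    intro τ
    rw [hPfun, ordAt_mul (h4md.pow a) (h6md.pow b), ordAt_pow h4md, ordAt_pow h6md]
  have hE4 : (E₄ : ℍ → ℂ) ≠ 0 := fun h =>
    E_ne_zero (by norm_num : 3 ≤ 4) (by decide) (DFunLike.coe_injective h)
  have hE6 : (E₆ : ℍ → ℂ) ≠ 0 := fun h =>
    E_ne_zero (by norm_num : 3 ≤ 6) (by decide) (DFunLike.coe_injective h)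
  have hP0 : (P : ℍ → ℂ) ≠ 0 := by
    rw [hPfun]
    intro h
    rcases (UpperHalfPlane.mul_eq_zero_iff (h4md.pow a) (h6md.pow b)).mp h with h | h
    · exact pow_fun_ne_zero h4md hE4 a h
    · exact pow_fun_ne_zero h6md hE6 b h
  have hord : ∀ τ : ℍ, ordAt f τ = ordAt P τ := by
    intro τ
    rw [hPord]
    by_cases h4 : E₄ τ = 0
    · have h6 : E₆ τ ≠ 0 := fun h6 => hnot τ ⟨h4, h6⟩
      obtain ⟨γ, rfl⟩ := h4orb τ h4
      rw [ordAt_smul hf.mdiff hf.slash, hρ, h4ord _ h4, ordAt_eq_zero h6md h6]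
      simp
    · by_cases h6 : E₆ τ = 0
      · obtain ⟨γ, rfl⟩ := h6orb τ h6
        rw [ordAt_smul hf.mdiff hf.slash, hi, h6ord _ h6, ordAt_eq_zero h4md h4]
        simp
      · rw [ordAt_eq_zero hf.mdiff (hgen τ h4 h6), ordAt_eq_zero h4md h4, ordAt_eq_zero h6md h6]
        simp
  obtain ⟨m, C, hC, hw, hfC⟩ := hf.eq_const_mul_zpow_mul (ModularForm.isL1WH P) hf0 hP0 hord
  refine ⟨m, C, hC, by rw [hw]; ring, fun z => ?_⟩
  rw [hfC z, show (P : ℍ → ℂ) z = E₄ z ^ a * E₆ z ^ b by rw [hPfun]; rfl]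
  ring

end Fermat.Agent.S20.LevelOneWH
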