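import Fermat.Agent.S20.Defs
import Fermat.Agent.S20.LevelOneWH
import Fermat.Agent.LevelOne_helper63.ZeroSets
import Fermat.Agent.LevelOne_helper29.JOrders

/-!
# T20 / B5 : the shape of the squared determinant

For a tuple `F : X N → ℍ → ℂ` of weakly holomorphic forms of weight `k` on `Γ₀(N)`, the square of
the determinant `detFun k F` of the matrix of conjugates is a weakly holomorphic form of level one
and weight `2 k μ`.  If it does not vanish outside the orbits of `ρ` and `i`, and its orders at `ρ`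
and `i` are known, then the level one divisor theorem (`LevelOneWH.IsL1WH.shape`) gives

  `detFun k F ^ 2 = C · E₄ ^ α · E₆ ^ β · Δ ^ γ`,   `2 k μ = 4 α + 6 β + 12 γ`.

Main statements:

* `isL1WH_of_isWH` : `IsWH 1 w n f → LevelOneWH.IsL1WH w f`.
* `detFun_sq_shape_core` : orders given as `2 * ord_ρ detFun = α`, `2 * ord_i detFun = β`.
* `detFun_sq_shape` : orders given as `ord_ρ detFun = a`, `ord_i detFun = b` (`α = 2a`, `β = 2b`).
* `detFun_sq_shape_of_orbit` : same, with the non-vanishing hypothesis phrased through orbits.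
* `exists_maximal_shape_of_orders` : the target shape consumed by the final glue (`k = 2`).
-/

set_option autoImplicit false

open UpperHalfPlane ModularForm CongruenceSubgroup Matrix.SpecialLinearGroup Filter Topology
open scoped MatrixGroups ModularForm Manifold

namespace Fermat.Agent.S20

open Fermat.Agent.S23 (G0 IsMF IsCF)

local notation "Δ" => ModularForm.discriminant

namespace DetShape

/-- Every element of `SL(2, ℤ)` lies in `Γ₀(1)`. -/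
lemma mem_Gamma0_one (γ : SL(2, ℤ)) : γ ∈ Gamma0 1 := by
  rw [Gamma0_mem]
  exact Subsingleton.elim _ _

/-- A weakly holomorphic form of level one in the sense of `S20.IsWH` is one in the sense of
`LevelOneWH.IsL1WH`. -/
theorem isL1WH_of_isWH {w : ℤ} {n : ℕ} {f : ℍ → ℂ} (hf : IsWH 1 w n f) :
    LevelOneWH.IsL1WH w f := by
  refine ⟨hf.mdiff, fun γ => hf.slash_eq (mem_Gamma0_one γ), ⟨-(n : ℤ), ?_⟩⟩
  have h := hf.isBounded (1 : SL(2, ℤ))
  rw [SlashAction.slash_one] at h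
  have heq : (fun z : ℍ => Δ z ^ (-(-(n : ℤ))) * f z) = dpow n * f := by
    funext z
    simp [dpow_apply]
  rw [heq]
  exact h

/-- The order of the squared determinant is twice the order of the determinant. -/
lemma ordAt_detFun_sq {N : ℕ} [NeZero N] {k : ℤ} {F : X N → ℍ → ℂ} (hF : ∀ a, MDiff (F a))
    (τ : ℍ) :
    LevelOneWH.ordAt (fun z => detFun k F z ^ 2) τ =
      2 * analyticOrderAt (detFun k F ∘ ofComplex) (τ : ℂ) := by
  have h := LevelOneWH.ordAt_pow (mdiff_detFun (k := k) hF) 2 τ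
  have heq : (detFun k F) ^ 2 = fun z => detFun k F z ^ 2 := by
    funext z
    simp
  rw [heq] at h
  rw [h, nsmul_eq_mul]
  rfl

end DetShape

open DetShape

/-- **B5, core form.**  Shape of the squared determinant, the orders at `ρ` and `i` being given
in doubled form. -/
theorem detFun_sq_shape_core (N : ℕ) [NeZero N] {k : ℤ} {n : ℕ} {F : X N → ℍ → ℂ}
    (hF : ∀ a, IsWH N k n (F a))
    (hgen : ∀ τ : ℍ, E₄ τ ≠ 0 → E₆ τ ≠ 0 → detFun k F τ ≠ 0)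
    {α β : ℕ}
    (hρ : 2 * analyticOrderAt (detFun k F ∘ ofComplex) ((ρ : ℍ) : ℂ) = (α : ℕ∞))
    (hi : 2 * analyticOrderAt (detFun k F ∘ ofComplex) ((I : ℍ) : ℂ) = (β : ℕ∞)) :
    ∃ (C : ℂ) (γ : ℤ), C ≠ 0 ∧
      (∀ z, detFun k F z ^ 2 = C * E₄ z ^ α * E₆ z ^ β * Δ z ^ γ) ∧
      2 * k * (mu N : ℤ) = 4 * α + 6 * β + 12 * γ := by
  have hmd : ∀ a, MDiff (F a) := fun a => (hF a).mdiff
  have hL1 : LevelOneWH.IsL1WH (2 * k * (mu N : ℤ)) (fun z => detFun k F z ^ 2) :=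
    isL1WH_of_isWH (isWH_detFun_sq hF)
  have hordρ : LevelOneWH.ordAt (fun z => detFun k F z ^ 2) ρ = (α : ℕ∞) := by
    rw [ordAt_detFun_sq hmd, hρ]
  have hordi : LevelOneWH.ordAt (fun z => detFun k F z ^ 2) I = (β : ℕ∞) := by
    rw [ordAt_detFun_sq hmd, hi]
  have hne : (fun z => detFun k F z ^ 2) ≠ 0 := by
    intro h0
    have htop : LevelOneWH.ordAt (fun z => detFun k F z ^ 2) ρ = ⊤ := by
      rw [h0]
      unfold LevelOneWH.ordAt
      rw [analyticOrderAt_eq_top]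
      exact Filter.Eventually.of_forall fun _ => rfl
    rw [hordρ] at htop
    exact ENat.natCast_ne_top α htop
  obtain ⟨m, C, hC, hw, hshape⟩ := hL1.shape hne ρ I α β
    (fun τ h => (LevelOne_helper63.E₄_eq_zero_iff τ).mp h)
    (fun τ h => LevelOne_helper29.ordAt_E4 h)
    (fun τ h => (LevelOne_helper63.E₆_eq_zero_iff τ).mp h)
    (fun τ h => LevelOne_helper29.ordAt_E6 h)
    (fun τ h4 h6 => pow_ne_zero 2 (hgen τ h4 h6)) hordρ hordi
  exact ⟨C, m, hC, hshape, hw⟩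

/-- **B5.**  Shape of the squared determinant:
`detFun ^ 2 = C · E₄ ^ (2a) · E₆ ^ (2b) · Δ ^ γ` with `2 k μ = 8 a + 12 b + 12 γ`,
where `a = ord_ρ detFun`, `b = ord_i detFun`, provided `detFun` does not vanish outside the zeros
of `E₄` and `E₆`. -/
theorem detFun_sq_shape (N : ℕ) [NeZero N] {k : ℤ} {n : ℕ} {F : X N → ℍ → ℂ}
    (hF : ∀ a, IsWH N k n (F a))
    (hgen : ∀ τ : ℍ, E₄ τ ≠ 0 → E₆ τ ≠ 0 → detFun k F τ ≠ 0)
    {a b : ℕ}
    (hρ : analyticOrderAt (detFun k F ∘ ofComplex) ((ρ : ℍ) : ℂ) = (a : ℕ∞))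
    (hi : analyticOrderAt (detFun k F ∘ ofComplex) ((I : ℍ) : ℂ) = (b : ℕ∞)) :
    ∃ (C : ℂ) (γ : ℤ), C ≠ 0 ∧
      (∀ z, detFun k F z ^ 2 = C * E₄ z ^ (2 * a) * E₆ z ^ (2 * b) * Δ z ^ γ) ∧
      2 * k * (mu N : ℤ) = 8 * a + 12 * b + 12 * γ := by
  obtain ⟨C, γ, hC, hshape, hw⟩ := detFun_sq_shape_core N hF hgen (α := 2 * a) (β := 2 * b)
    (by rw [hρ]; push_cast; rfl) (by rw [hi]; push_cast; rfl)
  refine ⟨C, γ, hC, hshape, ?_⟩
  rw [hw]
  push_cast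
  ring

/-- **B5**, with the generic non-vanishing hypothesis phrased through the orbits of `ρ` and `i`:
it suffices that `detFun` does not vanish at points which are not `SL(2, ℤ)`-equivalent to `ρ`
or `i`. -/
theorem detFun_sq_shape_of_orbit (N : ℕ) [NeZero N] {k : ℤ} {n : ℕ} {F : X N → ℍ → ℂ}
    (hF : ∀ a, IsWH N k n (F a))
    (hgen : ∀ τ : ℍ, (∀ γ : SL(2, ℤ), τ ≠ γ • ρ) → (∀ γ : SL(2, ℤ), τ ≠ γ • I) →
      detFun k F τ ≠ 0)
    {a b : ℕ}
    (hρ : analyticOrderAt (detFun k F ∘ ofComplex) ((ρ : ℍ) : ℂ) = (a : ℕ∞))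
    (hi : analyticOrderAt (detFun k F ∘ ofComplex) ((I : ℍ) : ℂ) = (b : ℕ∞)) :
    ∃ (C : ℂ) (γ : ℤ), C ≠ 0 ∧
      (∀ z, detFun k F z ^ 2 = C * E₄ z ^ (2 * a) * E₆ z ^ (2 * b) * Δ z ^ γ) ∧
      2 * k * (mu N : ℤ) = 8 * a + 12 * b + 12 * γ := by
  refine detFun_sq_shape N hF (fun τ h4 h6 => hgen τ ?_ ?_) hρ hi
  · intro γ hγ
    exact h4 ((LevelOne_helper63.E₄_eq_zero_iff τ).mpr ⟨γ, hγ⟩)
  · intro γ hγ
    exact h6 ((LevelOne_helper63.E₆_eq_zero_iff τ).mpr ⟨γ, hγ⟩)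

/-- **Target shape for the final glue** (`k = 2`): a tuple whose determinant has the forced
orders `μ + f₃` at `ρ` and `(μ + f₂) / 2` at `i` and no other zeros has
`detFun ^ 2 = C · E₄ ^ (2 (μ + f₃)) · E₆ ^ (μ + f₂) · Δ ^ γ`. -/
theorem exists_maximal_shape_of_orders (N : ℕ) [NeZero N] (f2 f3 : ℕ)
    (h : ∃ (n : ℕ) (F : X N → ℍ → ℂ), (∀ c, IsWH N 2 n (F c)) ∧
      (∀ τ : ℍ, E₄ τ ≠ 0 → E₆ τ ≠ 0 → detFun 2 F τ ≠ 0) ∧
      analyticOrderAt (detFun 2 F ∘ ofComplex) ((ρ : ℍ) : ℂ) = ((mu N + f3 : ℕ) : ℕ∞) ∧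
      2 * analyticOrderAt (detFun 2 F ∘ ofComplex) ((I : ℍ) : ℂ) = ((mu N + f2 : ℕ) : ℕ∞)) :
    ∃ (n : ℕ) (F : X N → ℍ → ℂ) (C : ℂ) (γ : ℤ), (∀ c, IsWH N 2 n (F c)) ∧ C ≠ 0 ∧
      (∀ z, detFun 2 F z ^ 2 =
        C * E₄ z ^ (2 * (mu N + f3)) * E₆ z ^ (mu N + f2) * Δ z ^ γ) ∧
      (4 * (mu N : ℤ) = 8 * ((mu N : ℤ) + f3) + 6 * ((mu N : ℤ) + f2) + 12 * γ) := by
  obtain ⟨n, F, hF, hgen, hρ, hi⟩ := h
  obtain ⟨C, γ, hC, hshape, hw⟩ := detFun_sq_shape_core N hF hgen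
    (α := 2 * (mu N + f3)) (β := mu N + f2) (by rw [hρ]; push_cast; rfl) hi
  refine ⟨n, F, C, γ, hF, hC, hshape, ?_⟩
  have : (2 : ℤ) * 2 * (mu N : ℤ) = 4 * (mu N : ℤ) := by ring
  rw [← this, hw]
  push_cast
  ring

end Fermat.Agent.S20
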