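import Fermat.Agent.S20.Defs
import Fermat.Agent.S20_helper24.DivideOrd
import Fermat.Agent.S20_helper24.LatticeOfTau
import Fermat.Agent.LevelOne_helper29.JOrders

/-!
# T20 / B3 (a): division of a weakly holomorphic form by `j - j(τ₀)`

* `analyticOrderAt_comp_smul`, `analyticOrderAt_slash` : vanishing orders are transported by the
  action of `SL(2, ℤ)`.
* `exists_isWH_div` : if all conjugates of a weakly holomorphic form `f` on `Γ₀(N)` vanish at `τ₀`
  to order at least the order of `j - j(τ₀)` at `τ₀`, then `f / (j - j(τ₀))` is again weakly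
  holomorphic (with the same bound on the pole orders at the cusps).
-/

set_option autoImplicit false

open UpperHalfPlane ModularForm CongruenceSubgroup Matrix.SpecialLinearGroup Filter Topology
open scoped MatrixGroups ModularForm Manifold

namespace Fermat.Agent.S20

open Fermat.Agent.S23 (G0 IsMF IsCF)
open Fermat.Agent.LevelOne_helper29 (jInv)

local notation "Δ" => ModularForm.discriminant

/-! ### Transport of vanishing orders by `SL(2, ℤ)` -/

/-- Derivative of a Möbius map. -/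
lemma hasDerivAt_num_div_denom (g : GL (Fin 2) ℝ) {w : ℂ} (hw : denom g w ≠ 0) :
    HasDerivAt (fun w : ℂ => num g w / denom g w) ((g.det.val : ℂ) / denom g w ^ 2) w := by
  have h1 : HasDerivAt (fun w : ℂ => num g w) ((g 0 0 : ℝ) : ℂ) w := by
    have := ((hasDerivAt_id w).const_mul ((g 0 0 : ℝ) : ℂ)).add_const ((g 0 1 : ℝ) : ℂ)
    simpa [num] using this
  have h2 : HasDerivAt (fun w : ℂ => denom g w) ((g 1 0 : ℝ) : ℂ) w := by
    have := ((hasDerivAt_id w).const_mul ((g 1 0 : ℝ) : ℂ)).add_const ((g 1 1 : ℝ) : ℂ)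
    simpa [denom] using this
  have h3 := h1.div h2 hw
  have hdet : (g.det.val : ℂ) = (g 0 0 : ℝ) * (g 1 1 : ℝ) - (g 0 1 : ℝ) * (g 1 0 : ℝ) := by
    rw [Matrix.GeneralLinearGroup.val_det_apply, Matrix.det_fin_two]
    push_cast
    ring
  have heq : ((g.det.val : ℂ) / denom g w ^ 2) =
      ((((g 0 0 : ℝ) : ℂ) * denom g w - num g w * ((g 1 0 : ℝ) : ℂ)) / denom g w ^ 2) := by
    rw [hdet]
    simp only [num, denom]
    ring
  rw [heq]
  exact h3

lemma analyticAt_num_div_denom (g : GL (Fin 2) ℝ) {w : ℂ} (hw : denom g w ≠ 0) :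
    AnalyticAt ℂ (fun w : ℂ => num g w / denom g w) w := by
  have h1 : AnalyticAt ℂ (fun w : ℂ => num g w) w := by
    unfold num
    fun_prop
  have h2 : AnalyticAt ℂ (fun w : ℂ => denom g w) w := by
    unfold denom
    fun_prop
  exact h1.div h2 hw

/-- Vanishing orders are transported by the Möbius action. -/
theorem analyticOrderAt_comp_smul (F : ℍ → ℂ) (γ : SL(2, ℤ)) (τ : ℍ) :
    analyticOrderAt ((fun z : ℍ => F (γ • z)) ∘ ofComplex) (τ : ℂ) =
      analyticOrderAt (F ∘ ofComplex) ((γ • τ : ℍ) : ℂ) := by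
  set g : GL (Fin 2) ℝ := (γ : GL (Fin 2) ℝ) with hg
  have hdet : 0 < g.det.val := by simp [hg]
  set m : ℂ → ℂ := fun w => num g w / denom g w with hm
  have hmτ : m τ = ((γ • τ : ℍ) : ℂ) := (coe_smul_of_det_pos hdet τ).symm
  have hden : denom g τ ≠ 0 := denom_ne_zero g τ
  have hderiv : HasDerivAt m ((g.det.val : ℂ) / denom g τ ^ 2) τ := hasDerivAt_num_div_denom g hden
  have hma : AnalyticAt ℂ m τ := analyticAt_num_div_denom g hden
  have hev : ((fun z : ℍ => F (γ • z)) ∘ ofComplex) =ᶠ[𝓝 (τ : ℂ)] (F ∘ ofComplex) ∘ m := by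
    filter_upwards [isOpen_upperHalfPlaneSet.mem_nhds τ.im_pos] with w hw
    simp only [Function.comp_apply]
    congr 1
    rw [ofComplex_apply_of_im_pos hw]
    have : m w = ((γ • (⟨w, hw⟩ : ℍ) : ℍ) : ℂ) := (coe_smul_of_det_pos hdet ⟨w, hw⟩).symm
    rw [this, ofComplex_apply]
  have hd0 : deriv m τ ≠ 0 := by
    rw [hderiv.deriv]
    refine div_ne_zero ?_ (pow_ne_zero 2 hden)
    exact_mod_cast hdet.ne'
  rw [analyticOrderAt_congr hev, analyticOrderAt_comp_of_deriv_ne_zero hma hd0, hmτ]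

/-- Vanishing orders and the slash action. -/
theorem analyticOrderAt_slash {F : ℍ → ℂ} (hF : MDiff F) (k : ℤ) (γ : SL(2, ℤ)) (τ : ℍ) :
    analyticOrderAt ((F ∣[k] γ) ∘ ofComplex) (τ : ℂ) =
      analyticOrderAt (F ∘ ofComplex) ((γ • τ : ℍ) : ℂ) := by
  rw [← analyticOrderAt_comp_smul F γ τ]
  have hS : MDiff (F ∣[k] γ) := by
    rw [SL_slash]
    exact hF.slash k _
  have hD : MDiff (fun z : ℍ => denom γ z ^ k) := mdifferentiable_denom_zpow _ k
  have heq : (fun z : ℍ => F (γ • z)) = (F ∣[k] γ) * (fun z : ℍ => denom γ z ^ k) := by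
    funext z
    simp only [Pi.mul_apply, SL_slash_apply]
    rw [mul_assoc, ← zpow_add₀ (denom_ne_zero γ z)]
    simp
  have h1 := LevelOne_helper29.analyticAt_comp_ofComplex hS τ
  have h2 := LevelOne_helper29.analyticAt_comp_ofComplex hD τ
  have h3 : analyticOrderAt ((fun z : ℍ => denom γ z ^ k) ∘ ofComplex) (τ : ℂ) = 0 := by
    rw [h2.analyticOrderAt_eq_zero]
    simp only [Function.comp_apply, ofComplex_apply]
    exact zpow_ne_zero _ (denom_ne_zero γ τ)
  have h4 : ((fun z : ℍ => F (γ • z)) ∘ ofComplex) =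
      ((F ∣[k] γ) ∘ ofComplex) * ((fun z : ℍ => denom γ z ^ k) ∘ ofComplex) := by
    rw [heq]
    rfl
  rw [h4, analyticOrderAt_mul h1 h2, h3, add_zero]

/-! ### The function `j - j(τ₀)` -/

/-- `j - j(τ₀)` as a function on the upper half plane. -/
noncomputable def jSub (τ0 : ℍ) : ℍ → ℂ := fun z => jInv z - jInv τ0

lemma jSub_apply (τ0 z : ℍ) : jSub τ0 z = jInv z - jInv τ0 := rfl

lemma mdiff_jSub (τ0 : ℍ) : MDiff (jSub τ0) :=
  LevelOne_helper29.mdifferentiable_jInv.sub mdifferentiable_const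

lemma jSub_smul (τ0 : ℍ) (γ : SL(2, ℤ)) (z : ℍ) : jSub τ0 (γ • z) = jSub τ0 z := by
  rw [jSub_apply, jSub_apply, LevelOne_helper29.jInv_smul]

lemma jSub_slash (τ0 : ℍ) (γ : SL(2, ℤ)) : (jSub τ0) ∣[(0 : ℤ)] γ = jSub τ0 := by
  ext z
  rw [SL_slash_apply, jSub_smul]
  simp

lemma jSub_ne_zero (τ0 : ℍ) : jSub τ0 ≠ 0 := by
  intro h
  have h1 : jSub τ0 UpperHalfPlane.ρ = 0 := by rw [h]; rfl
  have h2 : jSub τ0 UpperHalfPlane.I = 0 := by rw [h]; rfl
  rw [jSub_apply, LevelOne_helper29.jInv_rho] at h1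
  rw [jSub_apply, LevelOne_helper29.jInv_I] at h2
  have : (1728 : ℂ) = 0 := by linear_combination h2 - h1
  norm_num at this

lemma jSub_eq_zero_iff (τ0 z : ℍ) : jSub τ0 z = 0 ↔ ∃ γ : SL(2, ℤ), γ • τ0 = z := by
  constructor
  · intro h
    rw [jSub_apply, sub_eq_zero, LevelOne_helper29.jInv_def, LevelOne_helper29.jInv_def,
      div_eq_div_iff (discriminant_ne_zero z) (discriminant_ne_zero τ0)] at h
    exact S20_helper24.exists_SL2_smul_eq_of_j_eq z τ0 h
  · rintro ⟨γ, rfl⟩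
    rw [jSub_smul, jSub_apply, sub_self]

/-- The order of `j - j(τ₀)` is constant along the orbit of `τ₀`. -/
lemma analyticOrderAt_jSub_smul (τ0 : ℍ) (γ : SL(2, ℤ)) (τ : ℍ) :
    analyticOrderAt (jSub τ0 ∘ ofComplex) ((γ • τ : ℍ) : ℂ) =
      analyticOrderAt (jSub τ0 ∘ ofComplex) (τ : ℂ) := by
  rw [← analyticOrderAt_comp_smul]
  have : (fun z : ℍ => jSub τ0 (γ • z)) = jSub τ0 := funext fun z => jSub_smul τ0 γ z
  rw [this]

lemma tendsto_inv_jSub (τ0 : ℍ) : Tendsto (fun z : ℍ => (jSub τ0 z)⁻¹) atImInfty (𝓝 0) := by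
  have h1 : Tendsto (fun z : ℍ => ‖jSub τ0 z‖) atImInfty atTop := by
    have h2 := LevelOne_helper29.tendsto_norm_jInv_atImInfty
    have h3 : Tendsto (fun z : ℍ => ‖jInv z‖ - ‖jInv τ0‖) atImInfty atTop :=
      tendsto_atTop_add_const_right _ _ h2
    refine tendsto_atTop_mono (fun z => ?_) h3
    rw [jSub_apply]
    exact norm_sub_norm_le _ _
  exact tendsto_inv₀_cobounded.comp (tendsto_norm_atTop_iff_cobounded.mp h1)

lemma eventually_jSub_ne_zero (τ0 : ℍ) : ∀ᶠ z in atImInfty, jSub τ0 z ≠ 0 := by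
  have h1 : Tendsto (fun z : ℍ => ‖jSub τ0 z‖) atImInfty atTop := by
    have h2 := LevelOne_helper29.tendsto_norm_jInv_atImInfty
    have h3 : Tendsto (fun z : ℍ => ‖jInv z‖ - ‖jInv τ0‖) atImInfty atTop :=
      tendsto_atTop_add_const_right _ _ h2
    refine tendsto_atTop_mono (fun z => ?_) h3
    rw [jSub_apply]
    exact norm_sub_norm_le _ _
  filter_upwards [h1.eventually_gt_atTop 0] with z hz
  exact norm_pos_iff.mp hz

/-! ### Division -/

/-- Slash of a product with `j - j(τ₀)`. -/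
lemma mul_jSub_slash (τ0 : ℍ) (k : ℤ) (f : ℍ → ℂ) (γ : SL(2, ℤ)) :
    (f * jSub τ0) ∣[k] γ = (f ∣[k] γ) * jSub τ0 := by
  have h := mul_slash_SL2 k 0 γ f (jSub τ0)
  rw [add_zero, jSub_slash] at h
  exact h

/-- The order inequality between `j - j(τ₀)` and a `Γ₀(N)`-invariant function all of whose
conjugates vanish to the order of `j - j(τ₀)` at `τ₀`. -/
lemma analyticOrderAt_jSub_le {N : ℕ} {k : ℤ} {f : ℍ → ℂ} (hf : MDiff f)
    (hinv : ∀ γ ∈ Gamma0 N, f ∣[k] γ = f) (τ0 : ℍ)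
    (hord : ∀ x : X N, analyticOrderAt (jSub τ0 ∘ ofComplex) (τ0 : ℂ) ≤
      analyticOrderAt (cj k f x ∘ ofComplex) (τ0 : ℂ)) (τ : ℍ) :
    analyticOrderAt (jSub τ0 ∘ ofComplex) (τ : ℂ) ≤ analyticOrderAt (f ∘ ofComplex) (τ : ℂ) := by
  by_cases h : jSub τ0 τ = 0
  · obtain ⟨γ, rfl⟩ := (jSub_eq_zero_iff τ0 τ).mp h
    rw [analyticOrderAt_jSub_smul, ← analyticOrderAt_slash hf k γ τ0]
    have h1 : cj k f (((γ⁻¹ : SL(2, ℤ))) : X N) = f ∣[k] γ := by
      rw [cj_mk hinv, inv_inv]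
    rw [← h1]
    exact hord _
  · have h0 : analyticOrderAt (jSub τ0 ∘ ofComplex) (τ : ℂ) = 0 := by
      rw [(LevelOne_helper29.analyticAt_comp_ofComplex (mdiff_jSub τ0) τ).analyticOrderAt_eq_zero]
      simpa [Function.comp_apply, ofComplex_apply] using h
    rw [h0]
    exact zero_le

/-- **Division by `j - j(τ₀)`** (T20 / B3 (a)).  If all conjugates of the weakly holomorphic form
`f` on `Γ₀(N)` vanish at `τ₀` to at least the order of `j - j(τ₀)` at `τ₀`, then
`f = (j - j(τ₀)) * f'` with `f'` weakly holomorphic of the same weight and the same bound for the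
pole orders at the cusps. -/
theorem exists_isWH_div {N : ℕ} [NeZero N] {k : ℤ} {n : ℕ} {f : ℍ → ℂ} (hf : IsWH N k n f)
    (τ0 : ℍ)
    (hord : ∀ x : X N, analyticOrderAt ((fun z => jInv z - jInv τ0) ∘ ofComplex) (τ0 : ℂ) ≤
      analyticOrderAt (cj k f x ∘ ofComplex) (τ0 : ℂ)) :
    ∃ f' : ℍ → ℂ, IsWH N k n f' ∧ ∀ z, f z = (jInv z - jInv τ0) * f' z := by
  have hinv : ∀ γ ∈ Gamma0 N, f ∣[k] γ = f := fun γ hγ => hf.slash_eq hγ
  obtain ⟨f', hf'md, hf'eq⟩ := S20_helper24.exists_mdiff_quotient_of_order hf.mdiff (mdiff_jSub τ0)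
    (jSub_ne_zero τ0) (analyticOrderAt_jSub_le hf.mdiff hinv τ0 hord)
  have hmul : f' * jSub τ0 = f := funext hf'eq
  have hslash : ∀ γ : SL(2, ℤ), (f' ∣[k] γ) * jSub τ0 = f ∣[k] γ := fun γ => by
    rw [← mul_jSub_slash, hmul]
  refine ⟨f', isWH_mk hf'md (fun γ hγ => ?_) (fun δ => ?_), fun z => ?_⟩
  · -- invariance: cancel `j - j(τ₀)`
    have hS : MDiff (f' ∣[k] γ) := by
      rw [SL_slash]
      exact hf'md.slash k _
    refine S23_helper24.eq_of_mul_eq_mul_right_mdiff hS hf'md (mdiff_jSub τ0) (jSub_ne_zero τ0) ?_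
    intro z
    have := congrFun (hslash γ) z
    rw [hinv γ hγ] at this
    rw [hf'eq z]
    exact this
  · -- boundedness at the cusps: `1 / (j - j(τ₀)) → 0`
    have hb : IsBoundedAtImInfty (dpow n * (f ∣[k] δ)) := hf.isBounded δ
    have hz : IsBoundedAtImInfty (fun z : ℍ => (jSub τ0 z)⁻¹) :=
      ZeroAtFilter.boundedAtFilter (tendsto_inv_jSub τ0)
    have hprod := hb.mul hz
    refine hprod.congr' ?_ EventuallyEq.rfl
    filter_upwards [eventually_jSub_ne_zero τ0] with z hz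
    have := congrFun (hslash δ) z
    simp only [Pi.mul_apply] at this ⊢
    rw [← this]
    field_simp
  · rw [← hf'eq z, jSub_apply]
    ring

end Fermat.Agent.S20
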