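import Fermat.Agent.S20.CuspKernel
import Fermat.Agent.S20_helper8.P1Index

/-!
# T20: piece D in the shape consumed by C3 (adapter for helper8's `P1Index`)
-/

set_option autoImplicit false

namespace Fermat.Agent.S20

open Fermat.Agent.S20_helper8

theorem indexLowerBound : IndexLowerBound := by
  intro ι _ _ ξ hξ G hG
  obtain ⟨hfred, -⟩ := phi_isFredholm_and_ind hξ G hG
  refine ⟨LinearMap.ker (phi ξ G), hfred.1, ?_, card_add_order_le_finrank_ker hξ G hG⟩
  intro a ha r m hm
  rw [LinearMap.mem_ker, phi_apply, Submodule.Quotient.mk_eq_zero] at ha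
  exact ha r m hm

end Fermat.Agent.S20
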