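import Fermat.Agent.S20.Division

/-!
# T20: the exact order of `j - j(τ₀)` at `τ₀`

`2` on the orbit of `i`, `3` on the orbit of `ρ`, `1` elsewhere; and the zero sets of `E₄`, `E₆`.
-/

set_option autoImplicit false

open UpperHalfPlane ModularForm CongruenceSubgroup Matrix.SpecialLinearGroup Filter Topology
open scoped MatrixGroups ModularForm Manifold

namespace Fermat.Agent.S20

open Fermat.Agent.LevelOne_helper29 (jInv)

/-- `j` separates the orbits of `SL(2, ℤ)` (in helper29's packaging). -/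
theorem jInjective : LevelOne_helper29.JInjective := by
  intro τ τ' h
  have h0 : jSub τ τ' = 0 := by rw [jSub_apply, h, sub_self]
  obtain ⟨γ, hγ⟩ := (jSub_eq_zero_iff τ τ').mp h0
  exact ⟨γ, hγ.symm⟩

theorem jInv_eq_iff (τ τ' : ℍ) : jInv τ = jInv τ' ↔ ∃ γ : SL(2, ℤ), γ • τ = τ' := by
  constructor
  · intro h
    obtain ⟨γ, hγ⟩ := jInjective τ τ' h
    exact ⟨γ, hγ.symm⟩
  · rintro ⟨γ, rfl⟩
    rw [LevelOne_helper29.jInv_smul]

/-- The zeros of `E₄` are the orbit of `ρ`. -/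
theorem E4_eq_zero_iff (τ : ℍ) : E₄ τ = 0 ↔ ∃ γ : SL(2, ℤ), γ • τ = ρ := by
  rw [LevelOne_helper29.E4_eq_zero_iff_of_injective jInjective]
  constructor
  · rintro ⟨γ, rfl⟩
    exact ⟨γ⁻¹, by rw [inv_smul_smul]⟩
  · rintro ⟨γ, h⟩
    exact ⟨γ⁻¹, by rw [← h, inv_smul_smul]⟩

/-- The zeros of `E₆` are the orbit of `i`. -/
theorem E6_eq_zero_iff (τ : ℍ) : E₆ τ = 0 ↔ ∃ γ : SL(2, ℤ), γ • τ = UpperHalfPlane.I := by
  rw [LevelOne_helper29.E6_eq_zero_iff_of_injective jInjective]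
  constructor
  · rintro ⟨γ, rfl⟩
    exact ⟨γ⁻¹, by rw [inv_smul_smul]⟩
  · rintro ⟨γ, h⟩
    exact ⟨γ⁻¹, by rw [← h, inv_smul_smul]⟩

/-- On the orbit of `i` the function `j - j(τ₀)` has a double zero at `τ₀`. -/
theorem analyticOrderAt_jSub_self_of_orbit_I {τ0 : ℍ}
    (h : ∃ g : SL(2, ℤ), g • τ0 = UpperHalfPlane.I) :
    analyticOrderAt ((fun z => jInv z - jInv τ0) ∘ ofComplex) (τ0 : ℂ) = 2 := by
  have h6 : E₆ τ0 = 0 := (E6_eq_zero_iff τ0).mpr h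
  rw [(LevelOne_helper29.jInv_eq_1728_iff τ0).mpr h6]
  exact LevelOne_helper29.ordAt_jInv_sub_of_E6_eq_zero h6

/-- On the orbit of `ρ` the function `j - j(τ₀)` has a triple zero at `τ₀`. -/
theorem analyticOrderAt_jSub_self_of_orbit_ρ {τ0 : ℍ}
    (h : ∃ g : SL(2, ℤ), g • τ0 = ρ) :
    analyticOrderAt ((fun z => jInv z - jInv τ0) ∘ ofComplex) (τ0 : ℂ) = 3 := by
  have h4 : E₄ τ0 = 0 := (E4_eq_zero_iff τ0).mpr h
  rw [(LevelOne_helper29.jInv_eq_zero_iff τ0).mpr h4]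
  have : (fun z => jInv z - 0) = jInv := funext fun z => sub_zero _
  rw [this]
  exact LevelOne_helper29.ordAt_jInv_of_E4_eq_zero h4

/-- Away from the two elliptic orbits the function `j - j(τ₀)` has a simple zero at `τ₀`. -/
theorem analyticOrderAt_jSub_self_of_not_orbit {τ0 : ℍ}
    (hI : ∀ g : SL(2, ℤ), g • τ0 ≠ UpperHalfPlane.I) (hρ : ∀ g : SL(2, ℤ), g • τ0 ≠ ρ) :
    analyticOrderAt ((fun z => jInv z - jInv τ0) ∘ ofComplex) (τ0 : ℂ) = 1 := by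
  have h4 : E₄ τ0 ≠ 0 := fun h => by
    obtain ⟨g, hg⟩ := (E4_eq_zero_iff τ0).mp h
    exact hρ g hg
  have h6 : E₆ τ0 ≠ 0 := fun h => by
    obtain ⟨g, hg⟩ := (E6_eq_zero_iff τ0).mp h
    exact hI g hg
  exact LevelOne_helper29.ordAt_jInv_sub_of_ne_zero h4 h6

/-- The order of `j - j(τ₀)` at `τ₀` is `1`, `2` or `3`; in particular it is finite and positive. -/
theorem analyticOrderAt_jSub_self_cases (τ0 : ℍ) :
    ((∃ g : SL(2, ℤ), g • τ0 = UpperHalfPlane.I) ∧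
        analyticOrderAt ((fun z => jInv z - jInv τ0) ∘ ofComplex) (τ0 : ℂ) = 2) ∨
      ((∃ g : SL(2, ℤ), g • τ0 = ρ) ∧
        analyticOrderAt ((fun z => jInv z - jInv τ0) ∘ ofComplex) (τ0 : ℂ) = 3) ∨
      ((∀ g : SL(2, ℤ), g • τ0 ≠ UpperHalfPlane.I) ∧ (∀ g : SL(2, ℤ), g • τ0 ≠ ρ) ∧
        analyticOrderAt ((fun z => jInv z - jInv τ0) ∘ ofComplex) (τ0 : ℂ) = 1) := by
  by_cases hI : ∃ g : SL(2, ℤ), g • τ0 = UpperHalfPlane.I
  · exact Or.inl ⟨hI, analyticOrderAt_jSub_self_of_orbit_I hI⟩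
  · by_cases hρ : ∃ g : SL(2, ℤ), g • τ0 = ρ
    · exact Or.inr (Or.inl ⟨hρ, analyticOrderAt_jSub_self_of_orbit_ρ hρ⟩)
    · push Not at hI hρ
      exact Or.inr (Or.inr ⟨hI, hρ, analyticOrderAt_jSub_self_of_not_orbit hI hρ⟩)

end Fermat.Agent.S20
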