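import Fermat.Agent.S20.Defs
import Fermat.Agent.S20_helper43.MoebiusGerm
import Fermat.Agent.S20_helper27.Counts

/-!
# T20 / B4 : local glue — the forced vanishing order of the conjugate determinant at `τ₀ ∈ ℍ`

We instantiate the abstract local lemma LOC-DET (germ form) at a point `τ₀` of the upper half
plane, with the generator of the stabiliser of `τ₀` in `SL(2, ℤ)`.
-/

set_option autoImplicit false

open UpperHalfPlane ModularGroup MatrixGroups CongruenceSubgroup Matrix.SpecialLinearGroup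
  ModularForm Filter Topology
open scoped Modular Manifold

namespace Fermat.Agent.S20.LocalGlue

open Fermat.Agent.S20_helper43

/-! ### Numerical data -/

/-- number of fixed points of `S` on `X N` -/
noncomputable def f2 (N : ℕ) : ℕ := Nat.card {x : X N // S • x = x}

/-- number of fixed points of `S * T` on `X N` -/
noncomputable def f3 (N : ℕ) : ℕ := Nat.card {x : X N // (S * T) • x = x}

theorem f2_eq (N : ℕ) : f2 N = ModularCurve.nuTwo N := S20_helper27.card_fixed_S N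

theorem f3_eq (N : ℕ) : f3 N = ModularCurve.nuThree N := S20_helper27.card_fixed_ST N

theorem mu_eq (N : ℕ) [NeZero N] : mu N = ModularCurve.dedekindPsi N := S20_helper27.card_XN N

/-- the weight exponent at the orbit of `i`: `i ^ k = (-1) ^ sI k` for even `k` -/
def sI (k : ℤ) : ℕ := ((k / 2) % 2).toNat

/-- the weight exponent at the orbit of `ρ`: `ρ ^ k = ρ ^ sρ k` -/
def sρ (k : ℤ) : ℕ := (k % 3).toNat

theorem sI_lt (k : ℤ) : sI k < 2 := by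
  unfold sI; omega

theorem sρ_lt (k : ℤ) : sρ k < 3 := by
  unfold sρ; omega

open Classical in
/-- the ramification index of `ℍ → SL(2, ℤ) \ ℍ` at `τ` -/
noncomputable def eAt (τ : ℍ) : ℕ :=
  if ∃ g : SL(2, ℤ), g • τ = I then 2 else if ∃ g : SL(2, ℤ), g • τ = ρ then 3 else 1

open Classical in
/-- the forced vanishing order of the conjugate determinant at `τ` -/
noncomputable def d0 (N : ℕ) (k : ℤ) (τ : ℍ) : ℕ :=
  if ∃ g : SL(2, ℤ), g • τ = I then (mu N - f2 N) / 2 + sI k * f2 N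
  else if ∃ g : SL(2, ℤ), g • τ = ρ then (mu N - f3 N) + sρ k * f3 N else 0

theorem eAt_of_I {τ : ℍ} (h : ∃ g : SL(2, ℤ), g • τ = I) : eAt τ = 2 := by
  unfold eAt; rw [if_pos h]

theorem not_orbit_I_of_orbit_ρ {τ : ℍ} (h : ∃ g : SL(2, ℤ), g • τ = ρ) :
    ¬ ∃ g : SL(2, ℤ), g • τ = I := by
  rintro ⟨g', hg'⟩
  obtain ⟨g, hg⟩ := h
  have h1 := card_stabilizer_smul g τ
  have h2 := card_stabilizer_smul g' τ
  rw [hg, card_stabilizer_ρ] at h1
  rw [hg', card_stabilizer_I] at h2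
  omega

theorem eAt_of_ρ {τ : ℍ} (h : ∃ g : SL(2, ℤ), g • τ = ρ) : eAt τ = 3 := by
  unfold eAt; rw [if_neg (not_orbit_I_of_orbit_ρ h), if_pos h]

theorem eAt_of_not {τ : ℍ} (h1 : ¬ ∃ g : SL(2, ℤ), g • τ = I) (h2 : ¬ ∃ g : SL(2, ℤ), g • τ = ρ) :
    eAt τ = 1 := by
  unfold eAt; rw [if_neg h1, if_neg h2]

theorem d0_of_I (N : ℕ) (k : ℤ) {τ : ℍ} (h : ∃ g : SL(2, ℤ), g • τ = I) :
    d0 N k τ = (mu N - f2 N) / 2 + sI k * f2 N := by
  unfold d0; rw [if_pos h]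

theorem d0_of_ρ (N : ℕ) (k : ℤ) {τ : ℍ} (h : ∃ g : SL(2, ℤ), g • τ = ρ) :
    d0 N k τ = (mu N - f3 N) + sρ k * f3 N := by
  unfold d0; rw [if_neg (not_orbit_I_of_orbit_ρ h), if_pos h]

theorem d0_of_not (N : ℕ) (k : ℤ) {τ : ℍ} (h1 : ¬ ∃ g : SL(2, ℤ), g • τ = I)
    (h2 : ¬ ∃ g : SL(2, ℤ), g • τ = ρ) : d0 N k τ = 0 := by
  unfold d0; rw [if_neg h1, if_neg h2]


/-! ### The germs of the conjugates -/

section germ

variable {N : ℕ} {k : ℤ}

/-- the germ of the conjugate `cj k (F a) x` as a function on `ℂ` -/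
noncomputable def Φ (k : ℤ) (F : X N → ℍ → ℂ) (a x : X N) : ℂ → ℂ := cj k (F a) x ∘ ofComplex

theorem analyticAt_Φ {F : X N → ℍ → ℂ} (hF : ∀ a, MDiff (F a)) (a x : X N) (τ : ℍ) :
    AnalyticAt ℂ (Φ k F a x) τ :=
  analyticAt_comp_ofComplex (mdiff_cj (hF a) x) τ

/-- the symmetry of the germs of the conjugates under `γ ∈ SL(2, ℤ)` -/
theorem Φ_symm {F : X N → ℍ → ℂ} (hinv : ∀ a, ∀ γ ∈ Gamma0 N, F a ∣[k] γ = F a)
    (γ : SL(2, ℤ)) (τ : ℍ) (a x : X N) :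
    ∀ᶠ z in 𝓝 (τ : ℂ), Φ k F a x (mob γ z) =
      aut γ z ^ k * Φ k F a ((MulAction.toPerm γ⁻¹ : Equiv.Perm (X N)) x) z :=
  slash_germ (cj_slash (hinv a) x γ) τ

theorem detFun_comp_ofComplex [NeZero N] [DecidableEq (X N)] (F : X N → ℍ → ℂ) :
    detFun k F ∘ ofComplex = fun z => Matrix.det (Matrix.of fun a x => Φ k F a x z) := by
  funext z
  simp only [Function.comp_apply, detFun, conjMat, Φ]
  congr!

theorem analyticAt_aut_zpow (γ : SL(2, ℤ)) (τ : ℍ) (k : ℤ) :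
    AnalyticAt ℂ (fun z => aut γ z ^ k) τ :=
  (analyticAt_aut γ τ).zpow (aut_ne_zero γ τ)

end germ

/-! ### Weight exponents -/

theorem I_zpow_even {k : ℤ} (hk : Even k) : Complex.I ^ k = (-1 : ℂ) ^ sI k := by
  obtain ⟨m, rfl⟩ := hk
  have h1 : Complex.I ^ (m + m) = (-1 : ℂ) ^ m := by
    rw [← two_mul, zpow_mul, zpow_ofNat, Complex.I_sq]
  rw [h1]
  have h2 : (m + m) / 2 = m := by omega
  unfold sI
  rw [h2]
  rcases Int.emod_two_eq_zero_or_one m with h | h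
  · rw [h]
    have : Even m := Int.even_iff.mpr h
    rw [this.neg_one_zpow]; simp
  · rw [h]
    have : Odd m := Int.odd_iff.mpr h
    rw [this.neg_one_zpow]; simp

theorem ρ_zpow (k : ℤ) : ((ρ : ℍ) : ℂ) ^ k = ((ρ : ℍ) : ℂ) ^ sρ k := by
  have h0 : k = 3 * (k / 3) + k % 3 := (Int.mul_ediv_add_emod k 3).symm
  have h1 : (k % 3) = ((sρ k : ℕ) : ℤ) := by
    unfold sρ
    rw [Int.toNat_of_nonneg (Int.emod_nonneg _ (by norm_num))]
  conv_lhs => rw [h0]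
  rw [zpow_add₀ ρ_ne_zero, zpow_mul, zpow_ofNat, ρ_cube, one_zpow, one_mul, h1, zpow_natCast]

/-! ### The abstract local lemma LOC-DET (statements) -/

/-- the forced order in LOC-DET for a prime `e` -/
def forcedOrd (e s μ f : ℕ) : ℕ := (e * (e - 1) / 2) * ((μ - f) / e) + (s % e) * f

/-- LOC-DET (L1), prime `e`, germ form (statement only) -/
def LocDetL1 : Prop :=
  ∀ {X : Type} [Fintype X] [DecidableEq X] {e : ℕ} (_ : e.Prime) {ζ : ℂ}
    (_ : IsPrimitiveRoot ζ e) (s : ℕ) (π : Equiv.Perm X) (_ : π ^ e = 1) {z0 : ℂ} {sig u : ℂ → ℂ}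
    (_ : AnalyticAt ℂ sig z0) (_ : sig z0 = z0) (_ : deriv sig z0 = ζ) (_ : AnalyticAt ℂ u z0)
    (_ : u z0 = ζ ^ s) {Φ : X → X → ℂ → ℂ} (_ : ∀ a x, AnalyticAt ℂ (Φ a x) z0)
    (_ : ∀ a x, ∀ᶠ z in 𝓝 z0, Φ a x (sig z) = u z * Φ a (π x) z),
    ((forcedOrd e s (Fintype.card X) (Nat.card {x : X // π x = x}) : ℕ) : ℕ∞) ≤
      analyticOrderAt (fun z => Matrix.det (Matrix.of fun a x => Φ a x z)) z0

/-- LOC-DET (L2), prime `e`, germ form (statement only) -/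
def LocDetL2 : Prop :=
  ∀ {X : Type} [Fintype X] [DecidableEq X] {e : ℕ} (_ : e.Prime) {ζ : ℂ}
    (_ : IsPrimitiveRoot ζ e) (s : ℕ) (π : Equiv.Perm X) (_ : π ^ e = 1) {z0 : ℂ} {sig u : ℂ → ℂ}
    (_ : AnalyticAt ℂ sig z0) (_ : sig z0 = z0) (_ : deriv sig z0 = ζ) (_ : AnalyticAt ℂ u z0)
    (_ : u z0 = ζ ^ s) {Φ : X → X → ℂ → ℂ} (_ : ∀ a x, AnalyticAt ℂ (Φ a x) z0)
    (_ : ∀ a x, ∀ᶠ z in 𝓝 z0, Φ a x (sig z) = u z * Φ a (π x) z)
    (_ : ((forcedOrd e s (Fintype.card X) (Nat.card {x : X // π x = x}) : ℕ) : ℕ∞) <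
      analyticOrderAt (fun z => Matrix.det (Matrix.of fun a x => Φ a x z)) z0),
    ∃ c : X → ℂ, c ≠ 0 ∧ ∀ x, (e : ℕ∞) ≤ analyticOrderAt (fun z => ∑ a, c a * Φ a x z) z0

theorem forcedOrd_two (s μ f : ℕ) (hs : s < 2) : forcedOrd 2 s μ f = (μ - f) / 2 + s * f := by
  unfold forcedOrd
  rw [Nat.mod_eq_of_lt hs]
  norm_num

theorem forcedOrd_three (s μ f : ℕ) (hs : s < 3) (h : 3 ∣ μ - f) :
    forcedOrd 3 s μ f = (μ - f) + s * f := by
  unfold forcedOrd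
  rw [Nat.mod_eq_of_lt hs]
  obtain ⟨q, hq⟩ := h
  rw [hq]
  norm_num

section inst

variable {N : ℕ} {k : ℤ}

theorem toPerm_genI_sq (g : SL(2, ℤ)) :
    (MulAction.toPerm (genI g)⁻¹ : Equiv.Perm (X N)) ^ 2 = 1 := by
  ext x
  rw [sq, Equiv.Perm.mul_apply, MulAction.toPerm_apply, MulAction.toPerm_apply,
    genI_inv_smul_smul]
  rfl

theorem toPerm_genρ_cube (g : SL(2, ℤ)) :
    (MulAction.toPerm (genρ g)⁻¹ : Equiv.Perm (X N)) ^ 3 = 1 := by
  ext x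
  rw [pow_succ, sq, Equiv.Perm.mul_apply, Equiv.Perm.mul_apply, MulAction.toPerm_apply,
    MulAction.toPerm_apply, MulAction.toPerm_apply, genρ_inv_smul_smul_smul]
  rfl

theorem three_dvd_mu_sub_f3 (N : ℕ) [NeZero N] : 3 ∣ mu N - f3 N := by
  obtain ⟨o, h⟩ : ∃ o, 3 * o = mu N + 2 * f3 N :=
    ⟨_, S20_helper27.prime_mul_card_orbits (X := X N) (S * T) Nat.prime_three
      S20_helper27.ST_cube_smul⟩
  refine ⟨o - f3 N, ?_⟩
  omega

theorem two_dvd_mu_sub_f2 (N : ℕ) [NeZero N] : 2 ∣ mu N - f2 N := by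
  obtain ⟨o, h⟩ : ∃ o, 2 * o = mu N + 1 * f2 N :=
    ⟨_, S20_helper27.prime_mul_card_orbits (X := X N) S Nat.prime_two
      S20_helper27.S_sq_smul⟩
  refine ⟨o - f2 N, ?_⟩
  omega

end inst


section main

variable {N : ℕ} [NeZero N] {k : ℤ} {F : X N → ℍ → ℂ}

theorem L1_of_I (H1 : LocDetL1) (hk : Even k) (hF : ∀ a, MDiff (F a))
    (hinv : ∀ a, ∀ γ ∈ Gamma0 N, F a ∣[k] γ = F a) {τ0 : ℍ} {g : SL(2, ℤ)} (hg : g • τ0 = I) :
    (((mu N - f2 N) / 2 + sI k * f2 N : ℕ) : ℕ∞) ≤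
      analyticOrderAt (detFun k F ∘ ofComplex) τ0 := by
  classical
  rw [detFun_comp_ofComplex]
  have hu0 : aut (genI g) τ0 ^ k = (-1 : ℂ) ^ sI k := by rw [aut_genI hg, I_zpow_even hk]
  have h := H1 (X := X N) Nat.prime_two isPrimitiveRoot_neg_one (sI k)
    (MulAction.toPerm (genI g)⁻¹) (toPerm_genI_sq g) (analyticAt_mob (genI g) τ0)
    (mob_genI_self hg) (deriv_mob_genI hg) (analyticAt_aut_zpow (genI g) τ0 k) hu0
    (fun a x => analyticAt_Φ hF a x τ0) (fun a x => Φ_symm hinv (genI g) τ0 a x)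
  have hfix : Nat.card {x : X N // (MulAction.toPerm (genI g)⁻¹ : Equiv.Perm (X N)) x = x} =
      f2 N := card_fixed_genI_inv g
  rw [forcedOrd_two _ _ _ (sI_lt k), ← mu_eq_card, hfix] at h
  exact h

theorem L2_of_I (H2 : LocDetL2) (hk : Even k) (hF : ∀ a, MDiff (F a))
    (hinv : ∀ a, ∀ γ ∈ Gamma0 N, F a ∣[k] γ = F a) {τ0 : ℍ} {g : SL(2, ℤ)} (hg : g • τ0 = I)
    (hlt : (((mu N - f2 N) / 2 + sI k * f2 N : ℕ) : ℕ∞) <
      analyticOrderAt (detFun k F ∘ ofComplex) τ0) :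
    ∃ c : X N → ℂ, c ≠ 0 ∧ ∀ x : X N, ((2 : ℕ) : ℕ∞) ≤
      analyticOrderAt ((fun z => ∑ a, c a * cj k (F a) x z) ∘ ofComplex) τ0 := by
  classical
  rw [detFun_comp_ofComplex] at hlt
  have hu0 : aut (genI g) τ0 ^ k = (-1 : ℂ) ^ sI k := by rw [aut_genI hg, I_zpow_even hk]
  have hfix : Nat.card {x : X N // (MulAction.toPerm (genI g)⁻¹ : Equiv.Perm (X N)) x = x} =
      f2 N := card_fixed_genI_inv g
  refine H2 (X := X N) Nat.prime_two isPrimitiveRoot_neg_one (sI k)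
    (MulAction.toPerm (genI g)⁻¹) (toPerm_genI_sq g) (analyticAt_mob (genI g) τ0)
    (mob_genI_self hg) (deriv_mob_genI hg) (analyticAt_aut_zpow (genI g) τ0 k) hu0
    (fun a x => analyticAt_Φ hF a x τ0) (fun a x => Φ_symm hinv (genI g) τ0 a x) ?_
  rw [forcedOrd_two _ _ _ (sI_lt k), ← mu_eq_card, hfix]
  exact hlt

theorem L1_of_ρ (H1 : LocDetL1) (hF : ∀ a, MDiff (F a))
    (hinv : ∀ a, ∀ γ ∈ Gamma0 N, F a ∣[k] γ = F a) {τ0 : ℍ} {g : SL(2, ℤ)} (hg : g • τ0 = ρ) :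
    (((mu N - f3 N) + sρ k * f3 N : ℕ) : ℕ∞) ≤
      analyticOrderAt (detFun k F ∘ ofComplex) τ0 := by
  classical
  rw [detFun_comp_ofComplex]
  have hu0 : aut (genρ g) τ0 ^ k = ((ρ : ℍ) : ℂ) ^ sρ k := by rw [aut_genρ hg, ρ_zpow]
  have h := H1 (X := X N) Nat.prime_three isPrimitiveRoot_ρ (sρ k)
    (MulAction.toPerm (genρ g)⁻¹) (toPerm_genρ_cube g) (analyticAt_mob (genρ g) τ0)
    (mob_genρ_self hg) (deriv_mob_genρ hg) (analyticAt_aut_zpow (genρ g) τ0 k) hu0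
    (fun a x => analyticAt_Φ hF a x τ0) (fun a x => Φ_symm hinv (genρ g) τ0 a x)
  have hfix : Nat.card {x : X N // (MulAction.toPerm (genρ g)⁻¹ : Equiv.Perm (X N)) x = x} =
      f3 N := card_fixed_genρ_inv g
  rw [← mu_eq_card, hfix, forcedOrd_three _ _ _ (sρ_lt k) (three_dvd_mu_sub_f3 N)] at h
  exact h

theorem L2_of_ρ (H2 : LocDetL2) (hF : ∀ a, MDiff (F a))
    (hinv : ∀ a, ∀ γ ∈ Gamma0 N, F a ∣[k] γ = F a) {τ0 : ℍ} {g : SL(2, ℤ)} (hg : g • τ0 = ρ)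
    (hlt : (((mu N - f3 N) + sρ k * f3 N : ℕ) : ℕ∞) <
      analyticOrderAt (detFun k F ∘ ofComplex) τ0) :
    ∃ c : X N → ℂ, c ≠ 0 ∧ ∀ x : X N, ((3 : ℕ) : ℕ∞) ≤
      analyticOrderAt ((fun z => ∑ a, c a * cj k (F a) x z) ∘ ofComplex) τ0 := by
  classical
  rw [detFun_comp_ofComplex] at hlt
  have hu0 : aut (genρ g) τ0 ^ k = ((ρ : ℍ) : ℂ) ^ sρ k := by rw [aut_genρ hg, ρ_zpow]
  have hfix : Nat.card {x : X N // (MulAction.toPerm (genρ g)⁻¹ : Equiv.Perm (X N)) x = x} =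
      f3 N := card_fixed_genρ_inv g
  refine H2 (X := X N) Nat.prime_three isPrimitiveRoot_ρ (sρ k)
    (MulAction.toPerm (genρ g)⁻¹) (toPerm_genρ_cube g) (analyticAt_mob (genρ g) τ0)
    (mob_genρ_self hg) (deriv_mob_genρ hg) (analyticAt_aut_zpow (genρ g) τ0 k) hu0
    (fun a x => analyticAt_Φ hF a x τ0) (fun a x => Φ_symm hinv (genρ g) τ0 a x) ?_
  rw [← mu_eq_card, hfix, forcedOrd_three _ _ _ (sρ_lt k) (three_dvd_mu_sub_f3 N)]
  exact hlt


theorem L2_generic (hF : ∀ a, MDiff (F a)) {τ0 : ℍ}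
    (hlt : (0 : ℕ∞) < analyticOrderAt (detFun k F ∘ ofComplex) τ0) :
    ∃ c : X N → ℂ, c ≠ 0 ∧ ∀ x : X N, ((1 : ℕ) : ℕ∞) ≤
      analyticOrderAt ((fun z => ∑ a, c a * cj k (F a) x z) ∘ ofComplex) τ0 := by
  classical
  have han : AnalyticAt ℂ (detFun k F ∘ ofComplex) τ0 :=
    analyticAt_comp_ofComplex (mdiff_detFun hF) τ0
  have h0 : (detFun k F ∘ ofComplex) τ0 = 0 := by
    by_contra h
    have h' := han.analyticOrderAt_eq_zero.mpr h
    rw [h'] at hlt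
    exact lt_irrefl _ hlt
  rw [detFun_comp_ofComplex] at h0
  obtain ⟨c, hc, hcM⟩ := Matrix.exists_vecMul_eq_zero_iff.mpr h0
  refine ⟨c, hc, fun x => ?_⟩
  have han2 : AnalyticAt ℂ ((fun z => ∑ a, c a * cj k (F a) x z) ∘ ofComplex) τ0 := by
    have : ((fun z => ∑ a, c a * cj k (F a) x z) ∘ ofComplex) =
        fun z => ∑ a, c a * Φ k F a x z := rfl
    rw [this]
    exact Finset.analyticAt_fun_sum _ fun a _ => analyticAt_const.mul (analyticAt_Φ hF a x τ0)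
  have hval : ((fun z => ∑ a, c a * cj k (F a) x z) ∘ ofComplex) τ0 = 0 := by
    have := congrFun hcM x
    simpa [Matrix.vecMul, dotProduct, Φ] using this
  rw [Nat.cast_one, Order.one_le_iff_ne_zero, Ne, han2.analyticOrderAt_eq_zero]
  exact not_not.mpr hval

/-- **(L1')** the conjugate determinant of a `Γ₀(N)`-invariant holomorphic tuple of even weight
vanishes at `τ₀` at least to the forced order `d0 N k τ₀`. -/
theorem d0_le_analyticOrderAt_detFun (H1 : LocDetL1) (hk : Even k) (hF : ∀ a, MDiff (F a))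
    (hinv : ∀ a, ∀ γ ∈ Gamma0 N, F a ∣[k] γ = F a) (τ0 : ℍ) :
    ((d0 N k τ0 : ℕ) : ℕ∞) ≤ analyticOrderAt (detFun k F ∘ ofComplex) τ0 := by
  by_cases h1 : ∃ g : SL(2, ℤ), g • τ0 = I
  · rw [d0_of_I N k h1]
    obtain ⟨g, hg⟩ := h1
    exact L1_of_I H1 hk hF hinv hg
  · by_cases h2 : ∃ g : SL(2, ℤ), g • τ0 = ρ
    · rw [d0_of_ρ N k h2]
      obtain ⟨g, hg⟩ := h2
      exact L1_of_ρ H1 hF hinv hg
    · rw [d0_of_not N k h1 h2]
      exact zero_le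

/-- **(L2')** if the conjugate determinant vanishes at `τ₀` to a higher order than the forced one,
then a nontrivial combination of the tuple has all its conjugates vanishing at `τ₀` to order at
least the ramification index `eAt τ₀`. -/
theorem exists_vanishing_combination (H2 : LocDetL2) (hk : Even k) (hF : ∀ a, MDiff (F a))
    (hinv : ∀ a, ∀ γ ∈ Gamma0 N, F a ∣[k] γ = F a) (τ0 : ℍ)
    (hlt : ((d0 N k τ0 : ℕ) : ℕ∞) < analyticOrderAt (detFun k F ∘ ofComplex) τ0) :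
    ∃ c : X N → ℂ, c ≠ 0 ∧ ∀ x : X N, ((eAt τ0 : ℕ) : ℕ∞) ≤
      analyticOrderAt ((fun z => ∑ a, c a * cj k (F a) x z) ∘ ofComplex) τ0 := by
  by_cases h1 : ∃ g : SL(2, ℤ), g • τ0 = I
  · rw [d0_of_I N k h1] at hlt
    rw [eAt_of_I h1]
    obtain ⟨g, hg⟩ := h1
    exact L2_of_I H2 hk hF hinv hg hlt
  · by_cases h2 : ∃ g : SL(2, ℤ), g • τ0 = ρ
    · rw [d0_of_ρ N k h2] at hlt
      rw [eAt_of_ρ h2]
      obtain ⟨g, hg⟩ := h2
      exact L2_of_ρ H2 hF hinv hg hlt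
    · rw [d0_of_not N k h1 h2] at hlt
      rw [eAt_of_not h1 h2]
      exact L2_generic hF (by simpa using hlt)

end main

/-! ### Convenience forms for the consumers -/

section conv

variable {N : ℕ} [NeZero N] {k : ℤ} {n : ℕ} {F : X N → ℍ → ℂ}

/-- (L1') for a weakly holomorphic tuple -/
theorem d0_le_of_isWH (H1 : LocDetL1) (hk : Even k) (hF : ∀ a, IsWH N k n (F a)) (τ0 : ℍ) :
    ((d0 N k τ0 : ℕ) : ℕ∞) ≤ analyticOrderAt (detFun k F ∘ ofComplex) τ0 :=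
  d0_le_analyticOrderAt_detFun H1 hk (fun a => (hF a).mdiff) (fun a _ hγ => (hF a).slash_eq hγ) τ0

/-- (L2') for a weakly holomorphic tuple -/
theorem exists_vanishing_combination_of_isWH (H2 : LocDetL2) (hk : Even k)
    (hF : ∀ a, IsWH N k n (F a)) (τ0 : ℍ)
    (hlt : ((d0 N k τ0 : ℕ) : ℕ∞) < analyticOrderAt (detFun k F ∘ ofComplex) τ0) :
    ∃ c : X N → ℂ, c ≠ 0 ∧ ∀ x : X N, ((eAt τ0 : ℕ) : ℕ∞) ≤
      analyticOrderAt ((fun z => ∑ a, c a * cj k (F a) x z) ∘ ofComplex) τ0 :=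
  exists_vanishing_combination H2 hk (fun a => (hF a).mdiff)
    (fun a _ hγ => (hF a).slash_eq hγ) τ0 hlt

/-- the conjugates of a linear combination -/
theorem cj_sum_smul (c : X N → ℂ) (F : X N → ℍ → ℂ) (x : X N) :
    cj k (∑ a, c a • F a) x = fun z => ∑ a, c a * cj k (F a) x z := by
  rw [cj_sum]
  funext z
  simp [cj_smul]

theorem f2_le_mu (N : ℕ) [NeZero N] : f2 N ≤ mu N :=
  Nat.card_le_card_of_injective _ Subtype.val_injective

theorem f3_le_mu (N : ℕ) [NeZero N] : f3 N ≤ mu N :=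
  Nat.card_le_card_of_injective _ Subtype.val_injective

theorem sI_two : sI 2 = 1 := by decide
theorem sρ_two : sρ 2 = 2 := by decide
theorem sI_zero : sI 0 = 0 := by decide
theorem sρ_zero : sρ 0 = 0 := by decide

/-- weight `2`, orbit of `i`: `2 * d0 = μ + f₂` -/
theorem two_mul_d0_two_of_I {τ : ℍ} (h : ∃ g : SL(2, ℤ), g • τ = I) :
    2 * d0 N 2 τ = mu N + f2 N := by
  rw [d0_of_I N 2 h, sI_two]
  have h1 := two_dvd_mu_sub_f2 N
  have h2 := f2_le_mu N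
  omega

/-- weight `2`, orbit of `ρ`: `d0 = μ + f₃` -/
theorem d0_two_of_ρ {τ : ℍ} (h : ∃ g : SL(2, ℤ), g • τ = ρ) :
    d0 N 2 τ = mu N + f3 N := by
  rw [d0_of_ρ N 2 h, sρ_two]
  have h2 := f3_le_mu N
  omega

/-- weight `0`, orbit of `i`: `2 * d0 = μ - f₂` -/
theorem two_mul_d0_zero_of_I {τ : ℍ} (h : ∃ g : SL(2, ℤ), g • τ = I) :
    2 * d0 N 0 τ = mu N - f2 N := by
  rw [d0_of_I N 0 h, sI_zero]
  have h1 := two_dvd_mu_sub_f2 N
  omega

omit [NeZero N] in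
/-- weight `0`, orbit of `ρ`: `d0 = μ - f₃` -/
theorem d0_zero_of_ρ {τ : ℍ} (h : ∃ g : SL(2, ℤ), g • τ = ρ) :
    d0 N 0 τ = mu N - f3 N := by
  rw [d0_of_ρ N 0 h, sρ_zero]
  omega

end conv

/-- the ramification index is half the order of the stabiliser -/
theorem eAt_eq (τ : ℍ) : eAt τ = Nat.card (MulAction.stabilizer SL(2, ℤ) τ) / 2 := by
  by_cases h1 : ∃ g : SL(2, ℤ), g • τ = I
  · rw [eAt_of_I h1]
    obtain ⟨g, hg⟩ := h1
    have := card_stabilizer_smul g τ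
    rw [hg, card_stabilizer_I] at this
    omega
  · by_cases h2 : ∃ g : SL(2, ℤ), g • τ = ρ
    · rw [eAt_of_ρ h2]
      obtain ⟨g, hg⟩ := h2
      have := card_stabilizer_smul g τ
      rw [hg, card_stabilizer_ρ] at this
      omega
    · rw [eAt_of_not h1 h2, card_stabilizer_of_not_orbit (fun g hg => h1 ⟨g, hg⟩)
        (fun g hg => h2 ⟨g, hg⟩)]

end Fermat.Agent.S20.LocalGlue
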