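import Fermat.Agent.S20.Defs
import Fermat.Agent.S20_helper90.PermForm

/-!
# T20 / B4 interface: the local gluing property `HasLocalGlue N k`

The statement that B4 (`S20/LocalGlue.lean`) proves and that B5 (`S20/MaximalShape.lean`)
consumes: the forced order of the conjugate determinant at a fixed point of an elliptic element,
the saturation alternative there, and the saturation alternative at an arbitrary point.
-/

set_option autoImplicit false

open UpperHalfPlane ModularForm CongruenceSubgroup Matrix.SpecialLinearGroup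
open scoped MatrixGroups ModularForm Manifold

namespace Fermat.Agent.S20

open Fermat.Agent.S20_helper90 (forcedOrd)

open Classical in
/-- **B4, the local gluing property** (weight `k`).  For every tuple `F` of weakly holomorphic
forms of weight `k` for `Γ₀(N)`:
* (fixed points) if `h • τ₀ = τ₀`, `h ^ e = -1` with `e` prime, `ζ := (denom h τ₀ ^ 2)⁻¹` (the
  derivative of `z ↦ h • z` at `τ₀`) is a primitive `e`-th root of unity and
  `denom h τ₀ ^ k = ζ ^ s`, then the conjugate determinant vanishes at `τ₀` at least to the forced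
  order `forcedOrd e s μ f`, `f` the number of fixed points of `h` on `X N`; and if it vanishes to
  a higher order, some nonzero constant combination of the tuple has all its conjugates vanishing
  to order `≥ e` at `τ₀`;
* (all points) if the conjugate determinant vanishes at `τ₀`, some nonzero constant combination of
  the tuple has all its conjugates vanishing at `τ₀`. -/
def HasLocalGlue (N : ℕ) [NeZero N] (k : ℤ) : Prop :=
  ∀ {n : ℕ} {F : X N → ℍ → ℂ}, (∀ a, IsWH N k n (F a)) →
    (∀ (e s : ℕ) (h : SL(2, ℤ)) (τ0 : ℍ), e.Prime → h • τ0 = τ0 → h ^ e = -1 →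
      IsPrimitiveRoot ((denom h τ0 ^ 2)⁻¹) e → denom h τ0 ^ k = ((denom h τ0 ^ 2)⁻¹) ^ s →
      ((forcedOrd e s (mu N) (Nat.card {x : X N // h • x = x}) : ℕ) : ℕ∞) ≤
          analyticOrderAt (detFun k F ∘ ofComplex) (τ0 : ℂ) ∧
      (((forcedOrd e s (mu N) (Nat.card {x : X N // h • x = x}) : ℕ) : ℕ∞) <
          analyticOrderAt (detFun k F ∘ ofComplex) (τ0 : ℂ) →
        ∃ c : X N → ℂ, c ≠ 0 ∧ ∀ x : X N, (e : ℕ∞) ≤
          analyticOrderAt ((fun z => ∑ a, c a * cj k (F a) x z) ∘ ofComplex) (τ0 : ℂ))) ∧
    (∀ τ0 : ℍ, 0 < analyticOrderAt (detFun k F ∘ ofComplex) (τ0 : ℂ) →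
      ∃ c : X N → ℂ, c ≠ 0 ∧ ∀ x : X N, 1 ≤
        analyticOrderAt ((fun z => ∑ a, c a * cj k (F a) x z) ∘ ofComplex) (τ0 : ℂ))

end Fermat.Agent.S20
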