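import Fermat.Agent.S20.LocalGlueDef
import Fermat.Agent.S20_helper90.Chart

/-!
# T20 / B4: the local gluing property `HasLocalGlue N k`

Instantiation of the local determinant lemma (`S20_helper90/Chart.lean`) at the fixed point of an
elliptic element `h` with `h ^ e = -1`, and at generic points.
-/

set_option autoImplicit false

open UpperHalfPlane ModularForm CongruenceSubgroup Matrix.SpecialLinearGroup
open scoped MatrixGroups ModularForm Manifold

namespace Fermat.Agent.S20

open Fermat.Agent.S20_helper90 (forcedOrd detFun_order_ge_of_stabilizer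
  exists_combination_of_stabilizer exists_combination_generic)

namespace LocalGlueMain

/-- `-1 ∈ Γ₀(N)`. -/
lemma neg_one_mem_Gamma0 (N : ℕ) : (-1 : SL(2, ℤ)) ∈ Gamma0 N := by
  rw [Gamma0_mem]
  simp

/-- `-1` acts trivially on `SL(2, ℤ) ⧸ Γ₀(N)`. -/
lemma neg_one_smul_X {N : ℕ} (x : X N) : (-1 : SL(2, ℤ)) • x = x := by
  induction x using QuotientGroup.induction_on with
  | H g =>
    have h1 : (-1 : SL(2, ℤ)) • ((g : SL(2, ℤ)) : X N) = (((-1 : SL(2, ℤ)) * g : SL(2, ℤ)) : X N) :=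
      rfl
    rw [h1, QuotientGroup.eq]
    have h2 : ((-1 : SL(2, ℤ)) * g)⁻¹ * g = -1 := by
      have : (-1 : SL(2, ℤ)) * g = -g := by simp
      rw [this]
      ext i j
      simp
    rw [h2]
    exact neg_one_mem_Gamma0 N

/-- If `h ^ e = -1` then the permutation of `X N` induced by `h⁻¹` has order dividing `e`. -/
lemma toPerm_inv_pow_eq_one {N : ℕ} {h : SL(2, ℤ)} {e : ℕ} (hpow : h ^ e = -1) :
    (MulAction.toPerm h⁻¹ : Equiv.Perm (X N)) ^ e = 1 := by
  have h1 : (MulAction.toPerm h⁻¹ : Equiv.Perm (X N)) ^ e = MulAction.toPerm ((h⁻¹) ^ e) :=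
    (map_pow (MulAction.toPermHom SL(2, ℤ) (X N)) h⁻¹ e).symm
  rw [h1, inv_pow, hpow]
  ext x
  rw [MulAction.toPerm_apply, Equiv.Perm.one_apply, inv_smul_eq_iff, neg_one_smul_X]

/-- `h` and `h⁻¹` have the same fixed points. -/
lemma card_fixed_inv {N : ℕ} (h : SL(2, ℤ)) :
    Nat.card {x : X N // h • x = x} = Nat.card {x : X N // h⁻¹ • x = x} :=
  Nat.card_congr (Equiv.subtypeEquivRight fun x => by rw [inv_smul_eq_iff, eq_comm])

end LocalGlueMain

open LocalGlueMain in
/-- **B4**: the local gluing property. -/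
theorem hasLocalGlue (N : ℕ) [NeZero N] (k : ℤ) : HasLocalGlue N k := by
  intro n F hF
  have hinv : ∀ a, ∀ γ ∈ Gamma0 N, F a ∣[k] γ = F a := fun a γ hγ => (hF a).slash_eq hγ
  have hmd : ∀ a, MDiff (F a) := fun a => (hF a).mdiff
  refine ⟨fun e s h τ0 he hfix hpow hζ hs => ?_,
    fun τ0 hlt => exists_combination_generic hmd τ0 hlt⟩
  have hπ : (MulAction.toPerm h⁻¹ : Equiv.Perm (X N)) ^ e = 1 := toPerm_inv_pow_eq_one hpow
  rw [mu_eq_card, card_fixed_inv h]
  exact ⟨detFun_order_ge_of_stabilizer hinv hmd h τ0 hfix he hζ hπ s hs,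
    exists_combination_of_stabilizer hinv hmd h τ0 hfix he hζ hπ s hs⟩

end Fermat.Agent.S20
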