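import Fermat.Agent.S20.MaximalShape
import Fermat.Agent.S20.LocalGlueMain

/-!
# T20 route (I) complete: `hasMaximalShape N : HasMaximalShape N`
-/

set_option autoImplicit false

namespace Fermat.Agent.S20

/-- **B3 + B4 + B5**: there is a tuple of weakly holomorphic forms of weight `2` for `Γ₀(N)` whose
squared conjugate determinant is `C E₄^(2(μ+f₃)) E₆^(μ+f₂) Δ^γ`. -/
theorem hasMaximalShape (N : ℕ) [NeZero N] : HasMaximalShape N :=
  hasMaximalShape_of N (hasLocalGlue N 2)

end Fermat.Agent.S20
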