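import Fermat.Agent.S20.CuspQ
import Fermat.Agent.S20.MaximalShapeMain

/-!
# T20: the lower bound `genusFormula N ≤ dim S₂(Γ₀(N))`, unconditional
-/

set_option autoImplicit false

namespace Fermat.Agent.S20

namespace LowerBound

/-- C2: the cusp matrix property, unconditional. -/
theorem hasCuspMatrix_main (N : ℕ) [NeZero N] : HasCuspMatrix N :=
  hasCuspMatrix_of_Q N (hasCuspQ N)

/-- **The lower bound for the dimension of `S₂(Γ₀(N))`.** -/
theorem genusFormula_le (N : ℕ) [NeZero N] :
    ModularCurve.genusFormula N ≤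
      (Module.finrank ℂ (CuspForm (CongruenceSubgroup.Gamma0 N) 2) : ℚ) :=
  genusFormula_le_of N (hasMaximalShape N) (hasCuspMatrix_main N)

end LowerBound

end Fermat.Agent.S20
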