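import Fermat.Agent.S20.Division

/-!
# T20 / B3 (b): tuples of weakly holomorphic forms with maximal `q`-order of the determinant

* `exists_improved_tuple` : if a combination `∑ c a • F a` of a tuple has all its conjugates
  vanishing at `τ₀` to the order of `j - j(τ₀)`, one may replace one member of the tuple by
  `(∑ c a • F a) / (j - j(τ₀))`; the conjugate determinant is divided by `j - j(τ₀)` (up to a
  nonzero constant).
* `isBoundedAtImInfty_shift` : this raises the `q`-order of the squared determinant by `2`.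
* `exists_maximal_tuple` : consequently a tuple with maximal `q`-order has the forced vanishing
  orders at every point of `ℍ` (the inputs A4(a), B2, B4 are explicit hypotheses).
-/

set_option autoImplicit false

open UpperHalfPlane ModularForm CongruenceSubgroup Matrix.SpecialLinearGroup Filter Topology
open scoped MatrixGroups ModularForm Manifold

namespace Fermat.Agent.S20

open Fermat.Agent.S23 (G0 IsMF IsCF)
open Fermat.Agent.LevelOne_helper29 (jInv)

local notation "Δ" => ModularForm.discriminant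

open Classical

section

variable {N : ℕ} [NeZero N] {k : ℤ} {n : ℕ}

omit [NeZero N] in
/-- conjugates of `(j - j(τ₀)) * f` -/
lemma cj_jSub_mul (τ0 : ℍ) (f : ℍ → ℂ) (x : X N) :
    cj k (jSub τ0 * f) x = jSub τ0 * cj k f x := by
  have h := cj_mul (k₁ := 0) (k₂ := k) (f := jSub τ0) (g := f) x
  rw [zero_add, cj_levelOne (fun γ => jSub_slash τ0 γ)] at h
  exact h

omit [NeZero N] in
/-- the conjugate matrix of an updated tuple -/
lemma conjMat_update (F : X N → ℍ → ℂ) (a0 : X N) (f : ℍ → ℂ) (z : ℍ) :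
    conjMat k (Function.update F a0 f) z =
      (conjMat k F z).updateRow a0 (fun x => cj k f x z) := by
  ext a x
  by_cases h : a = a0
  · subst h
    simp [conjMat]
  · simp [conjMat, Matrix.updateRow_ne h, Function.update_of_ne h]

/-- **Improving a tuple.**  If the combination `∑ c a • F a` has all conjugates vanishing at `τ₀`
to the order of `j - j(τ₀)`, there is a new tuple whose determinant is (a nonzero constant times)
the old determinant divided by `j - j(τ₀)`. -/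
theorem exists_improved_tuple {F : X N → ℍ → ℂ} (hF : ∀ a, IsWH N k n (F a)) (τ0 : ℍ)
    {c : X N → ℂ} (hc : c ≠ 0)
    (hord : ∀ x : X N, analyticOrderAt ((fun z => jInv z - jInv τ0) ∘ ofComplex) (τ0 : ℂ) ≤
      analyticOrderAt ((fun z => ∑ a, c a * cj k (F a) x z) ∘ ofComplex) (τ0 : ℂ)) :
    ∃ (F' : X N → ℍ → ℂ) (C : ℂ), (∀ a, IsWH N k n (F' a)) ∧ C ≠ 0 ∧
      ∀ z, (jInv z - jInv τ0) * detFun k F' z = C * detFun k F z := by
  obtain ⟨a0, ha0⟩ : ∃ a0, c a0 ≠ 0 := by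
    by_contra hcon
    push Not at hcon
    exact hc (funext hcon)
  -- the combination
  set G : ℍ → ℂ := ∑ a, c a • F a with hG
  have hGwh : IsWH N k n G := IsWH.sum _ fun a _ => (hF a).smul (c a)
  have hGcj : ∀ x : X N, cj k G x = fun z => ∑ a, c a * cj k (F a) x z := by
    intro x
    rw [hG, cj_sum]
    funext z
    rw [Finset.sum_apply]
    refine Finset.sum_congr rfl fun a _ => ?_
    rw [cj_smul]
    rfl
  obtain ⟨G', hG'wh, hG'eq⟩ := exists_isWH_div hGwh τ0 (fun x => by rw [hGcj x]; exact hord x)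
  have hGfun : G = jSub τ0 * G' := funext fun z => by
    rw [hG'eq z]
    rfl
  refine ⟨Function.update F a0 G', c a0, fun a => ?_, ha0, fun z => ?_⟩
  · by_cases h : a = a0
    · subst h
      rw [Function.update_self]
      exact hG'wh
    · rw [Function.update_of_ne h]
      exact hF a
  · unfold detFun
    rw [conjMat_update, ← Matrix.det_updateRow_smul]
    have hrow : (jInv z - jInv τ0) • (fun x : X N => cj k G' x z) =
        ∑ a, c a • (conjMat k F z) a := by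
      funext x
      have h1 := congrFun (cj_jSub_mul (k := k) τ0 G' x) z
      rw [← hGfun, hGcj x] at h1
      simp only [Pi.smul_apply, smul_eq_mul, Finset.sum_apply]
      simp only [Pi.mul_apply, jSub_apply] at h1
      rw [← h1]
      rfl
    rw [hrow, Matrix.det_updateRow_sum, smul_eq_mul]

end

/-! ### The effect on the order at `i∞` -/

lemma tendsto_discriminant_mul_jSub (τ0 : ℍ) :
    Tendsto (fun z : ℍ => Δ z * jSub τ0 z) atImInfty (𝓝 1) := by
  have h4 : Tendsto (fun z : ℍ => E₄ z) atImInfty (𝓝 1) := LevelOne_helper29.tendsto_E4_atImInfty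
  have hΔ : Tendsto (fun z : ℍ => Δ z) atImInfty (𝓝 0) := discriminant_isZeroAtImInfty
  have h : Tendsto (fun z : ℍ => E₄ z ^ 3 - jInv τ0 * Δ z) atImInfty (𝓝 (1 ^ 3 - jInv τ0 * 0)) :=
    (h4.pow 3).sub (hΔ.const_mul _)
  have h1 : (1 : ℂ) ^ 3 - jInv τ0 * 0 = 1 := by ring
  rw [h1] at h
  refine h.congr fun z => ?_
  have hz : jInv z = E₄ z ^ 3 / Δ z := rfl
  rw [jSub_apply, hz, mul_sub, mul_div_cancel₀ _ (discriminant_ne_zero z)]
  ring

lemma isBoundedAtImInfty_inv_discriminant_mul_jSub (τ0 : ℍ) :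
    IsBoundedAtImInfty (fun z : ℍ => (Δ z * jSub τ0 z)⁻¹) := by
  have h : Tendsto (fun z : ℍ => (Δ z * jSub τ0 z)⁻¹) atImInfty (𝓝 (1 : ℂ)⁻¹) :=
    (tendsto_discriminant_mul_jSub τ0).inv₀ one_ne_zero
  exact h.isBigO_one ℝ

/-- Dividing by `j - j(τ₀)` raises the `q`-order of the square by `2`. -/
theorem isBoundedAtImInfty_shift {D D' : ℍ → ℂ} {τ0 : ℍ} {C : ℂ} {m : ℤ}
    (h : ∀ z, (jInv z - jInv τ0) * D' z = C * D z)
    (hb : IsBoundedAtImInfty (fun z => Δ z ^ (-m) * D z ^ 2)) :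
    IsBoundedAtImInfty (fun z => Δ z ^ (-(m + 2)) * D' z ^ 2) := by
  have hW := isBoundedAtImInfty_inv_discriminant_mul_jSub τ0
  have hprod : IsBoundedAtImInfty
      ((fun _ : ℍ => C ^ 2) * ((fun z => Δ z ^ (-m) * D z ^ 2) *
        ((fun z : ℍ => (Δ z * jSub τ0 z)⁻¹) * (fun z : ℍ => (Δ z * jSub τ0 z)⁻¹)))) :=
    (Filter.const_boundedAtFilter _ (C ^ 2)).mul (hb.mul (hW.mul hW))
  refine hprod.congr' ?_ EventuallyEq.rfl
  filter_upwards [eventually_jSub_ne_zero τ0] with z hz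
  have hΔ : Δ z ≠ 0 := discriminant_ne_zero z
  have hz' : jInv z - jInv τ0 ≠ 0 := hz
  have h3 : C ^ 2 * D z ^ 2 = (jInv z - jInv τ0) ^ 2 * D' z ^ 2 := by
    rw [← mul_pow, ← mul_pow, h z]
  simp only [Pi.mul_apply, jSub_apply]
  rw [neg_add, zpow_add₀ hΔ, zpow_neg (Δ z) 2, zpow_ofNat]
  generalize Δ z ^ (-m) = A
  generalize jInv z - jInv τ0 = J at hz' h3 ⊢
  calc C ^ 2 * (A * D z ^ 2 * ((Δ z * J)⁻¹ * (Δ z * J)⁻¹))
      = A * (C ^ 2 * D z ^ 2) * ((Δ z * J)⁻¹ * (Δ z * J)⁻¹) := by ring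
    _ = A * (J ^ 2 * D' z ^ 2) * ((Δ z * J)⁻¹ * (Δ z * J)⁻¹) := by rw [h3]
    _ = A * (Δ z ^ 2)⁻¹ * D' z ^ 2 := by
      field_simp

/-! ### Maximal tuples -/

section

variable {N : ℕ} [NeZero N] {k : ℤ}

/-- `Δ ^ (2 n μ) * 𝔻_F ^ 2` is bounded at `i∞`, in the `zpow` shape. -/
lemma isBoundedAtImInfty_zpow_mul_detFun_sq {n : ℕ} {F : X N → ℍ → ℂ}
    (hF : ∀ a, IsWH N k n (F a)) :
    IsBoundedAtImInfty (fun z => Δ z ^ (-(-(2 * (n * mu N) : ℕ) : ℤ)) * detFun k F z ^ 2) := by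
  have h := (isBoundedAtImInfty_dpow_mul_detFun hF).mul (isBoundedAtImInfty_dpow_mul_detFun hF)
  refine h.congr' (Eventually.of_forall fun z => ?_) EventuallyEq.rfl
  simp only [Pi.mul_apply, dpow_apply, neg_neg, zpow_natCast]
  ring

/-- **Maximal tuples** (T20 / B3 (b)).  Inputs as explicit hypotheses:
* `hA4` : A4 (a), a nonzero level-one weakly holomorphic form `f` of weight `w` with
  `Δ ^ (-m) * f` bounded at `i∞` has `12 m ≤ w`;
* `hB2` : B2, existence of a tuple with nonvanishing determinant;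
* `hB4` : B4, (L1') + (L2'), if the order of the determinant at `τ₀` is not the forced one `d0 τ₀`
  there is a nonzero combination all of whose conjugates vanish at `τ₀` to the order of
  `j - j(τ₀)`.
Conclusion: there is a tuple whose determinant has exactly the forced order at every point. -/
theorem exists_maximal_tuple (d0 : ℍ → ℕ∞)
    (hA4 : ∀ (w m : ℤ) (f : ℍ → ℂ), MDiff f → (∀ γ : SL(2, ℤ), f ∣[w] γ = f) → f ≠ 0 →
      IsBoundedAtImInfty (fun z => Δ z ^ (-m) * f z) → 12 * m ≤ w)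
    (hB2 : ∃ (n : ℕ) (F : X N → ℍ → ℂ), (∀ a, IsWH N k n (F a)) ∧ ∃ z : ℍ, detFun k F z ≠ 0)
    (hB4 : ∀ (n : ℕ) (F : X N → ℍ → ℂ), (∀ a, IsWH N k n (F a)) → (∃ z : ℍ, detFun k F z ≠ 0) →
      ∀ τ0 : ℍ, analyticOrderAt (detFun k F ∘ ofComplex) (τ0 : ℂ) ≠ d0 τ0 →
      ∃ c : X N → ℂ, c ≠ 0 ∧ ∀ x : X N,
        analyticOrderAt ((fun z => jInv z - jInv τ0) ∘ ofComplex) (τ0 : ℂ) ≤
          analyticOrderAt ((fun z => ∑ a, c a * cj k (F a) x z) ∘ ofComplex) (τ0 : ℂ)) :
    ∃ (n : ℕ) (F : X N → ℍ → ℂ), (∀ a, IsWH N k n (F a)) ∧ (∃ z : ℍ, detFun k F z ≠ 0) ∧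
      ∀ τ0 : ℍ, analyticOrderAt (detFun k F ∘ ofComplex) (τ0 : ℂ) = d0 τ0 := by
  -- the set of achievable `q`-orders of the squared determinant
  set P : ℤ → Prop := fun m => ∃ (n : ℕ) (F : X N → ℍ → ℂ), (∀ a, IsWH N k n (F a)) ∧
    (∃ z : ℍ, detFun k F z ≠ 0) ∧
    IsBoundedAtImInfty (fun z => Δ z ^ (-m) * detFun k F z ^ 2) with hP
  have hbdd : ∃ b : ℤ, ∀ m : ℤ, P m → m ≤ b := by
    refine ⟨(2 * k * (mu N : ℤ)) / 12, ?_⟩
    rintro m ⟨n, F, hF, ⟨z, hz⟩, hb⟩
    have hinvF : ∀ a, ∀ γ ∈ Gamma0 N, F a ∣[k] γ = F a := fun a γ hγ => (hF a).slash_eq hγ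
    have hmd : MDiff (fun z => detFun k F z ^ 2) := (mdiff_detFun fun a => (hF a).mdiff).pow 2
    have hne : (fun z => detFun k F z ^ 2) ≠ 0 := by
      intro h0
      have := congrFun h0 z
      simp only [Pi.zero_apply] at this
      exact hz ((pow_eq_zero_iff (two_ne_zero)).mp this)
    have h12 := hA4 (2 * k * (mu N : ℤ)) m _ hmd (fun γ => detFun_sq_slash hinvF γ) hne hb
    exact Int.le_ediv_of_mul_le (by norm_num) (by rw [mul_comm]; exact h12)
  have hinh : ∃ m : ℤ, P m := by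
    obtain ⟨n, F, hF, hz⟩ := hB2
    exact ⟨_, n, F, hF, hz, isBoundedAtImInfty_zpow_mul_detFun_sq hF⟩
  obtain ⟨m, ⟨n, F, hF, hz, hb⟩, hmax⟩ := Int.exists_greatest_of_bdd hbdd hinh
  refine ⟨n, F, hF, hz, fun τ0 => ?_⟩
  by_contra hne
  obtain ⟨c, hc, hord⟩ := hB4 n F hF hz τ0 hne
  obtain ⟨F', C, hF', hC, hdet⟩ := exists_improved_tuple hF τ0 hc hord
  have hz' : ∃ z : ℍ, detFun k F' z ≠ 0 := by
    obtain ⟨z, hz⟩ := hz
    refine ⟨z, fun h0 => ?_⟩
    have := hdet z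
    rw [h0, mul_zero] at this
    exact (mul_ne_zero hC hz) this.symm
  have hPm : P (m + 2) := ⟨n, F', hF', hz', isBoundedAtImInfty_shift hdet hb⟩
  have := hmax _ hPm
  omega

end

end Fermat.Agent.S20
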