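/-
T20 / B2 (helper10): existence of a tuple of weakly holomorphic forms with non-vanishing determinant.
-/
import Mathlib
import Fermat.Agent.S23.Basic
import Fermat.Agent.S23.FormT
import Fermat.Agent.S20.Defs

set_option autoImplicit false

open UpperHalfPlane ModularForm EisensteinSeries MatrixGroups Filter Topology
open scoped Manifold

namespace Fermat.Agent.S20.Tuple

local notation "Δ" => ModularForm.discriminant

/-! ### Finite families of nonzero holomorphic functions on `ℍ` have a common non-zero -/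

theorem analyticOnNhd_comp_ofComplex {f : ℍ → ℂ} (hf : MDiff f) :
    AnalyticOnNhd ℂ (f ∘ ofComplex) upperHalfPlaneSet :=
  (UpperHalfPlane.mdifferentiable_iff.mp hf).analyticOnNhd isOpen_upperHalfPlaneSet

theorem isPreconnected_upperHalfPlaneSet' : IsPreconnected upperHalfPlaneSet :=
  Convex.isPreconnected (convex_halfSpace_im_gt 0)

theorem exists_prod_ne_zero {ι : Type*} (s : Finset ι) (f : ι → ℍ → ℂ) (hf : ∀ i ∈ s, MDiff (f i))
    (hne : ∀ i ∈ s, f i ≠ 0) : ∃ z : ℍ, ∏ i ∈ s, f i z ≠ 0 := by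
  classical
  induction s using Finset.induction_on with
  | empty => exact ⟨UpperHalfPlane.I, by simp⟩
  | insert a s ha ih =>
    have ih' := ih (fun i hi => hf i (Finset.mem_insert_of_mem hi))
      (fun i hi => hne i (Finset.mem_insert_of_mem hi))
    by_contra hcon
    push Not at hcon
    have hfa := analyticOnNhd_comp_ofComplex (hf a (Finset.mem_insert_self a s))
    have hprod : AnalyticOnNhd ℂ (fun w => ∏ i ∈ s, (f i ∘ ofComplex) w) upperHalfPlaneSet := by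
      have := Finset.analyticOnNhd_prod (𝕜 := ℂ) (f := fun i => f i ∘ ofComplex) s
        (fun i hi => analyticOnNhd_comp_ofComplex (hf i (Finset.mem_insert_of_mem hi)))
      have heq : (fun w => ∏ i ∈ s, (f i ∘ ofComplex) w) = ∏ n ∈ s, f n ∘ ofComplex := by
        funext w
        simp [Finset.prod_apply]
      rw [heq]
      exact this
    have hmul : ∀ w ∈ upperHalfPlaneSet,
        (f a ∘ ofComplex) w * (∏ i ∈ s, (f i ∘ ofComplex) w) = 0 := by
      intro w hw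
      have := hcon ⟨w, hw⟩
      rw [Finset.prod_insert ha] at this
      simpa [Function.comp, ofComplex_apply_of_im_pos hw] using this
    rcases hfa.eq_zero_or_eq_zero_of_mul_eq_zero hprod hmul isPreconnected_upperHalfPlaneSet' with
      h | h
    · apply hne a (Finset.mem_insert_self a s)
      funext z
      have := h z z.2
      simpa [Function.comp] using this
    · obtain ⟨z, hz⟩ := ih'
      apply hz
      have := h z z.2
      simpa [Function.comp] using this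

theorem exists_forall_ne_zero {ι : Type*} [Finite ι] (f : ι → ℍ → ℂ) (hf : ∀ i, MDiff (f i))
    (hne : ∀ i, f i ≠ 0) : ∃ z : ℍ, ∀ i, f i z ≠ 0 := by
  classical
  have := Fintype.ofFinite ι
  obtain ⟨z, hz⟩ := exists_prod_ne_zero Finset.univ f (fun i _ => hf i) (fun i _ => hne i)
  exact ⟨z, fun i => (Finset.prod_ne_zero_iff.mp hz) i (Finset.mem_univ i)⟩

/-! ### The Vandermonde-type determinant -/

theorem det_pow_mul_ne_zero {X : Type*} [Fintype X] [DecidableEq X] (e : X ≃ Fin (Fintype.card X))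
    (v : X → ℂ) (hv : Function.Injective v) (l : X → ℂ) (hl : ∀ a, l a ≠ 0) :
    Matrix.det (Matrix.of fun a x => v x ^ (e a : ℕ) * l a) ≠ 0 := by
  have h1 : (Matrix.of fun a x => v x ^ (e a : ℕ) * l a)
      = Matrix.diagonal l * Matrix.of fun a x => v x ^ (e a : ℕ) := by
    ext a x
    simp [Matrix.diagonal_mul, mul_comm]
  rw [h1, Matrix.det_mul, Matrix.det_diagonal]
  refine mul_ne_zero (Finset.prod_ne_zero_iff.mpr fun a _ => hl a) ?_
  have h2 : ((Matrix.of fun a x => v x ^ (e a : ℕ)).submatrix e.symm e.symm)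
      = (Matrix.vandermonde (v ∘ e.symm)).transpose := by
    ext i j
    simp [Matrix.vandermonde_apply]
  rw [← Matrix.det_submatrix_equiv_self e.symm, h2, Matrix.det_transpose,
    Matrix.det_vandermonde_ne_zero_iff]
  exact hv.comp e.symm.injective

/-! ### Level-one building blocks -/

open Fermat.Agent.S23

theorem E4_smul (γ : SL(2, ℤ)) (τ : ℍ) :
    E₄ (γ • τ) = denom (γ : GL (Fin 2) ℝ) τ ^ (4 : ℤ) * E₄ τ := by
  have hγ : (γ : GL (Fin 2) ℝ) ∈ 𝒮ℒ := ⟨γ, rfl⟩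
  exact SlashInvariantForm.slash_action_eqn'' E₄ hγ τ

theorem E6_smul (γ : SL(2, ℤ)) (τ : ℍ) :
    E₆ (γ • τ) = denom (γ : GL (Fin 2) ℝ) τ ^ (6 : ℤ) * E₆ τ := by
  have hγ : (γ : GL (Fin 2) ℝ) ∈ 𝒮ℒ := ⟨γ, rfl⟩
  exact SlashInvariantForm.slash_action_eqn'' E₆ hγ τ

theorem discriminant_smul (γ : SL(2, ℤ)) (τ : ℍ) :
    Δ (γ • τ) = denom (γ : GL (Fin 2) ℝ) τ ^ (12 : ℤ) * Δ τ := by
  have hγ : (γ : GL (Fin 2) ℝ) ∈ 𝒮ℒ := ⟨γ, rfl⟩
  exact SlashInvariantForm.slash_action_eqn'' CuspForm.discriminant hγ τ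

/-- The level-one weakly holomorphic monomial `(E₄² E₆)^p Δ^m` of weight `14 p + 12 m`. -/
noncomputable def mono (p : ℕ) (m : ℤ) (z : ℍ) : ℂ := (E₄ z ^ 2 * E₆ z) ^ p * Δ z ^ m

theorem mono_smul (p : ℕ) (m : ℤ) (γ : SL(2, ℤ)) (τ : ℍ) :
    mono p m (γ • τ) = denom (γ : GL (Fin 2) ℝ) τ ^ (14 * (p : ℤ) + 12 * m) * mono p m τ := by
  have hd : denom (γ : GL (Fin 2) ℝ) τ ≠ 0 := denom_ne_zero _ τ
  unfold mono
  rw [E4_smul, E6_smul, discriminant_smul, zpow_add₀ hd, zpow_mul, zpow_mul, mul_zpow]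
  have h14 : denom (γ : GL (Fin 2) ℝ) τ ^ (14 : ℤ)
      = (denom (γ : GL (Fin 2) ℝ) τ ^ (4 : ℤ)) ^ 2 * denom (γ : GL (Fin 2) ℝ) τ ^ (6 : ℤ) := by
    rw [← zpow_natCast, ← zpow_mul, ← zpow_add₀ hd]; norm_num
  rw [h14, zpow_natCast]
  ring

theorem mono_ne_zero {z : ℍ} (h4 : E₄ z ≠ 0) (h6 : E₆ z ≠ 0) (p : ℕ) (m : ℤ) : mono p m z ≠ 0 :=
  mul_ne_zero (pow_ne_zero _ (mul_ne_zero (pow_ne_zero _ h4) h6))
    (zpow_ne_zero _ (discriminant_ne_zero z))

/-! ### The tuple -/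

/-- `T(z)^e * (E₄² E₆)^p Δ^m`, a weakly holomorphic form of weight `4 e + 14 p + 12 m`
on `Γ₀(N)`. -/
noncomputable def tupleFun (N e p : ℕ) (m : ℤ) (z : ℍ) : ℂ := FormT.T N z ^ e * mono p m z

theorem tupleFun_slash (N e p : ℕ) (m k : ℤ) (hk : k = 4 * e + 14 * p + 12 * m)
    (γ : SL(2, ℤ)) (z : ℍ) :
    ((tupleFun N e p m) ∣[k] γ) z = ((FormT.T N ∣[(4 : ℤ)] γ) z) ^ e * mono p m z := by
  have hd : denom (γ : GL (Fin 2) ℝ) z ≠ 0 := denom_ne_zero _ z
  rw [SL_slash_apply, SL_slash_apply]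
  unfold tupleFun
  rw [mono_smul, mul_pow, ← zpow_natCast (denom (γ : GL (Fin 2) ℝ) z ^ (-(4 : ℤ))), ← zpow_mul]
  have h1 : denom (γ : GL (Fin 2) ℝ) z ^ (14 * (p : ℤ) + 12 * m) * denom (γ : GL (Fin 2) ℝ) z ^ (-k)
      = denom (γ : GL (Fin 2) ℝ) z ^ (-(4 : ℤ) * (e : ℤ)) := by
    rw [← zpow_add₀ hd]
    congr 1
    rw [hk]; ring
  calc FormT.T N (γ • z) ^ e
        * (denom (γ : GL (Fin 2) ℝ) z ^ (14 * (p : ℤ) + 12 * m) * mono p m z)
        * denom (γ : GL (Fin 2) ℝ) z ^ (-k)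
      = FormT.T N (γ • z) ^ e * mono p m z
        * (denom (γ : GL (Fin 2) ℝ) z ^ (14 * (p : ℤ) + 12 * m)
          * denom (γ : GL (Fin 2) ℝ) z ^ (-k)) := by ring
    _ = _ := by rw [h1]; ring

theorem G0_le_SL (N : ℕ) : G0 N ≤ 𝒮ℒ := by
  rintro _ ⟨γ, _, rfl⟩
  exact ⟨γ, rfl⟩

/-- `Δ^n * tupleFun` is a holomorphic modular form as soon as `0 ≤ m + n`. -/
theorem isMF_discriminant_pow_mul_tupleFun (N : ℕ) [NeZero N] (e p : ℕ) (m k : ℤ)
    (hk : k = 4 * e + 14 * p + 12 * m) (n : ℕ) (hn : 0 ≤ m + n) :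
    IsMF (G0 N) (k + 12 * n) (fun z => Δ z ^ n * tupleFun N e p m z) := by
  obtain ⟨j, hj⟩ := Int.eq_ofNat_of_zero_le hn
  have hT : IsMF (G0 N) ((e : ℤ) * 4) (FormT.T N ^ e) := (FormT.isMF_T N).pow e
  have h4 : IsMF (G0 N) 4 (E₄ : ℍ → ℂ) := (ModularForm.isMF E₄).mono (G0_le_SL N)
  have h6 : IsMF (G0 N) 6 (E₆ : ℍ → ℂ) := (ModularForm.isMF E₆).mono (G0_le_SL N)
  have h12 : IsMF (G0 N) 12 (Δ : ℍ → ℂ) :=
    ((CuspForm.isCF CuspForm.discriminant).isMF).mono (G0_le_SL N)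
  have hP : IsMF (G0 N) ((p : ℤ) * ((2 : ℕ) * 4 + 6)) (((E₄ : ℍ → ℂ) ^ 2 * (E₆ : ℍ → ℂ)) ^ p) :=
    ((h4.pow 2).mul h6).pow p
  have hD : IsMF (G0 N) ((j : ℤ) * 12) ((Δ : ℍ → ℂ) ^ j) := h12.pow j
  have hall := hT.mul (hP.mul hD)
  have hw : (e : ℤ) * 4 + ((p : ℤ) * ((2 : ℕ) * 4 + 6) + (j : ℤ) * 12) = k + 12 * n := by
    rw [hk]; push_cast; linarith
  have hfun : (FormT.T N ^ e * (((E₄ : ℍ → ℂ) ^ 2 * (E₆ : ℍ → ℂ)) ^ p * (Δ : ℍ → ℂ) ^ j))
      = fun z => Δ z ^ n * tupleFun N e p m z := by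
    funext z
    have hΔ : Δ z ≠ 0 := discriminant_ne_zero z
    have : Δ z ^ j = Δ z ^ n * Δ z ^ m := by
      rw [← zpow_natCast, ← zpow_natCast, ← zpow_add₀ hΔ, ← hj, add_comm]
    simp only [Pi.mul_apply, Pi.pow_apply, tupleFun, mono, this]
    ring
  rw [← hfun]
  exact hall.congr_weight hw

/-! ### Distinct conjugates of `T` -/

open CongruenceSubgroup

theorem mapGL_mem_G0_iff (N : ℕ) (γ : SL(2, ℤ)) :
    (Matrix.SpecialLinearGroup.mapGL ℝ γ) ∈ G0 N ↔ γ ∈ Gamma0 N :=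
  Subgroup.mem_map_iff_mem Matrix.SpecialLinearGroup.mapGL_injective

/-- Conjugates of `T` along distinct cosets are distinct functions. -/
theorem T_slash_inv_ne (N : ℕ) [NeZero N] {g h : SL(2, ℤ)}
    (hgh : (g : SL(2, ℤ) ⧸ Gamma0 N) ≠ (h : SL(2, ℤ) ⧸ Gamma0 N)) :
    FormT.T N ∣[(4 : ℤ)] g⁻¹ ≠ FormT.T N ∣[(4 : ℤ)] h⁻¹ := by
  intro heq
  apply hgh
  rw [QuotientGroup.eq]
  by_contra hmem
  have hmem' : (Matrix.SpecialLinearGroup.mapGL ℝ (g⁻¹ * h)) ∉ G0 N := by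
    rwa [mapGL_mem_G0_iff]
  have h1 := FormT.T_slash_ne N _ ⟨g⁻¹ * h, rfl⟩ hmem'
  apply h1
  have h2 : FormT.T N ∣[(4 : ℤ)] (g⁻¹ * h) = FormT.T N ∣[(4 : ℤ)] (h⁻¹ * h) := by
    rw [SlashAction.slash_mul, SlashAction.slash_mul, heq]
  rw [inv_mul_cancel, SlashAction.slash_one] at h2
  exact h2

/-! ### Main theorem -/

/-- **B2**: for every even weight `k` there is a tuple `F : X_N → ℍ → ℂ` of weakly holomorphic
forms of weight `k` on `Γ₀(N)` (each `Δ^n * F a` is a holomorphic modular form of weight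
`k + 12 n`), such that the matrix of conjugates `(F a ∣[k] (r x)⁻¹) z` has non-zero determinant
at some point `z`, for any system `r` of coset representatives. -/
theorem exists_tuple (N : ℕ) [NeZero N] {k : ℤ} (hk : Even k)
    [Fintype (SL(2, ℤ) ⧸ Gamma0 N)] [DecidableEq (SL(2, ℤ) ⧸ Gamma0 N)]
    (r : SL(2, ℤ) ⧸ Gamma0 N → SL(2, ℤ)) (hr : ∀ x, (r x : SL(2, ℤ) ⧸ Gamma0 N) = x) :
    ∃ (n : ℕ) (F : SL(2, ℤ) ⧸ Gamma0 N → ℍ → ℂ),
      (∀ a, IsMF (G0 N) (k + 12 * n) (fun z => Δ z ^ n * F a z)) ∧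
      (∀ a, MDiff (F a)) ∧
      (∀ a (γ : SL(2, ℤ)), γ ∈ Gamma0 N → F a ∣[k] γ = F a) ∧
      ∃ z : ℍ, Matrix.det (Matrix.of fun a x => (F a ∣[k] (r x)⁻¹) z) ≠ 0 := by
  obtain ⟨κ, hκ⟩ := hk
  set c : ℕ := Fintype.card (SL(2, ℤ) ⧸ Gamma0 N) with hc
  let e : SL(2, ℤ) ⧸ Gamma0 N ≃ Fin c := Fintype.equivFin _
  let u : SL(2, ℤ) ⧸ Gamma0 N → ℤ := fun a => κ - 2 * ((e a : ℕ) : ℤ)
  let p : SL(2, ℤ) ⧸ Gamma0 N → ℕ := fun a => (u a % 6).toNat
  let m : SL(2, ℤ) ⧸ Gamma0 N → ℤ := fun a => u a / 6 - u a % 6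
  let n : ℕ := 5 + (2 * (c : ℤ) - κ).toNat
  have hp : ∀ a, ((p a : ℕ) : ℤ) = u a % 6 := fun a =>
    Int.toNat_of_nonneg (Int.emod_nonneg _ (by norm_num))
  have hkm : ∀ a, k = 4 * ((e a : ℕ) : ℤ) + 14 * ((p a : ℕ) : ℤ) + 12 * m a := by
    intro a
    rw [hp a, hκ]
    show κ + κ = 4 * ((e a : ℕ) : ℤ) + 14 * (u a % 6) + 12 * (u a / 6 - u a % 6)
    have : u a = κ - 2 * ((e a : ℕ) : ℤ) := rfl
    omega
  have hmn : ∀ a, 0 ≤ m a + (n : ℤ) := by
    intro a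
    have h1 : u a = κ - 2 * ((e a : ℕ) : ℤ) := rfl
    have h2 : ((e a : ℕ) : ℤ) < c := by exact_mod_cast (e a).2
    show 0 ≤ (u a / 6 - u a % 6) + ((5 + (2 * (c : ℤ) - κ).toNat : ℕ) : ℤ)
    push_cast
    omega
  let F : SL(2, ℤ) ⧸ Gamma0 N → ℍ → ℂ := fun a => tupleFun N (e a : ℕ) (p a) (m a)
  refine ⟨n, F, fun a => isMF_discriminant_pow_mul_tupleFun N _ _ _ k (hkm a) n (hmn a), ?_, ?_, ?_⟩
  · -- holomorphy
    intro a
    have h := (isMF_discriminant_pow_mul_tupleFun N _ _ _ k (hkm a) n (hmn a)).mdiff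
    have hΔ : MDiff (fun z : ℍ => (Δ z ^ n)⁻¹) := by
      have h1 : (fun z : ℍ => (Δ z ^ n)⁻¹) = (1 : ℍ → ℂ) / (⇑CuspForm.discriminant ^ n) := by
        funext z; simp
      rw [h1]
      exact (mdifferentiable_const (c := (1 : ℂ))).div (CuspForm.discriminant.holo'.pow n)
        (fun z => pow_ne_zero _ (discriminant_ne_zero z))
    have h2 := hΔ.mul h
    have h3 : ((fun z : ℍ => (Δ z ^ n)⁻¹) * fun z => Δ z ^ n * tupleFun N (e a : ℕ) (p a) (m a) z)
        = F a := by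
      funext z
      have hz : Δ z ^ n ≠ 0 := pow_ne_zero _ (discriminant_ne_zero z)
      show (Δ z ^ n)⁻¹ * (Δ z ^ n * F a z) = F a z
      rw [← mul_assoc, inv_mul_cancel₀ hz, one_mul]
    rw [h3] at h2
    exact h2
  · -- invariance under `Γ₀(N)`
    intro a γ hγ
    funext z
    rw [tupleFun_slash N _ _ _ k (hkm a)]
    have hγ' : (Matrix.SpecialLinearGroup.mapGL ℝ γ) ∈ G0 N := (mapGL_mem_G0_iff N γ).mpr hγ
    have : FormT.T N ∣[(4 : ℤ)] γ = FormT.T N := (FormT.isMF_T N).slash_eq hγ'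
    rw [this]
    rfl
  · -- the determinant
    let Tx : SL(2, ℤ) ⧸ Gamma0 N → ℍ → ℂ := fun x => FormT.T N ∣[(4 : ℤ)] (r x)⁻¹
    have hTx : ∀ x, MDiff (Tx x) := fun x => (FormT.isMF_T N).mdiff.slash 4 _
    let ι := Option (Option {q : (SL(2, ℤ) ⧸ Gamma0 N) × (SL(2, ℤ) ⧸ Gamma0 N) // q.1 ≠ q.2})
    let f : ι → ℍ → ℂ := fun i =>
      match i with
      | none => (E₄ : ℍ → ℂ)
      | some none => (E₆ : ℍ → ℂ)
      | some (some q) => Tx q.1.1 - Tx q.1.2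
    have hf : ∀ i, MDiff (f i) := by
      intro i
      match i with
      | none => exact E₄.holo'
      | some none => exact E₆.holo'
      | some (some q) => exact (hTx _).sub (hTx _)
    have hne : ∀ i, f i ≠ 0 := by
      intro i
      match i with
      | none =>
        intro h0
        exact E_ne_zero (by norm_num : 3 ≤ 4) ⟨2, rfl⟩ (DFunLike.coe_injective h0)
      | some none =>
        intro h0
        exact E_ne_zero (by norm_num : 3 ≤ 6) ⟨3, rfl⟩ (DFunLike.coe_injective h0)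
      | some (some q) =>
        intro h0
        have hq := q.2
        have h1 : Tx q.1.1 = Tx q.1.2 := sub_eq_zero.mp h0
        refine T_slash_inv_ne N (g := r q.1.1) (h := r q.1.2) ?_ h1
        rw [hr, hr]
        exact hq
    obtain ⟨z, hz⟩ := exists_forall_ne_zero f hf hne
    refine ⟨z, ?_⟩
    have h4 : E₄ z ≠ 0 := hz none
    have h6 : E₆ z ≠ 0 := hz (some none)
    have hinj : Function.Injective (fun x => Tx x z) := by
      intro x y hxy
      by_contra hne'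
      have := hz (some (some ⟨(x, y), hne'⟩))
      apply this
      show Tx x z - Tx y z = 0
      rw [sub_eq_zero]
      exact hxy
    have hM : (Matrix.of fun a x => (F a ∣[k] (r x)⁻¹) z)
        = Matrix.of fun a x => (fun x => Tx x z) x ^ (e a : ℕ) * (fun a => mono (p a) (m a) z) a := by
      ext a x
      simp only [Matrix.of_apply]
      exact tupleFun_slash N _ _ _ k (hkm a) (r x)⁻¹ z
    rw [hM]
    exact det_pow_mul_ne_zero e _ hinj _ (fun a => mono_ne_zero h4 h6 _ _)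

end Fermat.Agent.S20.Tuple

namespace Fermat.Agent.S20

open CongruenceSubgroup

/-- **B2 (blueprint shape)**: for every even `k` there is a tuple `F : X N → ℍ → ℂ` of weakly
holomorphic forms of weight `k` on `Γ₀(N)` whose conjugate determinant is not identically zero. -/
theorem exists_isWH_tuple (N : ℕ) [NeZero N] {k : ℤ} (hk : Even k) :
    ∃ (n : ℕ) (F : X N → ℍ → ℂ), (∀ a, IsWH N k n (F a)) ∧ ∃ z : ℍ, detFun k F z ≠ 0 := by
  classical
  obtain ⟨n, F, hF, -, -, z, hz⟩ := Tuple.exists_tuple N hk (Quotient.out : X N → SL(2, ℤ))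
    (fun x => QuotientGroup.out_eq' x)
  refine ⟨n, F, fun a => hF a, z, ?_⟩
  unfold detFun conjMat cj
  convert hz

end Fermat.Agent.S20
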