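import Fermat.Agent.S20.Glue
import Fermat.Agent.S20.Maximal
import Fermat.Agent.S20.Tuple
import Fermat.Agent.S20.LevelOneWH
import Fermat.Agent.S20.LocalGlueDef
import Fermat.Agent.S20_helper25.EllipticDenom
import Fermat.Agent.S20_helper27.Counts
import Fermat.Agent.LevelOne_helper29.JOrders

/-!
# T20 / B3 (b) + B5: the shape of the determinant of a maximal tuple

`hasMaximalShape_of : HasLocalGlue N 2 → HasMaximalShape N`: from the local gluing property (B4)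
we obtain a tuple of weakly holomorphic forms of weight `2` whose squared conjugate determinant is
`C E₄^(2(μ+f₃)) E₆^(μ+f₂) Δ^γ`.
-/

set_option autoImplicit false

open UpperHalfPlane ModularForm CongruenceSubgroup Matrix.SpecialLinearGroup ModularGroup
  Filter Topology
open scoped MatrixGroups ModularForm Manifold

namespace Fermat.Agent.S20

open Fermat.Agent.S23 (G0 IsMF IsCF)
open Fermat.Agent.LevelOne_helper29 (jInv)
open Fermat.Agent.S20_helper90 (forcedOrd)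

local notation "Δ" => ModularForm.discriminant

open Classical

namespace MaximalShape

/-! ### Conjugating an elliptic element -/

/-- cocycle relation for the denominators of elements of `SL(2, ℤ)` -/
lemma denom_mul_SL (g h : SL(2, ℤ)) (z : ℍ) :
    denom ((g * h : SL(2, ℤ)) : GL (Fin 2) ℝ) z =
      denom (g : GL (Fin 2) ℝ) ((h • z : ℍ) : ℂ) * denom (h : GL (Fin 2) ℝ) z := by
  have := denom_cocycle_σ (g : GL (Fin 2) ℝ) (h : GL (Fin 2) ℝ) z
  rw [map_mul, map_mul, this]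
  have hσ : σ (h : GL (Fin 2) ℝ) = ContinuousAlgEquiv.refl ℝ ℂ := by
    simp [σ]
  rw [hσ]
  rfl

lemma conj_smul_of_fixed {h : SL(2, ℤ)} {τ : ℍ} (hfix : h • τ = τ) (γ : SL(2, ℤ)) :
    (γ * h * γ⁻¹) • (γ • τ) = γ • τ := by
  rw [mul_smul, inv_smul_smul, mul_smul, hfix]

lemma conj_pow_eq_neg_one {h : SL(2, ℤ)} {e : ℕ} (hh : h ^ e = -1) (γ : SL(2, ℤ)) :
    (γ * h * γ⁻¹) ^ e = -1 := by
  rw [conj_pow, hh]
  simp

lemma denom_conj_of_fixed {h : SL(2, ℤ)} {τ : ℍ} (hfix : h • τ = τ) (γ : SL(2, ℤ)) :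
    denom ((γ * h * γ⁻¹ : SL(2, ℤ)) : GL (Fin 2) ℝ) ((γ • τ : ℍ) : ℂ) =
      denom (h : GL (Fin 2) ℝ) τ := by
  rw [denom_mul_SL, inv_smul_smul, denom_mul_SL, hfix]
  have h1 : denom ((γ⁻¹ : SL(2, ℤ)) : GL (Fin 2) ℝ) ((γ • τ : ℍ) : ℂ) *
      denom (γ : GL (Fin 2) ℝ) τ = 1 := by
    rw [← denom_mul_SL, inv_mul_cancel]
    simp [denom]
  linear_combination (denom (h : GL (Fin 2) ℝ) τ) * h1

lemma card_fixed_conj {N : ℕ} (h γ : SL(2, ℤ)) :
    Nat.card {x : X N // (γ * h * γ⁻¹) • x = x} = Nat.card {x : X N // h • x = x} := by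
  refine Nat.card_congr ?_
  refine (MulAction.toPerm γ⁻¹ : Equiv.Perm (X N)).subtypeEquiv fun x => ?_
  simp only [MulAction.toPerm_apply]
  rw [mul_smul, mul_smul]
  exact eq_inv_smul_iff.symm

/-! ### The two elliptic points -/

lemma S_smul_I' : (S : SL(2, ℤ)) • UpperHalfPlane.I = UpperHalfPlane.I :=
  stabilizer_I.mpr (by simp)

lemma ST_smul_ρ' : (S * T : SL(2, ℤ)) • UpperHalfPlane.ρ = UpperHalfPlane.ρ :=
  stabilizer_ρ.mpr (by simp)

lemma S_sq_eq : (S : SL(2, ℤ)) ^ 2 = -1 := by decide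

lemma ST_cube_eq : (S * T : SL(2, ℤ)) ^ 3 = -1 := by decide

lemma denom_S_I : denom ((S : SL(2, ℤ)) : GL (Fin 2) ℝ) (UpperHalfPlane.I : ℂ) = Complex.I := by
  rw [← S20_helper25.den_eq_denom, S20_helper25.den_S_I]

lemma denom_ST_ρ : denom ((S * T : SL(2, ℤ)) : GL (Fin 2) ℝ) (UpperHalfPlane.ρ : ℂ) =
    (UpperHalfPlane.ρ : ℂ) + 1 := by
  rw [← S20_helper25.den_eq_denom, S20_helper25.den_ST_rho]

lemma rho_inv_eq : ((UpperHalfPlane.ρ : ℂ))⁻¹ = (UpperHalfPlane.ρ : ℂ) ^ 2 := by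
  have h3 := S20_helper25.rho_cube
  have hne : (UpperHalfPlane.ρ : ℂ) ≠ 0 := fun h => by
    rw [h] at h3; norm_num at h3
  field_simp
  rw [← h3]

lemma isPrimitiveRoot_rho_inv : IsPrimitiveRoot (((UpperHalfPlane.ρ : ℂ) + 1) ^ 2)⁻¹ 3 := by
  rw [S20_helper25.rho_add_one_sq]
  have h3 := S20_helper25.rho_cube
  have hρ : IsPrimitiveRoot (UpperHalfPlane.ρ : ℂ) 3 := by
    refine IsPrimitiveRoot.mk_of_lt _ (by norm_num) h3 fun l hl0 hl3 => ?_
    have him : ((UpperHalfPlane.ρ : ℍ) : ℂ).im = Real.sqrt 3 / 2 := rfl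
    have hs3 : (0 : ℝ) < Real.sqrt 3 := Real.sqrt_pos.mpr (by norm_num)
    interval_cases l
    · intro h
      have := congrArg Complex.im h
      simp only [pow_one, him, Complex.one_im] at this
      linarith
    · rw [UpperHalfPlane.ρ_sq]
      intro h
      have := congrArg Complex.im h
      simp only [Complex.sub_im, Complex.neg_im, Complex.one_im, him] at this
      linarith
  exact hρ.inv

/-! ### Orders of `j - j(τ₀)` -/

lemma ord_jSub_of_E6 {τ : ℍ} (h : E₆ τ = 0) :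
    analyticOrderAt ((fun z => jInv z - jInv τ) ∘ ofComplex) (τ : ℂ) = 2 := by
  have := LevelOne_helper29.ordAt_jInv_sub_of_E6_eq_zero h
  rw [LevelOne_helper29.ordAt_def] at this
  rw [(LevelOne_helper29.jInv_eq_1728_iff τ).mpr h]
  exact this

lemma ord_jSub_of_E4 {τ : ℍ} (h : E₄ τ = 0) :
    analyticOrderAt ((fun z => jInv z - jInv τ) ∘ ofComplex) (τ : ℂ) = 3 := by
  have := LevelOne_helper29.ordAt_jInv_of_E4_eq_zero h
  rw [LevelOne_helper29.ordAt_def] at this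
  rw [(LevelOne_helper29.jInv_eq_zero_iff τ).mpr h]
  simpa using this

lemma ord_jSub_of_ne {τ : ℍ} (h4 : E₄ τ ≠ 0) (h6 : E₆ τ ≠ 0) :
    analyticOrderAt ((fun z => jInv z - jInv τ) ∘ ofComplex) (τ : ℂ) = 1 := by
  have := LevelOne_helper29.ordAt_jInv_sub_of_ne_zero h4 h6
  rw [LevelOne_helper29.ordAt_def] at this
  exact this

lemma exists_smul_I_of_E6 {τ : ℍ} (h : E₆ τ = 0) :
    ∃ γ : SL(2, ℤ), γ • UpperHalfPlane.I = τ := by
  rw [← jSub_eq_zero_iff, jSub_apply, (LevelOne_helper29.jInv_eq_1728_iff τ).mpr h,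
    LevelOne_helper29.jInv_I, sub_self]

lemma exists_smul_ρ_of_E4 {τ : ℍ} (h : E₄ τ = 0) :
    ∃ γ : SL(2, ℤ), γ • UpperHalfPlane.ρ = τ := by
  rw [← jSub_eq_zero_iff, jSub_apply, (LevelOne_helper29.jInv_eq_zero_iff τ).mpr h,
    LevelOne_helper29.jInv_rho, sub_self]

/-! ### The forced orders -/

/-- the forced order of the conjugate determinant (weight `2`) at `τ` -/
noncomputable def d0 (N : ℕ) (τ : ℍ) : ℕ∞ :=
  if E₆ τ = 0 then ((forcedOrd 2 1 (mu N) (f2 N) : ℕ) : ℕ∞)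
  else if E₄ τ = 0 then ((forcedOrd 3 2 (mu N) (f3 N) : ℕ) : ℕ∞) else 0

lemma f2_le_mu (N : ℕ) [NeZero N] : f2 N ≤ mu N := Finite.card_subtype_le _

lemma f3_le_mu (N : ℕ) [NeZero N] : f3 N ≤ mu N := Finite.card_subtype_le _

lemma two_mul_forcedOrd_two (N : ℕ) [NeZero N] :
    2 * forcedOrd 2 1 (mu N) (f2 N) = mu N + f2 N := by
  have h := S20_helper27.prime_mul_card_orbits (X := X N) S Nat.prime_two
    (S20_helper27.S_sq_smul (N := N))
  have hle := f2_le_mu N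
  rw [S20_helper90.forcedOrd_two]
  change 2 * _ = mu N + (2 - 1) * f2 N at h
  omega

lemma forcedOrd_three_eq (N : ℕ) [NeZero N] :
    forcedOrd 3 2 (mu N) (f3 N) = mu N + f3 N := by
  have h := S20_helper27.prime_mul_card_orbits (X := X N) (S * T) Nat.prime_three
    (S20_helper27.ST_cube_smul (N := N))
  have hle := f3_le_mu N
  change 3 * _ = mu N + (3 - 1) * f3 N at h
  have hdvd : 3 ∣ mu N - f3 N := by omega
  rw [S20_helper90.forcedOrd_three _ _ _ hdvd]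
  omega

/-! ### B4 ⇒ the saturation alternative in the shape of `exists_maximal_tuple` -/

theorem exists_saturating_of_localGlue {N : ℕ} [NeZero N] (hLG : HasLocalGlue N 2) {n : ℕ}
    {F : X N → ℍ → ℂ} (hF : ∀ a, IsWH N 2 n (F a)) (τ0 : ℍ)
    (hne : analyticOrderAt (detFun 2 F ∘ ofComplex) (τ0 : ℂ) ≠ d0 N τ0) :
    ∃ c : X N → ℂ, c ≠ 0 ∧ ∀ x : X N,
      analyticOrderAt ((fun z => jInv z - jInv τ0) ∘ ofComplex) (τ0 : ℂ) ≤
        analyticOrderAt ((fun z => ∑ a, c a * cj 2 (F a) x z) ∘ ofComplex) (τ0 : ℂ) := by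
  obtain ⟨hfix, hgen⟩ := hLG hF
  by_cases h6 : E₆ τ0 = 0
  · have hd : d0 N τ0 = ((forcedOrd 2 1 (mu N) (f2 N) : ℕ) : ℕ∞) := by simp [d0, h6]
    have hj := ord_jSub_of_E6 h6
    obtain ⟨γ, rfl⟩ := exists_smul_I_of_E6 h6
    have hden : denom ((γ * S * γ⁻¹ : SL(2, ℤ)) : GL (Fin 2) ℝ)
        ((γ • UpperHalfPlane.I : ℍ) : ℂ) = Complex.I := by
      rw [denom_conj_of_fixed S_smul_I', denom_S_I]
    obtain ⟨hL1, hL2⟩ := hfix 2 1 (γ * S * γ⁻¹) (γ • UpperHalfPlane.I) Nat.prime_two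
      (conj_smul_of_fixed S_smul_I' γ) (conj_pow_eq_neg_one S_sq_eq γ)
      (by rw [hden, Complex.I_sq, inv_neg, inv_one]; exact IsPrimitiveRoot.neg_one 0 (by norm_num))
      (by rw [hden]; norm_num)
    rw [card_fixed_conj] at hL1 hL2
    have hlt := lt_of_le_of_ne hL1 (fun h => hne (by rw [hd]; exact h.symm))
    obtain ⟨c, hc, hcx⟩ := hL2 hlt
    refine ⟨c, hc, fun x => ?_⟩
    rw [hj]
    exact_mod_cast hcx x
  · by_cases h4 : E₄ τ0 = 0
    · have hd : d0 N τ0 = ((forcedOrd 3 2 (mu N) (f3 N) : ℕ) : ℕ∞) := by simp [d0, h6, h4]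
      have hj := ord_jSub_of_E4 h4
      obtain ⟨γ, rfl⟩ := exists_smul_ρ_of_E4 h4
      have hden : denom ((γ * (S * T) * γ⁻¹ : SL(2, ℤ)) : GL (Fin 2) ℝ)
          ((γ • UpperHalfPlane.ρ : ℍ) : ℂ) = (UpperHalfPlane.ρ : ℂ) + 1 := by
        rw [denom_conj_of_fixed ST_smul_ρ', denom_ST_ρ]
      obtain ⟨hL1, hL2⟩ := hfix 3 2 (γ * (S * T) * γ⁻¹) (γ • UpperHalfPlane.ρ) Nat.prime_three
        (conj_smul_of_fixed ST_smul_ρ' γ) (conj_pow_eq_neg_one ST_cube_eq γ)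
        (by rw [hden]; exact isPrimitiveRoot_rho_inv)
        (by
          rw [hden, S20_helper25.rho_add_one_sq, rho_inv_eq, ← pow_mul]
          have h3 := S20_helper25.rho_cube
          have : ((UpperHalfPlane.ρ : ℂ) + 1) ^ (2 : ℤ) = (UpperHalfPlane.ρ : ℂ) := by
            rw [zpow_ofNat, S20_helper25.rho_add_one_sq]
          rw [this]
          calc (UpperHalfPlane.ρ : ℂ) = (UpperHalfPlane.ρ : ℂ) ^ 3 * (UpperHalfPlane.ρ : ℂ) := by
                rw [h3, one_mul]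
            _ = (UpperHalfPlane.ρ : ℂ) ^ (2 * 2) := by ring)
      rw [card_fixed_conj] at hL1 hL2
      have hlt := lt_of_le_of_ne hL1 (fun h => hne (by rw [hd]; exact h.symm))
      obtain ⟨c, hc, hcx⟩ := hL2 hlt
      refine ⟨c, hc, fun x => ?_⟩
      rw [hj]
      exact_mod_cast hcx x
    · have hd : d0 N τ0 = 0 := by simp [d0, h6, h4]
      rw [hd] at hne
      obtain ⟨c, hc, hcx⟩ := hgen τ0 (pos_iff_ne_zero.mpr hne)
      refine ⟨c, hc, fun x => ?_⟩
      rw [ord_jSub_of_ne h4 h6]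
      exact hcx x

end MaximalShape

/-! ### The main theorem -/

open MaximalShape in
theorem hasMaximalShape_of (N : ℕ) [NeZero N] (hLG : HasLocalGlue N 2) : HasMaximalShape N := by
  obtain ⟨n, F, hF, ⟨z0, hz0⟩, hord⟩ := exists_maximal_tuple (N := N) (k := 2) (d0 N)
    (fun w m f hf hinv hf0 hb => LevelOneWH.twelve_mul_le_weight hf hinv hf0 hb)
    (exists_isWH_tuple N (by decide : Even (2 : ℤ)))
    (fun n F hF _ τ0 hne => exists_saturating_of_localGlue hLG hF τ0 hne)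
  have hinvF : ∀ a, ∀ γ ∈ Gamma0 N, F a ∣[(2 : ℤ)] γ = F a := fun a γ hγ => (hF a).slash_eq hγ
  have hmdD : MDiff (detFun 2 F) := mdiff_detFun fun a => (hF a).mdiff
  set f : ℍ → ℂ := fun z => detFun 2 F z ^ 2 with hf
  have hL1 : LevelOneWH.IsL1WH (2 * 2 * (mu N : ℤ)) f :=
    ⟨hmdD.pow 2, fun γ => detFun_sq_slash hinvF γ, ⟨_, isBoundedAtImInfty_zpow_mul_detFun_sq hF⟩⟩
  have hf0 : f ≠ 0 := by
    intro h0
    have := congrFun h0 z0
    simp only [hf, Pi.zero_apply] at this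
    exact hz0 ((pow_eq_zero_iff two_ne_zero).mp this)
  have hordf : ∀ τ, LevelOneWH.ordAt f τ = 2 • d0 N τ := by
    intro τ
    have : f = (detFun 2 F) ^ 2 := rfl
    rw [this, LevelOneWH.ordAt_pow hmdD]
    congr 1
    exact hord τ
  have h6ρ : E₆ UpperHalfPlane.ρ ≠ 0 :=
    LevelOne_helper29.E6_ne_zero_of_E4_eq_zero LevelOne_helper29.E4_rho
  obtain ⟨m, C, hC, hw, hshape⟩ := hL1.shape hf0 UpperHalfPlane.ρ UpperHalfPlane.I
    (2 * (mu N + f3 N)) (mu N + f2 N)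
    (fun τ h => by obtain ⟨γ, hγ⟩ := exists_smul_ρ_of_E4 h; exact ⟨γ, hγ.symm⟩)
    (fun τ h => LevelOne_helper29.ordAt_E4 h)
    (fun τ h => by obtain ⟨γ, hγ⟩ := exists_smul_I_of_E6 h; exact ⟨γ, hγ.symm⟩)
    (fun τ h => LevelOne_helper29.ordAt_E6 h)
    (fun τ h4 h6 => by
      have h1 : LevelOneWH.ordAt (detFun 2 F) τ = 0 := by
        rw [show LevelOneWH.ordAt (detFun 2 F) τ = d0 N τ from hord τ]
        simp [d0, h4, h6]
      have h2 : detFun 2 F τ ≠ 0 := (LevelOne_helper29.ordAt_eq_zero_iff hmdD τ).mp h1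
      exact pow_ne_zero 2 h2)
    (by
      rw [hordf]
      simp only [d0, h6ρ, LevelOne_helper29.E4_rho, if_false, if_true]
      rw [forcedOrd_three_eq]
      push_cast
      ring)
    (by
      rw [hordf]
      simp only [d0, LevelOne_helper29.E6_I, if_true]
      rw [← two_mul_forcedOrd_two]
      push_cast
      ring)
  refine ⟨n, F, C, m, hF, hC, hshape, ?_⟩
  push_cast at hw
  linarith

end Fermat.Agent.S20
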